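import Fermat.Agent.TorsionHom.Kernel

/-!
Normalised representatives of functions with divisor divisible by `n`, up to `n`-th powers.
-/

set_option autoImplicit false

noncomputable section

open CongruenceSubgroup Function
open scoped MatrixGroups

namespace FLTAgent.TorsionHom

open FLTAgent.X0Fn AlgebraicCurve
open FLTAgent.Curves (IsFunctionField lord_mul lord_inv lord_pow OrdGE ordGE_of_le)
open FLTAgent.PeriodHecke (Hpar)

variable {N : ℕ} [NeZero N] {K : Type*} [Field K] [Algebra ℚ K] [IsAlgClosed K] (κ : K →+* ℂ)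

local notation "Γ₀" => Gamma0 N
local notation "Cx" => Additive ℂˣ

include κ in
theorem exists_infPlace : ∃ v : Place K (XF K N), ∀ x : XF K N,
    (x : LaurentSeries K).order = v.ord x := by
  haveI := (isFunctionField_and_finrank (N := N) κ).1
  haveI : CharZero K := charZero_of_injective_algebraMap (algebraMap ℚ K).injective
  have hj0 : ((jF K N : XF K N) : LaurentSeries K).order = -1 := by
    have h1 := order_iota_jq (N := N) κ
    have hne : (ModularCurve.coeffEmb K ModularCurve.jq) ≠ 0 := fun h => by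
      rw [h, map_zero, HahnSeries.order_zero] at h1
      exact NeZero.ne N (by omega)
    rw [order_iota κ hne] at h1
    have hN : (N : ℤ) ≠ 0 := Nat.cast_ne_zero.2 (NeZero.ne N)
    exact mul_left_cancel₀ hN (h1.trans (by ring))
  obtain ⟨v, c, hc, hv⟩ := Curves.exists_place (C := K) (κ := RingHom.id K)
    ((XF K N).val : XF K N →+* LaurentSeries K)
    (fun a => by simp [HahnSeries.C_apply, ModularCurve.algebraMap_laurentSeries_eq_single])
    (t := (jF K N)⁻¹) (by
      show 0 < (((jF K N)⁻¹ : XF K N) : LaurentSeries K).order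
      rw [IntermediateField.coe_inv, lord_inv, hj0]; norm_num)
  have h1 := hv (jF K N)⁻¹
  change (((jF K N)⁻¹ : XF K N) : LaurentSeries K).order = _ at h1
  rw [IntermediateField.coe_inv, lord_inv, hj0, neg_neg] at h1
  have hc1 : c = 1 := Int.eq_one_of_dvd_one hc.le ⟨_, h1⟩
  exact ⟨v, fun x => (hv x).trans (by rw [hc1, one_mul])⟩

variable (N) in
/-- The place at infinity. -/
def infPlace : Place K (XF K N) := (exists_infPlace (N := N) κ).choose

theorem order_coe (x : XF K N) : (x : LaurentSeries K).order = (infPlace N κ).ord x :=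
  (exists_infPlace (N := N) κ).choose_spec x

/-- Divisor divisible by `n` and effective away from infinity. -/
def Good (n : ℕ) (x : XF K N) : Prop :=
  x ≠ 0 ∧ ∀ v : Place K (XF K N), (n : ℤ) ∣ v.ord x ∧ (v ≠ infPlace N κ → 0 ≤ v.ord x)

/-- The normalised representative. -/
def Reduced (n : ℕ) (x : XF K N) : Prop :=
  Good κ n x ∧ (x : LaurentSeries K).leadingCoeff = 1 ∧
    ∀ y : XF K N, y ≠ 0 → Good κ n (x * y ^ n) →
      (infPlace N κ).ord (x * y ^ n) ≤ (infPlace N κ).ord x

variable {κ} {n : ℕ}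

theorem Good.ord_nonpos {x : XF K N} (h : Good κ n x) : (infPlace N κ).ord x ≤ 0 := by
  classical
  haveI := (isFunctionField_and_finrank (N := N) κ).1
  set s := insert (infPlace N κ) (Curves.divOf K x).support
  have h0 := Curves.degree_divOf (K := K) x
  rw [Curves.degree_eq_sum (s := s) (Finset.subset_insert _ _),
    ← Finset.add_sum_erase _ _ (Finset.mem_insert_self _ _)] at h0
  have h1 : 0 ≤ ∑ v ∈ s.erase (infPlace N κ), Curves.divOf K x v :=
    Finset.sum_nonneg fun v hv => (h.2 v).2 (Finset.ne_of_mem_erase hv)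
  rw [Curves.divOf_apply] at h0
  linarith

theorem exists_good (hn : n ≠ 0) {x : XF K N} (hx : x ≠ 0) (hd : ∀ v : Place K (XF K N), (n : ℤ) ∣ v.ord x) :
    ∃ y : XF K N, y ≠ 0 ∧ Good κ n (x * y ^ n) := by
  classical
  haveI := (isFunctionField_and_finrank (N := N) κ).1
  haveI : CharZero K := charZero_of_injective_algebraMap (algebraMap ℚ K).injective
  have ht := transcendental_jF (N := N) κ
  obtain ⟨B⟩ := Curves.nonempty_reducedBasis (K := K) ht
  set E : Divisor K (XF K N) := (Curves.divOf K x).mapRange (· / (n : ℤ)) (Int.zero_ediv _) with hE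
  set m : ℤ := |Divisor.degree E| + ∑ i, (B.k i : ℤ) + 1 with hm
  set D := E + Finsupp.single (infPlace N κ) m with hD
  have hdeg : Divisor.degree D = Divisor.degree E + m := by
    rw [hD, map_add, Divisor.degree_single, Curves.deg_eq_one]; simp
  have hr := Curves.riemann_le B ht D
  rw [hdeg] at hr
  have hpos : 0 < Module.finrank K (riemannRochSpace D) := by
    have := neg_abs_le (Divisor.degree E)
    omega
  obtain ⟨f, hf, hf0'⟩ := (Submodule.ne_bot_iff (riemannRochSpace D)).1 fun h => by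
    rw [h, finrank_bot] at hpos
    omega
  refine ⟨f, hf0', mul_ne_zero hx (pow_ne_zero _ hf0'), fun v => ?_⟩
  obtain ⟨k, hk⟩ := hd v
  have hord : v.ord (x * f ^ n) = n * (k + v.ord f) := by
    rw [v.ord_mul hx (pow_ne_zero _ hf0'), Curves.ord_pow, hk]; ring
  refine ⟨⟨_, hord⟩, fun hv => ?_⟩
  have h1 := (Curves.mem_rrSpace.1 hf v).le_ord hf0'
  rw [hD, Finsupp.add_apply, Finsupp.single_eq_of_ne hv, add_zero, hE, Finsupp.mapRange_apply,
    Curves.divOf_apply, hk, Int.mul_ediv_cancel_left _ (by exact_mod_cast hn)] at h1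
  rw [hord]
  exact mul_nonneg (by positivity) (by linarith)

theorem exists_reduced (hn : n ≠ 0) {x : XF K N} (hx : x ≠ 0)
    (hd : ∀ v : Place K (XF K N), (n : ℤ) ∣ v.ord x) :
    ∃ y : XF K N, y ≠ 0 ∧ Reduced κ n (x * y ^ n) := by
  classical
  haveI := (isFunctionField_and_finrank (N := N) κ).1
  let P : ℤ → Prop := fun k => ∃ y : XF K N, y ≠ 0 ∧ Good κ n (x * y ^ n) ∧
    (infPlace N κ).ord (x * y ^ n) = k
  obtain ⟨k, ⟨y, hy, hg, hk⟩, hmax⟩ := Int.exists_greatest_of_bdd (P := P)
    ⟨0, fun k ⟨_, _, hg, hk⟩ => hk ▸ hg.ord_nonpos⟩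
    (let ⟨y, hy, hg⟩ := exists_good hn hx hd; ⟨_, y, hy, hg, rfl⟩)
  set c := ((x * y ^ n : XF K N) : LaurentSeries K).leadingCoeff with hc
  have hc0 : c ≠ 0 := HahnSeries.leadingCoeff_ne_zero.2 fun h => hg.1 (Subtype.ext h)
  obtain ⟨d, hd'⟩ := IsAlgClosed.exists_pow_nat_eq c⁻¹ (Nat.pos_of_ne_zero hn)
  have hd0 : d ≠ 0 := fun h => inv_ne_zero hc0 (by rw [← hd', h, zero_pow hn])
  have hdF : algebraMap K (XF K N) d ≠ 0 := (map_ne_zero _).2 hd0
  have hsame : ∀ v : Place K (XF K N),
      v.ord (x * (y * algebraMap K (XF K N) d) ^ n) = v.ord (x * y ^ n) := fun v => by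
    rw [mul_pow, ← mul_assoc, v.ord_mul hg.1 (pow_ne_zero _ hdF), Curves.ord_pow, Curves.ord_algebraMap,
      mul_zero, add_zero]
  refine ⟨y * algebraMap K (XF K N) d, mul_ne_zero hy hdF, ⟨?_, fun v => hsame v ▸ hg.2 v⟩, ?_, ?_⟩
  · exact mul_ne_zero hx (pow_ne_zero _ (mul_ne_zero hy hdF))
  · rw [show x * (y * algebraMap K (XF K N) d) ^ n = (x * y ^ n) * algebraMap K (XF K N) (d ^ n) by
        rw [map_pow]; ring, IntermediateField.coe_mul, HahnSeries.leadingCoeff_mul, ← hc, hd',
      IntermediateField.coe_algebraMap_apply, ModularCurve.algebraMap_laurentSeries_eq_single,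
      HahnSeries.leadingCoeff_of_single, mul_inv_cancel₀ hc0]
  · intro z hz hgz
    rw [hsame, hk]
    exact hmax _ ⟨y * algebraMap K (XF K N) d * z, mul_ne_zero (mul_ne_zero hy hdF) hz,
      by rwa [mul_pow _ z, ← mul_assoc],
      by rw [mul_pow _ z, ← mul_assoc]⟩

/-- Reduced functions congruent modulo powers are equal. -/
theorem Reduced.eq_of_pow (hn : n ≠ 0) {x x' w : XF K N} (hx : Reduced κ n x)
    (hx' : Reduced κ n x') (hw : w ≠ 0) (h : x = x' * w ^ n) : x = x' := by
  haveI := (isFunctionField_and_finrank (N := N) κ).1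
  set v₀ := infPlace N κ
  have h' : x * w⁻¹ ^ n = x' := by
    rw [h, mul_assoc, inv_pow, mul_inv_cancel₀ (pow_ne_zero _ hw), mul_one]
  have e1 := hx'.2.2 w hw (h ▸ hx.1)
  have e2 := hx.2.2 w⁻¹ (inv_ne_zero hw) (h'.symm ▸ hx'.1)
  rw [h'] at e2
  rw [← h] at e1
  have hw0 : v₀.ord w = 0 := by
    have h3 := le_antisymm e1 e2
    rw [h, v₀.ord_mul hx'.1.1 (pow_ne_zero _ hw), Curves.ord_pow] at h3
    have : (n : ℤ) * v₀.ord w = 0 := by linarith
    exact (mul_eq_zero.1 this).resolve_left (by exact_mod_cast hn)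
  set c := (w : LaurentSeries K).leadingCoeff with hcdef
  have hc : c ^ n = 1 := by
    have h2 := congrArg HahnSeries.leadingCoeff (congrArg Subtype.val h)
    rwa [IntermediateField.coe_mul, HahnSeries.leadingCoeff_mul, IntermediateField.coe_pow,
      Curves.leadingCoeff_pow', hx.2.1, hx'.2.1, one_mul, eq_comm] at h2
  by_cases hwc : w = algebraMap K (XF K N) c
  · rw [h, hwc, ← map_pow, hc, map_one, mul_one]
  exfalso
  set w' := w - algebraMap K (XF K N) c
  have hw' : w' ≠ 0 := sub_ne_zero.2 hwc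
  have hpos : 0 < v₀.ord w' := by
    rw [← order_coe]
    have ho : (w : LaurentSeries K).order = 0 := by rw [order_coe]; exact hw0
    refine lt_of_not_ge fun hle => ?_
    have hne : (w' : LaurentSeries K) ≠ 0 := fun e => hw' (Subtype.ext e)
    have h4 := HahnSeries.coeff_order_eq_zero.not.2 hne
    apply h4
    rw [show (w' : LaurentSeries K) = (w : LaurentSeries K) - HahnSeries.single 0 c by
      rw [← ModularCurve.algebraMap_laurentSeries_eq_single]; rfl, HahnSeries.coeff_sub]
    rw [show (w' : LaurentSeries K) = (w : LaurentSeries K) - HahnSeries.single 0 c by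
      rw [← ModularCurve.algebraMap_laurentSeries_eq_single]; rfl] at hle
    rcases hle.lt_or_eq with hlt | heq
    · rw [HahnSeries.coeff_eq_zero_of_lt_order (lt_of_lt_of_eq hlt ho.symm),
        HahnSeries.coeff_single_of_ne hlt.ne, sub_zero]
    · rw [heq, HahnSeries.coeff_single_same, hcdef, HahnSeries.leadingCoeff_eq, ho, sub_self]
  have hg : Good κ n (x' * w' ^ n) := by
    refine ⟨mul_ne_zero hx'.1.1 (pow_ne_zero _ hw'), fun v => ?_⟩
    rw [v.ord_mul hx'.1.1 (pow_ne_zero _ hw'), Curves.ord_pow]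
    refine ⟨dvd_add (hx'.1.2 v).1 (dvd_mul_right _ _), fun hv => ?_⟩
    have h5 : min (v.ord w) 0 ≤ v.ord w' :=
      (((ordGE_of_le (le_refl (v.ord w))).mono (min_le_left _ 0)).sub
        ((Curves.ordGE_algebraMap v c).mono (min_le_right _ 0))).le_ord hw'
    have h6 : v.ord x = v.ord x' + n * v.ord w := by
      rw [h, v.ord_mul hx'.1.1 (pow_ne_zero _ hw), Curves.ord_pow]
    have h7 := (hx.1.2 v).2 hv
    have h8 := (hx'.1.2 v).2 hv
    have h9 : (n : ℤ) * min (v.ord w) 0 ≤ n * v.ord w' := mul_le_mul_of_nonneg_left h5 (by positivity)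
    rcases le_total (v.ord w) 0 with hle | hle
    · rw [min_eq_left hle] at h9; linarith
    · rw [min_eq_right hle] at h9; linarith
  have e3 := hx'.2.2 w' hw' hg
  rw [v₀.ord_mul hx'.1.1 (pow_ne_zero _ hw'), Curves.ord_pow] at e3
  nlinarith [Nat.pos_of_ne_zero hn]

theorem isCharFn_one (hn : n ≠ 0) : IsCharFn (N := N) κ n (1 : LaurentSeries K) 0 := by
  simpa using isCharFn_pow (κ := κ) (a := (1 : W0 N)) (b := 1) (y := 1)
    (fun h => one_ne_zero (congrFun (congrArg Subtype.val h) UpperHalfPlane.I)) (by simp) hn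

theorem isCharFn_natPow {x : LaurentSeries K} {χ : Additive Γ₀ →+ Cx} (hn : n ≠ 0)
    (h : IsCharFn κ n x χ) (m : ℕ) : IsCharFn κ n (x ^ m) (m • χ) := by
  induction m with
  | zero =>
    rw [pow_zero, show (0 : ℕ) • χ = 0 from mult_injective fun γ => by
      rw [mult_nsmul, mult_zero, pow_zero]]
    exact isCharFn_one hn
  | succ m ih =>
    rw [pow_succ, show (m + 1) • χ = m • χ + χ from mult_injective fun γ => by
      rw [mult_add, mult_nsmul, mult_nsmul, pow_succ]]
    exact ih.mul h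

/-- Functions with equal characters differ by a power. -/
theorem exists_pow_ratio (hn : n ≠ 0) {x x' : XF K N} (hx : x ≠ 0) (hx' : x' ≠ 0)
    {χ : Additive Γ₀ →+ Cx} (hχ : n • χ = 0) (h : IsCharFn κ n (x : LaurentSeries K) χ)
    (h' : IsCharFn κ n (x' : LaurentSeries K) χ) : ∃ w : XF K N, w ≠ 0 ∧ x = x' * w ^ n := by
  have h1 := h.mul (isCharFn_natPow hn h' (n - 1))
  rw [show χ + (n - 1) • χ = 0 from hχ ▸ mult_injective fun γ => by
    rw [mult_add, mult_nsmul, mult_nsmul, ← pow_succ', Nat.sub_add_cancel (Nat.pos_of_ne_zero hn)]]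
    at h1
  obtain ⟨y, hy, hyn⟩ := exists_pow_eq κ (mul_ne_zero (fun e => hx (Subtype.ext e))
    (pow_ne_zero _ fun e => hx' (Subtype.ext e))) hn h1
  have e : (⟨y, hy⟩ : XF K N) ^ n = x * x' ^ (n - 1) := Subtype.ext (by simpa using hyn)
  refine ⟨⟨y, hy⟩ / x', div_ne_zero (fun h0 => ?_) hx', ?_⟩
  · rw [h0, zero_pow hn, eq_comm] at e
    exact mul_ne_zero hx (pow_ne_zero _ hx') e
  · rw [div_pow, e]
    field_simp
    rw [mul_comm, ← pow_succ, Nat.sub_add_cancel (Nat.pos_of_ne_zero hn)]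

end FLTAgent.TorsionHom
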