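import Fermat.Agent.TorsionHom.Orders
import Fermat.Agent.PeriodHecke.Families
import Fermat.Agent.Kronecker.Inputs
import Fermat.Prelude.Def_ModularCurve_HeckeOperator

/-!
The two degeneracy maps on functions, the embeddings of the upper function field over the lower
one, and the norm as a product of translates.
-/

set_option autoImplicit false

noncomputable section

open UpperHalfPlane CongruenceSubgroup Function
open scoped MatrixGroups Manifold

namespace FLTAgent.TorsionHom

open FLTAgent.X0Fn AlgebraicCurve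
open FLTAgent.CuspForms (mulHalfPlane coe_mulHalfPlane)
open FLTAgent.PeriodHecke (mat mat_mul mat_one HeckeIdx idxSome heckeRep' heckeFam' gamma0Mk)
open ModularCurve (coeffEmb qExpand heckeAlphaBar heckeBetaBar)

local notation "M2" => Matrix (Fin 2) (Fin 2) ℤ

theorem mdiff_mulHalfPlane (l : ℕ) [NeZero l] : MDiff (mulHalfPlane l) := by
  have : mulHalfPlane l = affMap l 1 0 := by
    funext τ
    apply UpperHalfPlane.ext
    rw [coe_mulHalfPlane, coe_affMap (NeZero.ne l) one_ne_zero]
    simp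
  exact this ▸ mdiff_affMap (NeZero.ne l) one_ne_zero 0

/-- The matrix of `τ ↦ l τ`. -/
def diagMat (l : ℕ) : M2 := !![(l : ℤ), 0; 0, 1]

theorem mulHalfPlane_smul (l : ℕ) [NeZero l] {X Y : SL(2, ℤ)}
    (h : diagMat l * (X : M2) = (Y : M2) * diagMat l) (τ : ℍ) :
    mulHalfPlane l (X • τ) = Y • mulHalfPlane l τ := by
  have h00 := congrFun (congrFun h 0) 0
  have h01 := congrFun (congrFun h 0) 1
  have h10 := congrFun (congrFun h 1) 0
  have h11 := congrFun (congrFun h 1) 1
  simp [diagMat, Matrix.mul_apply, Fin.sum_univ_two] at h00 h01 h10 h11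
  have hl : (l : ℤ) ≠ 0 := by exact_mod_cast NeZero.ne l
  have h00' : X 0 0 = Y 0 0 := by
    rw [mul_comm (Y 0 0)] at h00
    exact mul_left_cancel₀ hl h00
  apply UpperHalfPlane.ext
  rw [coe_mulHalfPlane, UpperHalfPlane.coe_specialLinearGroup_apply,
    UpperHalfPlane.coe_specialLinearGroup_apply, coe_mulHalfPlane]
  simp only [algebraMap_int_eq, eq_intCast, Complex.ofReal_intCast]
  rw [h00', h10, h11, ← h01]
  push_cast
  rw [mul_div_assoc', mul_assoc ((Y 1 0 : ℤ) : ℂ)]
  ring

variable {N : ℕ} [NeZero N]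

local notation "Γ₀" => Gamma0 N

/-! ### The fibre over a coset -/

section Fibre

variable (N) (l : ℕ) [Fact l.Prime]

omit [NeZero N] in
theorem exists_decomp (i : HeckeIdx N l) :
    ∃ δ h : Γ₀, heckeRep' N l i = mat δ * diagMat l * mat h := by
  rcases HeckeIdx.cases N l i with ⟨hn, rfl⟩ | ⟨j, rfl⟩
  · have hcop : IsCoprime (l : ℤ) (N : ℤ) :=
      Int.isCoprime_iff_nat_coprime.mpr (by
        simpa using ((Fact.out : l.Prime).coprime_iff_not_dvd).mpr (hn rfl))
    obtain ⟨s, t, hst⟩ := hcop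
    refine ⟨gamma0Mk N s t (-(N : ℤ)) l (by linear_combination hst) (dvd_neg.2 dvd_rfl),
      gamma0Mk N 1 (-t) N (l * s) (by linear_combination hst) dvd_rfl, ?_⟩
    rw [PeriodHecke.mat_gamma0Mk, PeriodHecke.mat_gamma0Mk]
    show (!![1, 0; 0, (l : ℤ)] : M2) = _
    ext a b
    fin_cases a <;> fin_cases b <;> simp [diagMat, Matrix.mul_apply, Fin.sum_univ_two] <;>
      first | ring1 | linear_combination (l : ℤ) * hst | linear_combination -(l : ℤ) * hst |
        linear_combination hst | linear_combination -hst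
  · refine ⟨1, gamma0Mk N 1 0 (-((N : ℤ) * j.val)) 1 (by ring) (dvd_neg.2 (dvd_mul_right _ _)), ?_⟩
    rw [PeriodHecke.mat_gamma0Mk, mat_one, one_mul]
    show (!![(l : ℤ), 0; -((N : ℤ) * j.val), 1] : M2) = _
    ext a b
    fin_cases a <;> fin_cases b <;> simp [diagMat, Matrix.mul_apply, Fin.sum_univ_two]

/-- The left factor of a representative. -/
def repLeft (i : HeckeIdx N l) : Γ₀ := (exists_decomp N l i).choose

/-- The right factor of a representative. -/
def repRight (i : HeckeIdx N l) : Γ₀ := (exists_decomp N l i).choose_spec.choose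

omit [NeZero N] in
theorem rep_eq (i : HeckeIdx N l) :
    heckeRep' N l i = mat (repLeft N l i) * diagMat l * mat (repRight N l i) :=
  (exists_decomp N l i).choose_spec.choose_spec

omit [NeZero N] [Fact l.Prime] in
theorem exists_conj {X : Γ₀} (hX : ((N * l : ℕ) : ℤ) ∣ mat X 1 0) :
    ∃ Y : Γ₀, diagMat l * mat X = mat Y * diagMat l := by
  obtain ⟨c, hc⟩ := hX
  have hdet := PeriodHecke.mat_det X
  rw [Matrix.det_fin_two, hc] at hdet
  refine ⟨gamma0Mk N (mat X 0 0) (l * mat X 0 1) (N * c) (mat X 1 1)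
    (by push_cast at hdet; linear_combination hdet) (dvd_mul_right _ _), ?_⟩
  rw [PeriodHecke.mat_gamma0Mk]
  push_cast at hc
  ext a b
  fin_cases a <;> fin_cases b <;> simp [diagMat, Matrix.mul_apply, Fin.sum_univ_two, hc] <;> ring

omit [NeZero N] [Fact l.Prime] in
theorem dvd_of_conj {X Y : Γ₀} (h : diagMat l * mat X = mat Y * diagMat l) :
    ((N * l : ℕ) : ℤ) ∣ mat X 1 0 := by
  obtain ⟨c, hc⟩ := PeriodHecke.dvd_lower_left N Y
  have h10 := congrFun (congrFun h 1) 0
  simp [diagMat, Matrix.mul_apply, Fin.sum_univ_two] at h10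
  exact ⟨c, by rw [h10, hc]; push_cast; ring⟩

/-- The cosets of the smaller group in the larger one, indexed by the representatives. -/
theorem fibre_bijective :
    Bijective fun i : HeckeIdx N l =>
      (((repRight N l i)⁻¹ : Γ₀) : Γ₀ ⧸ (Gamma0 (N * l)).subgroupOf Γ₀) := by
  constructor
  · intro i j hij
    simp only at hij
    rw [QuotientGroup.eq, inv_inv,
      Subgroup.mem_subgroupOf, Gamma0_mem, ZMod.intCast_zmod_eq_zero_iff_dvd] at hij
    obtain ⟨Y, hY⟩ := exists_conj N l (X := repRight N l i * (repRight N l j)⁻¹) hij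
    refine (heckeFam' N l).inj (repLeft N l j * Y⁻¹ * (repLeft N l i)⁻¹) i j ?_
    show mat (repLeft N l j * Y⁻¹ * (repLeft N l i)⁻¹) * heckeRep' N l i = heckeRep' N l j
    have h1 : diagMat l * mat (repRight N l i) = mat Y * (diagMat l * mat (repRight N l j)) := by
      rw [← mul_assoc, ← hY, mul_assoc, ← mat_mul, inv_mul_cancel_right]
    have hc : ∀ (g : Γ₀) (Z : M2), mat g⁻¹ * (mat g * Z) = Z := fun g Z => by
      rw [← mul_assoc, ← mat_mul, inv_mul_cancel, mat_one, one_mul]
    simp only [rep_eq, mat_mul, mul_assoc, h1, hc]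
  · intro q
    induction q using QuotientGroup.induction_on with
    | H g =>
      set z : HeckeIdx N l := idxSome N l 0
      have hz : heckeRep' N l z = diagMat l := by
        show (!![(l : ℤ), 0; -((N : ℤ) * (0 : ZMod l).val), 1] : M2) = _
        simp [diagMat]
      obtain ⟨j, δ, hj⟩ := (heckeFam' N l).exists_rel g⁻¹ z
      change heckeRep' N l z * _ = _ * heckeRep' N l j at hj
      rw [hz, rep_eq, ← mul_assoc, ← mul_assoc, ← mat_mul] at hj
      refine ⟨j, ?_⟩
      show QuotientGroup.mk (repRight N l j)⁻¹ = QuotientGroup.mk g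
      rw [QuotientGroup.eq, inv_inv,
        Subgroup.mem_subgroupOf, Gamma0_mem, ZMod.intCast_zmod_eq_zero_iff_dvd]
      have h2 : diagMat l * mat (g⁻¹ * (repRight N l j)⁻¹) = mat (δ * repLeft N l j) * diagMat l := by
        rw [mat_mul g⁻¹, ← mul_assoc, hj, mul_assoc, ← mat_mul, mul_inv_cancel, mat_one, mul_one]
      have h3 := dvd_of_conj N l h2
      rw [show repRight N l j * g = (g⁻¹ * (repRight N l j)⁻¹)⁻¹ by group]
      show ((N * l : ℕ) : ℤ) ∣ (((g⁻¹ * (repRight N l j)⁻¹ : Γ₀) : SL(2, ℤ))⁻¹ : SL(2, ℤ)) 1 0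
      rw [Matrix.SpecialLinearGroup.coe_inv, Matrix.adjugate_fin_two]
      simpa [mat] using h3

end Fibre

/-! ### Functions -/

section Functions

variable (l : ℕ) [NeZero l] [NeZero (N * l)] {K : Type*} [Field K] [Algebra ℚ K]

omit [NeZero (N * l)] [NeZero N] [NeZero l] in
theorem alpha_mem {a : LaurentSeries K} (ha : a ∈ XA K N) : a ∈ XA K (N * l) := by
  refine Algebra.adjoin_mono ?_ ha
  rintro _ ⟨_, ⟨d, hne, hd, rfl⟩, rfl⟩
  exact ⟨_, ⟨d, hne, hd.trans (dvd_mul_right N l), rfl⟩, rfl⟩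

omit [NeZero (N * l)] [NeZero N] in
theorem beta_mem {a : LaurentSeries K} (ha : a ∈ XA K N) : qExpand K l a ∈ XA K (N * l) := by
  induction ha using Algebra.adjoin_induction with
  | mem x hx =>
    obtain ⟨_, ⟨d, hne, hd, rfl⟩, rfl⟩ := hx
    haveI : NeZero (l * d) := ⟨mul_ne_zero (NeZero.ne l) (NeZero.ne d)⟩
    refine Algebra.subset_adjoin ⟨_, ⟨l * d, inferInstance, ?_, rfl⟩, ?_⟩
    · rw [mul_comm N l]; exact mul_dvd_mul_left l hd
    · rw [coeffEmb, ← ModularCurve.coeffMap_qExpand, ModularCurve.qExpand_qExpand]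
  | algebraMap r =>
    rw [ModularCurve.algebraMap_laurentSeries_eq_single, ModularCurve.qExpand_single, mul_zero,
      ← ModularCurve.algebraMap_laurentSeries_eq_single]
    exact Subalgebra.algebraMap_mem _ _
  | add x y _ _ hx hy => rw [map_add]; exact add_mem hx hy
  | mul x y _ _ hx hy => rw [map_mul]; exact mul_mem hx hy

/-- Pulling back along the forgetful map. -/
def alphaA (a : XA K N) : XA K (N * l) := ⟨a, alpha_mem l a.2⟩

/-- Pulling back along `τ ↦ l τ`. -/
def betaA (a : XA K N) : XA K (N * l) := ⟨qExpand K l (a : LaurentSeries K), beta_mem l a.2⟩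

variable (κ : K →+* ℂ)

omit [NeZero l] in
theorem toW_alphaA (a : XA K N) :
    (toW κ (alphaA l a) : ℍ → ℂ) = (toW κ a : ℍ → ℂ) := by
  obtain ⟨a, ha⟩ := a
  induction ha using Algebra.adjoin_induction with
  | mem x hx =>
    obtain ⟨_, ⟨d, hne, hd, rfl⟩, rfl⟩ := hx
    have hgen : (coeffEmb K (qExpand ℚ d ModularCurve.jq) : LaurentSeries K) ∈ XA K N := Algebra.subset_adjoin ⟨_, ⟨d, hne, hd, rfl⟩, rfl⟩
    rw [show alphaA l ⟨_, hgen⟩ =
      (⟨coeffEmb K (qExpand ℚ d ModularCurve.jq), _⟩ : XA K (N * l)) from rfl,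
      toW_gen κ (hd.trans (dvd_mul_right N l)), toW_gen κ hd]
  | algebraMap r =>
    rw [show alphaA l ⟨_, Subalgebra.algebraMap_mem _ r⟩ = algebraMap K (XA K (N * l)) r from rfl,
      toW_algebraMap, show (⟨_, _⟩ : XA K N) = algebraMap K (XA K N) r from rfl, toW_algebraMap]
    rfl
  | add x y hx hy ih ih' =>
    rw [show alphaA l ⟨x + y, _⟩ = alphaA l ⟨x, hx⟩ + alphaA l ⟨y, hy⟩ from rfl,
      show (⟨x + y, _⟩ : XA K N) = ⟨x, hx⟩ + ⟨y, hy⟩ from rfl, RingHom.map_add, RingHom.map_add,
      AddMemClass.coe_add, AddMemClass.coe_add, ih, ih']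
  | mul x y hx hy ih ih' =>
    rw [show alphaA l ⟨x * y, _⟩ = alphaA l ⟨x, hx⟩ * alphaA l ⟨y, hy⟩ from rfl,
      show (⟨x * y, _⟩ : XA K N) = ⟨x, hx⟩ * ⟨y, hy⟩ from rfl, RingHom.map_mul, RingHom.map_mul,
      MulMemClass.coe_mul, MulMemClass.coe_mul, ih, ih']

theorem toW_betaA (a : XA K N) (τ : ℍ) :
    (toW κ (betaA l a) : ℍ → ℂ) τ = (toW κ a : ℍ → ℂ) (mulHalfPlane l τ) := by
  obtain ⟨a, ha⟩ := a
  induction ha using Algebra.adjoin_induction generalizing τ with
  | mem x hx =>
    obtain ⟨_, ⟨d, hne, hd, rfl⟩, rfl⟩ := hx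
    haveI : NeZero (l * d) := ⟨mul_ne_zero (NeZero.ne l) (NeZero.ne d)⟩
    have hdvd : l * d ∣ N * l := by rw [mul_comm N l]; exact mul_dvd_mul_left l hd
    have e : qExpand K l (coeffEmb K (qExpand ℚ d ModularCurve.jq)) =
        coeffEmb K (qExpand ℚ (l * d) ModularCurve.jq) := by
      rw [coeffEmb, ← ModularCurve.coeffMap_qExpand, ModularCurve.qExpand_qExpand]
    have hmem : coeffEmb K (qExpand ℚ (l * d) ModularCurve.jq) ∈ XA K (N * l) :=
      e ▸ beta_mem l (Algebra.subset_adjoin ⟨_, ⟨d, hne, hd, rfl⟩, rfl⟩)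
    have hgen : (coeffEmb K (qExpand ℚ d ModularCurve.jq) : LaurentSeries K) ∈ XA K N := Algebra.subset_adjoin ⟨_, ⟨d, hne, hd, rfl⟩, rfl⟩
    rw [show betaA l ⟨_, hgen⟩ = (⟨_, hmem⟩ : XA K (N * l)) from Subtype.ext e,
      toW_gen κ hdvd, toW_gen κ hd]
    show ES.jfun (mulHalfPlane (l * d) τ) = ES.jfun (mulHalfPlane d (mulHalfPlane l τ))
    congr 1
    apply UpperHalfPlane.ext
    simp only [coe_mulHalfPlane]
    push_cast
    ring
  | algebraMap r =>
    rw [show betaA l ⟨_, Subalgebra.algebraMap_mem _ r⟩ = algebraMap K (XA K (N * l)) r from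
      Subtype.ext (by
        show qExpand K l (algebraMap K (LaurentSeries K) r) = algebraMap K (LaurentSeries K) r
        rw [ModularCurve.algebraMap_laurentSeries_eq_single, ModularCurve.qExpand_single, mul_zero]),
      toW_algebraMap, show (⟨_, _⟩ : XA K N) = algebraMap K (XA K N) r from rfl, toW_algebraMap]
    rfl
  | add x y hx hy ih ih' =>
    rw [show betaA l ⟨x + y, _⟩ = betaA l ⟨x, hx⟩ + betaA l ⟨y, hy⟩ from Subtype.ext (map_add _ _ _),
      show (⟨x + y, _⟩ : XA K N) = ⟨x, hx⟩ + ⟨y, hy⟩ from rfl, RingHom.map_add, RingHom.map_add,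
      AddMemClass.coe_add, AddMemClass.coe_add, Pi.add_apply, Pi.add_apply, ih, ih']
  | mul x y hx hy ih ih' =>
    rw [show betaA l ⟨x * y, _⟩ = betaA l ⟨x, hx⟩ * betaA l ⟨y, hy⟩ from Subtype.ext (map_mul _ _ _),
      show (⟨x * y, _⟩ : XA K N) = ⟨x, hx⟩ * ⟨y, hy⟩ from rfl, RingHom.map_mul, RingHom.map_mul,
      MulMemClass.coe_mul, MulMemClass.coe_mul, Pi.mul_apply, Pi.mul_apply, ih, ih']

omit [NeZero (N * l)] in
theorem heckeAlphaBar_incA (a : XA K N) :
    heckeAlphaBar K N l (incA K N a) = incA K (N * l) (alphaA l a) := Subtype.ext rfl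

omit [NeZero (N * l)] [NeZero N] in
theorem heckeBetaBar_incA (a : XA K N) :
    heckeBetaBar K N l (incA K N a) = incA K (N * l) (betaA l a) := Subtype.ext rfl

end Functions

/-! ### Embeddings over the lower field -/

/-- The norm is the product over a full set of embeddings over the lower field. -/
theorem norm_eq_prod {F F' L : Type*} [Field F] [Field F'] [Field L] [CharZero F] [Algebra F F']
    [FiniteDimensional F F'] {I : Type*} [Fintype I] (ψ : F →+* L) (σ : I → F' →+* L)
    (hσ : ∀ i, (σ i).comp (algebraMap F F') = ψ) (hinj : Injective σ)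
    (hcard : Fintype.card I = Module.finrank F F') (z : F') :
    ψ (Algebra.norm F z) = ∏ i, σ i z := by
  classical
  letI : Algebra F (AlgebraicClosure L) := ((algebraMap L (AlgebraicClosure L)).comp ψ).toAlgebra
  let e : I → (F' →ₐ[F] AlgebraicClosure L) := fun i =>
    { (algebraMap L (AlgebraicClosure L)).comp (σ i) with
      commutes' := fun c => congrArg (algebraMap L (AlgebraicClosure L))
        (RingHom.congr_fun (hσ i) c) }
  have he : Bijective e := (Fintype.bijective_iff_injective_and_card _).2 ⟨fun i j h =>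
    hinj (RingHom.ext fun x => (algebraMap L (AlgebraicClosure L)).injective (DFunLike.congr_fun h x)),
    by rw [hcard, AlgHom.card]⟩
  apply (algebraMap L (AlgebraicClosure L)).injective
  rw [map_prod, show algebraMap L (AlgebraicClosure L) (ψ (Algebra.norm F z)) =
      algebraMap F (AlgebraicClosure L) (Algebra.norm F z) from rfl, Algebra.norm_eq_prod_embeddings]
  exact (Fintype.prod_bijective e he _ _ fun i => rfl).symm

end FLTAgent.TorsionHom
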