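import Fermat.Agent.TorsionHom.HeckeCompat
import Fermat.Agent.PeriodHecke.Action
import Fermat.Prelude.Def_ModularCurve_HeckeModule

/-!
The torsion of `J₀(N)` as homomorphisms, compatibly with the Hecke operators.
-/

set_option autoImplicit false

noncomputable section

open CongruenceSubgroup
open scoped MatrixGroups

namespace FLTAgent.TorsionHom

open FLTAgent.X0Fn AlgebraicCurve
open FLTAgent.PeriodHecke (Hpar mapHpar heckeFam heckeFam' actA actA_heckeGen fricke hecke_fricke
  HeckeFamily)
open ModularCurve (JZero heckeOperatorBar modularFunctionFieldBar)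

variable {N : ℕ} [NeZero N]

local notation "Γ₀" => Gamma0 N

section General

variable {K : Type*} [Field K] [Algebra ℚ K]

/-- The Hecke correspondence preserves torsion. -/
theorem heckeOperatorAlong_mem_torsion (l : ℕ) [NeZero l] (n : ℕ) {c : Pic0 K (XF K N)}
    (hc : c ∈ Pic0.torsion K (XF K N) n) :
    ModularCurve.heckeOperatorAlong K N l c ∈ Pic0.torsion K (XF K N) n := by
  rw [Pic0.mem_torsion] at hc ⊢
  rw [← map_zsmul, hc, map_zero]

variable [IsAlgClosed K] (κ : K →+* ℂ) (n : ℕ) [NeZero n]

/-- `torsEquiv` carries the correspondence `T_l` to the operator `T_l` of the Hecke algebra. -/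
theorem torsEquiv_heckeOperatorAlong (l : ℕ) [Fact l.Prime] [NeZero l]
    (c d : Pic0.torsion K (XF K N) n)
    (h : (d : Pic0 K (XF K N)) = ModularCurve.heckeOperatorAlong K N l (c : Pic0 K (XF K N))) :
    torsEquiv κ n d =
      actA N (ZMod n) (CuspForms.heckeGen N l Fact.out) (torsEquiv κ n c) := by
  haveI : NeZero (N * l) := ⟨mul_ne_zero (NeZero.ne N) (NeZero.ne l)⟩
  have h1 : IsKummer κ n (d : Pic0 K (XF K N)) ((heckeFam' N l).heckePar (kummer κ n c)).1 := by
    rw [h, HeckeFamily.coe_heckePar]
    exact (kummer_spec κ n c).heckeOperatorAlong l (NeZero.ne n)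
  refine torsEquiv_eq κ n h1 ?_
  rw [actA_heckeGen, ← HeckeFamily.heckePar_mapHpar, torsEquiv_spec]
  exact Subtype.ext (hecke_fricke N l (kummer κ n c).1)

end General

variable (κ : AlgebraicClosure ℚ →+* ℂ) (n : ℕ) [NeZero n]

/-- The Hecke operator on torsion of `J₀(N)`. -/
def heckeTors (q : Nat.Primes) :
    AddMonoid.End (Pic0.torsion (AlgebraicClosure ℚ) (modularFunctionFieldBar N) n) :=
  AddMonoidHom.mk' (fun c => ⟨heckeOperatorBar N q (c : JZero N),
      haveI : NeZero (q : ℕ) := ⟨q.2.ne_zero⟩
      heckeOperatorAlong_mem_torsion (q : ℕ) n c.2⟩)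
    fun a b => Subtype.ext (map_add (heckeOperatorBar N q) _ _)

omit [NeZero n] in
@[simp] theorem coe_heckeTors (q : Nat.Primes)
    (c : Pic0.torsion (AlgebraicClosure ℚ) (modularFunctionFieldBar N) n) :
    (heckeTors (N := N) n q c : JZero N) = heckeOperatorBar N q (c : JZero N) := rfl

/-- `torsEquiv` is equivariant for all Hecke operators. -/
theorem torsEquiv_heckeTors (q : Nat.Primes)
    (c : Pic0.torsion (AlgebraicClosure ℚ) (modularFunctionFieldBar N) n) :
    torsEquiv (N := N) κ n (heckeTors n q c) =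
      actA N (ZMod n) (CuspForms.heckeGen N q q.2) (torsEquiv κ n c) := by
  haveI : Fact (q : ℕ).Prime := ⟨q.2⟩
  haveI : NeZero (q : ℕ) := ⟨q.2.ne_zero⟩
  exact torsEquiv_heckeOperatorAlong κ n (q : ℕ) c (heckeTors n q c) rfl

include κ in
/-- The Hecke operators commute on torsion. -/
theorem heckeTors_comm (q q' : Nat.Primes) :
    heckeTors (N := N) n q * heckeTors n q' = heckeTors n q' * heckeTors n q := by
  refine AddMonoidHom.ext fun c => (torsEquiv (N := N) κ n).injective ?_
  show torsEquiv κ n (heckeTors n q (heckeTors n q' c)) =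
    torsEquiv κ n (heckeTors n q' (heckeTors n q c))
  rw [torsEquiv_heckeTors, torsEquiv_heckeTors, torsEquiv_heckeTors, torsEquiv_heckeTors]
  have h := congrArg (fun t => actA N (ZMod n) t (torsEquiv κ n c))
    (mul_comm (CuspForms.heckeGen N q q.2) (CuspForms.heckeGen N q' q'.2))
  simp only [map_mul] at h
  exact h

end FLTAgent.TorsionHom
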