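import Fermat.Agent.TorsionHom.Orders

/-!
A function whose root has a character killing parabolic and elliptic elements has divisor
divisible by `n`.
-/

set_option autoImplicit false

noncomputable section

open UpperHalfPlane CongruenceSubgroup Complex Function Filter
open scoped MatrixGroups Manifold Topology

namespace FLTAgent.TorsionHom

open FLTAgent.X0Fn AlgebraicCurve
open FLTAgent.Curves (lord_mul lord_pow lord_inv IsFunctionField exists_residue ordGE_of_le
  OrdGE transcendental_sub transcendental_inv adjoin_simple_sub_eq adjoin_simple_inv_eq)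
open FLTAgent.ES (jfun rhoPt)
open FLTAgent.PeriodHecke (Hpar mat)
open Matrix (trace)

variable {N : ℕ} [NeZero N]

local notation "Γ₀" => Gamma0 N
local notation "Cx" => Additive ℂˣ

variable {K : Type*} [Field K] [Algebra ℚ K] (κ : K →+* ℂ)

/-- A point over a value of `j`, with the generator of its stabiliser. -/
theorem exists_point (a : K) :
    ∃ (τ : ℍ) (g : SL(2, ℤ)) (m : ℕ), 0 < m ∧ g • τ = τ ∧
      (taylorAt τ (jShift (κ a))).order = m ∧
      IsPrimitiveRoot (denom g (τ : ℂ) ^ (-2 : ℤ)) m ∧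
      (g : Matrix (Fin 2) (Fin 2) ℤ).trace ^ 2 ≤ 4 := by
  by_cases h0 : κ a = 0
  · refine ⟨rhoPt, ModularGroup.S * ModularGroup.T, 3, by norm_num, ES.rho_fixed,
      by rw [h0]; exact order_taylor_rho, ?_, ?_⟩
    · have h3 : (rhoPt : ℂ) ^ 3 = 1 := by
        linear_combination ((rhoPt : ℂ) - 1) * FLTAgent.ES.rhoPt_eq
      have h2 : (((rhoPt : ℂ) + 1) ^ 2)⁻¹ = (rhoPt : ℂ) ^ 2 := by
        rw [show ((rhoPt : ℂ) + 1) ^ 2 = (rhoPt : ℂ) by linear_combination FLTAgent.ES.rhoPt_eq]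
        refine inv_eq_of_mul_eq_one_right ?_
        linear_combination h3
      rw [FLTAgent.ES.denom_ST_rho, zpow_neg, zpow_ofNat, h2]
      exact FLTAgent.ES.rho_sq_primitive
    · simp [Matrix.trace_fin_two, ModularGroup.coe_S, ModularGroup.coe_T]
  by_cases h1 : κ a = 1728
  · refine ⟨UpperHalfPlane.I, ModularGroup.S, 2, by norm_num, ES.I_fixed,
      by rw [h1]; exact order_taylor_I, ?_, ?_⟩
    · rw [FLTAgent.ES.denom_S_I, zpow_neg, zpow_ofNat, Complex.I_sq, inv_neg_one]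
      exact IsPrimitiveRoot.neg_one 0 (by norm_num)
    · simp [Matrix.trace_fin_two, ModularGroup.coe_S]
  obtain ⟨τ, hτ⟩ := exists_jfun_eq (κ a)
  refine ⟨τ, 1, 1, one_pos, one_smul _ _, ?_, ?_, ?_⟩
  · rw [← hτ]
    exact_mod_cast order_taylor_generic (τ := τ) (by rw [hτ]; exact ⟨h0, h1⟩)
  · simpa [ModularGroup.denom_apply] using IsPrimitiveRoot.one
  · simp [Matrix.trace_fin_two]

/-- A root of a periodic function meromorphic at infinity, if periodic, is meromorphic there. -/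
theorem root_mem_PerL {R : ℍ → ℂ} (hR : MDiff R)
    (hper : ∀ τ, R (ModularGroup.T ^ (N : ℤ) • τ) = R τ) {n : ℕ} (hn : n ≠ 0)
    (hG : (fun τ => R τ ^ n) ∈ PerL (N : ℝ)) : R ∈ PerL (N : ℝ) := by
  obtain ⟨m, hm⟩ := hG
  refine ⟨m, hR.mul (mdiff_qh.pow _), fun z => ?_, ?_⟩
  · have hq := periodic_qh (h := (N : ℝ)) z
    simp only [comp_apply] at hq
    simp only [comp_apply, Pi.mul_apply, Pi.pow_apply, hq]
    by_cases hz : 0 < z.im
    · have hz1 : 0 < (z + ((N : ℝ) : ℂ)).im := by simpa using hz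
      have he : (⟨z + ((N : ℝ) : ℂ), hz1⟩ : ℍ) = ModularGroup.T ^ (N : ℤ) • ⟨z, hz⟩ := by
        apply UpperHalfPlane.ext
        rw [UpperHalfPlane.modular_T_zpow_smul]
        simp [add_comm]
      rw [ofComplex_apply_of_im_pos hz, ofComplex_apply_of_im_pos hz1, he, hper]
    · have hz1 : (z + ((N : ℝ) : ℂ)).im ≤ 0 := by simpa using not_lt.mp hz
      rw [ofComplex_apply_of_im_nonpos hz1, ofComplex_apply_of_im_nonpos (not_lt.mp hz)]
  · obtain ⟨C, A, hC⟩ := UpperHalfPlane.isBoundedAtImInfty_iff.1 hm.2.2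
    obtain ⟨C', A', hC'⟩ := UpperHalfPlane.isBoundedAtImInfty_iff.1
      ((qh_mem_Per (h := (N : ℝ))).2.2)
    rw [UpperHalfPlane.isBoundedAtImInfty_iff]
    refine ⟨max 1 (C * (max C' 1) ^ (m * n)), max A A', fun z hz => ?_⟩
    have h1 := hC z ((le_max_left _ _).trans hz)
    have h2 : ‖qh (N : ℝ) z‖ ≤ max C' 1 := (hC' z ((le_max_right _ _).trans hz)).trans (le_max_left _ _)
    simp only [Pi.mul_apply, Pi.pow_apply] at h1 ⊢
    set u := ‖R z * qh (N : ℝ) z ^ m‖
    have h3 : u ^ n ≤ C * (max C' 1) ^ (m * n) := by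
      obtain ⟨k, rfl⟩ := Nat.exists_eq_succ_of_ne_zero hn
      have e : u ^ (k + 1) = ‖R z ^ (k + 1) * qh (N : ℝ) z ^ m‖ * ‖qh (N : ℝ) z‖ ^ (m * k) := by
        simp only [u, norm_mul, norm_pow, mul_pow, ← pow_mul]
        rw [mul_assoc, ← pow_add]
        ring_nf
      rw [e]
      refine mul_le_mul h1 ((pow_le_pow_left₀ (norm_nonneg _) h2 _).trans
        (pow_le_pow_right₀ (le_max_right _ _) (Nat.mul_le_mul_left _ (Nat.le_succ _)))) (by positivity)
        ((norm_nonneg _).trans h1)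
    rcases le_total u 1 with hu | hu
    · exact hu.trans (le_max_left _ _)
    · exact ((le_self_pow₀ hu hn).trans h3).trans (le_max_right _ _)

/-- Translates of a function with a character are invariant under the stabiliser of the coset. -/
theorem char_trans_invariant {R : ℍ → ℂ} {χ : Additive Γ₀ →+ Cx} (hc : HasChar R χ)
    (hχ : χ ∈ Hpar Γ₀ Cx) {q : Cos N} {h : SL(2, ℤ)} (hq : h • q = q)
    (htr : (h : Matrix (Fin 2) (Fin 2) ℤ).trace ^ 2 ≤ 4) (τ : ℍ) :
    R (q.out⁻¹ • h • τ) = R (q.out⁻¹ • τ) := by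
  have hmem : q.out⁻¹ * h * q.out ∈ Gamma0 N := by
    have h1 : ((h * q.out : SL(2, ℤ)) : Cos N) = ((q.out : SL(2, ℤ)) : Cos N) := by
      rw [← smul_eq_mul, ← MulAction.Quotient.smul_coe, QuotientGroup.out_eq']
      exact hq
    rw [eq_comm, QuotientGroup.eq, ← mul_assoc] at h1
    exact h1
  have h2 := hc ⟨_, hmem⟩ (q.out⁻¹ • τ)
  rw [mult, hχ ⟨_, hmem⟩ (le_of_eq_of_le (congrArg (fun x : ℤ => x ^ 2) ?_) htr)] at h2
  · simpa [← mul_smul, mul_assoc] using h2
  · show ((q.out⁻¹ * h * q.out : SL(2, ℤ)) : Matrix (Fin 2) (Fin 2) ℤ).trace = _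
    rw [Matrix.SpecialLinearGroup.coe_mul, Matrix.SpecialLinearGroup.coe_mul, Matrix.trace_mul_comm,
      ← mul_assoc, ← Matrix.SpecialLinearGroup.coe_mul, mul_inv_cancel,
      Matrix.SpecialLinearGroup.coe_one, one_mul]

theorem dvd_of_relation {c d m k e : ℤ} {n : ℕ} (hd : d ≠ 0) (hcd : c * d = m) (hm : m ∣ d * k)
    (hc : c ≠ 0) (he : c * e = n * k) : (n : ℤ) ∣ e := by
  obtain ⟨r, hr⟩ := hm
  have h1 : k = c * r := mul_left_cancel₀ hd (by rw [hr, ← hcd]; ring)
  exact ⟨r, mul_left_cancel₀ hc (by rw [he, h1]; ring)⟩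

theorem trans_root_pow {A B : W0 N} {R : Hol} {n : ℕ} (hP : R ^ n = toHol (A * B ^ (n - 1)))
    (q : Cos N) (τ : ℍ) :
    (R : ℍ → ℂ) (q.out⁻¹ • τ) ^ n = X0Fn.trans q (A * B ^ (n - 1)) τ :=
  congrFun (congrArg Subtype.val hP) (q.out⁻¹ • τ)

variable [IsAlgClosed K]

theorem dvd_ord_finite {x : XF K N} (hx : x ≠ 0) {n : ℕ} (hn : n ≠ 0) {R : Hol}
    {χ : Additive Γ₀ →+ Cx} (hroot : IsRoot (N := N) κ n (x : LaurentSeries K) R)
    (hc : HasChar (R : ℍ → ℂ) χ) (hχ : χ ∈ Hpar Γ₀ Cx) {v : Place K (XF K N)}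
    (hv : 0 ≤ v.ord (jF K N)) : (n : ℤ) ∣ v.ord x := by
  classical
  haveI := (isFunctionField_and_finrank (N := N) κ).1
  have hR := hroot.ne_zero hn fun e => hx (Subtype.ext e)
  obtain ⟨A, B, hB, hAB, hP⟩ := hroot
  obtain ⟨a, ha⟩ := exists_residue v (ordGE_of_le hv)
  have ht := transcendental_sub (transcendental_jF (N := N) κ) a
  have hvt : 0 < v.ord (jF K N - algebraMap K (XF K N) a) :=
    lt_of_lt_of_le one_pos (ha.le_ord (Curves.ne_zero_of_transcendental ht))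
  obtain ⟨τ, g, m, hm, hg, hord, hμ, htr⟩ := exists_point κ a
  obtain ⟨P, c, hcpos, hordc, hsurj, hd⟩ := exists_place_cover (pointEmb κ τ)
    (fun q b => pointEmb_algebraMap κ τ q b) (pointEmb_injective κ τ)
    (t := jF K N - algebraMap K (XF K N) a) (finrank_shift κ a) (fun q => point_T κ τ q a)
    (by rw [order_ofPowerSeries hord]; exact_mod_cast hm) (MulAction.toPerm g)
    (fun q f => point_order_smul κ hg q f) (fun q d hd f => by
      rw [order_ofPowerSeries hord]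
      refine point_dvd_order κ hg hμ ?_ f
      rwa [← MulAction.toPermHom_apply, ← map_pow, MulAction.toPermHom_apply,
        MulAction.toPerm_apply] at hd)
  obtain ⟨q, hq⟩ := hsurj v hvt
  obtain ⟨d, hd0, hdq, hcd⟩ := hd q
  rw [← MulAction.toPermHom_apply, ← map_pow, MulAction.toPermHom_apply, MulAction.toPerm_apply]
    at hdq
  rw [order_ofPowerSeries hord] at hcd
  let Rq : Hol := ⟨fun z => (R : ℍ → ℂ) (q.out⁻¹ • z), comp_smul_mdiff R.2 _⟩
  have hRq : Rq ≠ 0 := fun e => hR (Subtype.ext (funext fun z => by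
    have := congrFun (congrArg Subtype.val e) (q.out • z)
    simpa [Rq] using this))
  have hBq : (⟨X0Fn.trans q B, trans_mem_Hol q B⟩ : Hol) ≠ 0 := fun e =>
    hB (trans_injective q ((congrArg Subtype.val e).trans (map_zero _).symm))
  obtain ⟨hfix, hden⟩ := denom_pow_fixed g hg d
  have htr' := PeriodHecke.trace_pow_le _ g.2 htr d
  rw [← Matrix.SpecialLinearGroup.coe_pow] at htr'
  have hinvR : ∀ z, (Rq : ℍ → ℂ) (g ^ d • z) = (Rq : ℍ → ℂ) z := fun z =>
    char_trans_invariant hc hχ hdq htr' z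
  have hinvB : ∀ z, X0Fn.trans q B (g ^ d • z) = X0Fn.trans q B z := fun z =>
    char_trans_invariant (hasChar_W0 B) (zero_mem _) hdq htr' z
  have hwR := mult_one_of_fix hRq hfix hinvR
  have hwB := mult_one_of_fix hBq hfix hinvB
  have hdvd : ∀ k : ℕ, ((denom (g ^ d : SL(2, ℤ)) (τ : ℂ)) ^ (-2 : ℤ)) ^ k = 1 →
      (m : ℤ) ∣ (d : ℤ) * k := fun k hk => by
    rw [hden, ← zpow_natCast _ d, ← zpow_mul, mul_comm, zpow_mul, zpow_natCast, ← pow_mul,
      hμ.pow_eq_one_iff_dvd] at hk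
    exact_mod_cast hk
  have h1 := emb_mul κ _ _ (pointEmb_incA' κ τ q) hAB
  have hpow : HahnSeries.ofPowerSeries ℤ ℂ (taylorAt τ Rq) ^ n =
      psiPoint τ q A * psiPoint τ q B ^ (n - 1) := by
    rw [← map_pow, ← map_pow, ← map_pow, ← map_mul, psiPoint_apply]
    congr 2
    exact Subtype.ext (funext fun z => trans_root_pow hP q z)
  have h2 := order_root hn ((map_ne_zero _).2 hx)
    ((map_ne_zero_iff _ (psiPoint_injective τ q)).2 hB) h1 hpow
  rw [hol_order τ hRq, psiPoint_apply, hol_order τ hBq, hordc, hq] at h2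
  refine dvd_of_relation (by exact_mod_cast hd0.ne') hcd ?_ (hcpos q).ne' h2
  rw [mul_sub]
  exact dvd_sub (hdvd _ hwR) (hdvd _ hwB)

theorem dvd_ord_infty {x : XF K N} (hx : x ≠ 0) {n : ℕ} (hn : n ≠ 0) {R : Hol}
    {χ : Additive Γ₀ →+ Cx} (hroot : IsRoot (N := N) κ n (x : LaurentSeries K) R)
    (hc : HasChar (R : ℍ → ℂ) χ) (hχ : χ ∈ Hpar Γ₀ Cx) {v : Place K (XF K N)}
    (hv : v.ord (jF K N) < 0) : (n : ℤ) ∣ v.ord x := by
  classical
  haveI := (isFunctionField_and_finrank (N := N) κ).1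
  have hR := hroot.ne_zero hn fun e => hx (Subtype.ext e)
  obtain ⟨A, B, hB, hAB, hP⟩ := hroot
  have hvt : 0 < v.ord (jF K N)⁻¹ := by rw [v.ord_inv]; omega
  have hT : ∀ q, cuspEmb κ q (jF K N)⁻¹ =
      (iota (N := N) κ (ModularCurve.coeffEmb K ModularCurve.jq))⁻¹ :=
    fun q => by rw [map_inv₀, cuspEmb_jF]
  have ho : ((iota (N := N) κ (ModularCurve.coeffEmb K ModularCurve.jq))⁻¹).order = (N : ℤ) := by
    rw [lord_inv, order_iota_jq, neg_neg]
  obtain ⟨P, c, hcpos, hordc, hsurj, hd⟩ := exists_place_cover (cuspEmb κ)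
    (fun q b => cuspEmb_algebraMap κ q b) (cuspEmb_injective κ) (t := (jF K N)⁻¹)
    (by rw [adjoin_simple_inv_eq]; exact (isFunctionField_and_finrank κ).2.symm) hT
    (by rw [ho]; exact_mod_cast Nat.pos_of_ne_zero (NeZero.ne N)) (MulAction.toPerm ModularGroup.T)
    (fun q f => cusp_order_smul_T κ q f) (fun q d hd f => by
      rw [ho]
      refine cusp_dvd_order κ ?_ f
      rwa [← MulAction.toPermHom_apply, ← map_pow, MulAction.toPermHom_apply,
        MulAction.toPerm_apply] at hd)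
  obtain ⟨q, hq⟩ := hsurj v hvt
  obtain ⟨d, hd0, hdq, hcd⟩ := hd q
  rw [← MulAction.toPermHom_apply, ← map_pow, MulAction.toPermHom_apply, MulAction.toPerm_apply]
    at hdq
  rw [ho] at hcd
  have htrT : ∀ k : ℤ, ((ModularGroup.T ^ k : SL(2, ℤ)) : Matrix (Fin 2) (Fin 2) ℤ).trace ^ 2 ≤ 4 := by
    intro k
    rw [ModularGroup.coe_T_zpow, Matrix.trace_fin_two]
    simp
  have hTN : ModularGroup.T ^ (N : ℤ) • q = q := by
    induction q using QuotientGroup.induction_on with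
    | H z =>
      rw [MulAction.Quotient.smul_coe, QuotientGroup.eq, smul_eq_mul]
      have hmem := (Gamma_normal N).conj_mem _
        (inv_mem (ModularGroup_T_pow_mem_Gamma N N dvd_rfl)) z⁻¹
      rw [inv_inv] at hmem
      rw [mul_inv_rev]
      exact Gamma0_mem.2 (Gamma_mem.1 hmem).2.2.1
  have hRmd : MDiff fun z => (R : ℍ → ℂ) (q.out⁻¹ • z) := comp_smul_mdiff R.2 _
  have hmem : (fun z => (R : ℍ → ℂ) (q.out⁻¹ • z)) ∈ PerL (N : ℝ) := by
    refine root_mem_PerL hRmd (fun z => char_trans_invariant hc hχ hTN (htrT _) z) hn ?_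
    rw [show (fun z => (R : ℍ → ℂ) (q.out⁻¹ • z) ^ n) = X0Fn.trans q (A * B ^ (n - 1)) from
      funext fun z => trans_root_pow hP q z]
    exact trans_mem_PerL q _
  have hdR : (N : ℤ) ∣ (d : ℤ) * (expL (N : ℝ) ⟨_, hmem⟩).order := shift_dvd_order _ fun z => by
    rw [zpow_natCast]
    exact char_trans_invariant hc hχ hdq (by simpa using htrT d) z
  have hdB : (N : ℤ) ∣ (d : ℤ) * (psiCusp q B).order := shift_dvd_order _ fun z => by
    rw [zpow_natCast]
    exact char_trans_invariant (hasChar_W0 B) (zero_mem _) hdq (by simpa using htrT d) z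
  have h1 := emb_mul κ _ _ (cuspEmb_incA' κ q) hAB
  have hpow : expL (N : ℝ) ⟨_, hmem⟩ ^ n = psiCusp q A * psiCusp q B ^ (n - 1) := by
    rw [← map_pow, ← map_pow, ← map_mul, psiCusp_apply]
    congr 1
    exact Subtype.ext (funext fun z => trans_root_pow hP q z)
  have h2 := order_root hn ((map_ne_zero _).2 hx)
    ((map_ne_zero_iff _ (psiCusp_injective q)).2 hB) h1 hpow
  rw [hordc, hq] at h2
  refine dvd_of_relation (by exact_mod_cast hd0.ne') hcd ?_ (hcpos q).ne' h2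
  rw [mul_sub]
  exact dvd_sub hdR hdB

/-- A character killing parabolic and elliptic elements forces divisibility of the divisor. -/
theorem dvd_ord_of_isCharFn {x : XF K N} (hx : x ≠ 0) {n : ℕ} (hn : n ≠ 0)
    {χ : Additive Γ₀ →+ Cx} (h : IsCharFn κ n (x : LaurentSeries K) χ) (hχ : χ ∈ Hpar Γ₀ Cx)
    (v : Place K (XF K N)) : (n : ℤ) ∣ v.ord x := by
  obtain ⟨R, hroot, hc⟩ := h
  rcases le_or_gt 0 (v.ord (jF K N)) with hv | hv
  · exact dvd_ord_finite κ hx hn hroot hc hχ hv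
  · exact dvd_ord_infty κ hx hn hroot hc hχ hv

end FLTAgent.TorsionHom
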