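import Fermat.Agent.TorsionHom.Basic
import Fermat.Agent.ES.Primitive

/-!
A function of weight zero with a given finite order multiplier, from a twisted Eisenstein series.
-/

set_option autoImplicit false

noncomputable section

open UpperHalfPlane CongruenceSubgroup Complex Function Filter
open EisensteinSeries (eisSummand)
open scoped MatrixGroups Manifold Topology Matrix

namespace FLTAgent.TorsionHom

open FLTAgent.X0Fn
open FLTAgent.ES (e4 dlt)
open FLTAgent.PeriodHecke (mat Hpar)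

/-- A weighted lattice sum of weight four. -/
def latSum (w : (Fin 2 → ℤ) → ℂ) (z : ℍ) : ℂ := ∑' v, w v * eisSummand 4 v z

theorem norm_term_le {w : (Fin 2 → ℤ) → ℂ} (hw : ∀ v, ‖w v‖ ≤ 1) (z : ℍ) (v : Fin 2 → ℤ) :
    ‖w v * eisSummand 4 v z‖ ≤ ‖eisSummand 4 v z‖ := by
  rw [norm_mul]
  exact mul_le_of_le_one_left (norm_nonneg _) (hw v)

theorem summable_latSum {w : (Fin 2 → ℤ) → ℂ} (hw : ∀ v, ‖w v‖ ≤ 1) (z : ℍ) :
    Summable fun v => w v * eisSummand 4 v z :=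
  Summable.of_norm_bounded (EisensteinSeries.summable_norm_eisSummand (k := 4) (by norm_num) z)
    (norm_term_le hw z)

theorem latSum_smul (w : (Fin 2 → ℤ) → ℂ) (g : SL(2, ℤ)) (z : ℍ) :
    latSum w (g • z) = denom g (z : ℂ) ^ (4 : ℤ) * latSum (fun v => w (v ᵥ* (g⁻¹ : SL(2, ℤ)))) z := by
  let e : (Fin 2 → ℤ) ≃ (Fin 2 → ℤ) :=
    { toFun := fun v => v ᵥ* (g : Matrix (Fin 2) (Fin 2) ℤ)
      invFun := fun v => v ᵥ* ((g⁻¹ : SL(2, ℤ)) : Matrix (Fin 2) (Fin 2) ℤ)
      left_inv := fun v => by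
        show (v ᵥ* (g : Matrix (Fin 2) (Fin 2) ℤ)) ᵥ*
          ((g⁻¹ : SL(2, ℤ)) : Matrix (Fin 2) (Fin 2) ℤ) = v
        rw [Matrix.vecMul_vecMul, ← Matrix.SpecialLinearGroup.coe_mul, mul_inv_cancel,
          Matrix.SpecialLinearGroup.coe_one, Matrix.vecMul_one]
      right_inv := fun v => by
        show (v ᵥ* ((g⁻¹ : SL(2, ℤ)) : Matrix (Fin 2) (Fin 2) ℤ)) ᵥ*
          (g : Matrix (Fin 2) (Fin 2) ℤ) = v
        rw [Matrix.vecMul_vecMul, ← Matrix.SpecialLinearGroup.coe_mul, inv_mul_cancel,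
          Matrix.SpecialLinearGroup.coe_one, Matrix.vecMul_one] }
  rw [latSum, latSum, ← e.tsum_eq (fun v => w (v ᵥ* ((g⁻¹ : SL(2, ℤ)) : Matrix (Fin 2) (Fin 2) ℤ)) *
    eisSummand 4 v z), ← tsum_mul_left]
  refine tsum_congr fun v => ?_
  rw [EisensteinSeries.eisSummand_SL2_apply]
  show _ = _ * (w (e.symm (e v)) * _)
  rw [Equiv.symm_apply_apply, mul_left_comm]
  rfl

theorem mdiff_latSum {w : (Fin 2 → ℤ) → ℂ} (hw : ∀ v, ‖w v‖ ≤ 1) : MDiff (latSum w) := by
  have hu : TendstoLocallyUniformly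
      (fun (s : Finset (Fin 2 → ℤ)) z => ∑ v ∈ s, w v * eisSummand 4 v z) (latSum w) atTop := by
    rw [tendstoLocallyUniformly_iff_forall_isCompact]
    intro K hK
    obtain ⟨A, B, hB, hABK⟩ := subset_verticalStrip_of_isCompact hK
    have hsum : Summable fun v : Fin 2 → ℤ => ‖v‖ ^ (-((4 : ℤ) : ℝ)) :=
      EisensteinSeries.summable_one_div_norm_rpow (by norm_num)
    refine (tendstoUniformlyOn_tsum (hu := hsum.mul_left (EisensteinSeries.r ⟨⟨A, B⟩, hB⟩ ^ (-((4 : ℤ) : ℝ))))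
      (fun v z hz => (norm_term_le hw z v).trans ?_)).mono hABK
    simpa only [eisSummand, one_div, ← zpow_neg, norm_zpow, ← Real.rpow_intCast, Int.cast_neg]
      using EisensteinSeries.summand_bound_of_mem_verticalStrip (by norm_num) v hB hz
  rw [UpperHalfPlane.mdifferentiable_iff]
  have h2 : TendstoLocallyUniformlyOn
      (fun (s : Finset (Fin 2 → ℤ)) => (fun z => ∑ v ∈ s, w v * eisSummand 4 v z) ∘ ofComplex)
      (latSum w ∘ ofComplex) atTop {z : ℂ | 0 < z.im} := by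
    rw [← upperHalfPlaneSet, ← range_coe, ← Set.image_univ]
    refine TendstoLocallyUniformlyOn.comp (s := ⊤) ?_ _ ?_
      (OpenPartialHomeomorph.continuousOn_symm _)
    · simpa only [Set.top_eq_univ, tendstoLocallyUniformlyOn_univ] using hu
    · exact Set.mapsTo_univ _ _
  refine h2.differentiableOn (Eventually.of_forall fun s => ?_) isOpen_upperHalfPlaneSet
  refine (DifferentiableOn.fun_sum (u := s) fun v _ =>
    ((EisensteinSeries.div_linear_zpow_differentiableOn 4 v).const_mul (w v))).congr fun z hz => ?_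
  simp [Function.comp_apply, ofComplex_apply_of_im_pos hz, eisSummand]

theorem bdd_latSum {w : (Fin 2 → ℤ) → ℂ} (hw : ∀ v, ‖w v‖ ≤ 1) :
    IsBoundedAtImInfty (latSum w) := by
  rw [UpperHalfPlane.isBoundedAtImInfty_iff]
  have hk : (2 : ℝ) < ((4 : ℤ) : ℝ) := by norm_num
  refine ⟨∑' v : Fin 2 → ℤ,
    EisensteinSeries.r ⟨⟨(1 : ℕ), 2⟩, Nat.ofNat_pos⟩ ^ (-(4 : ℤ)) * ‖v‖ ^ (-(4 : ℤ)), 2, fun z hz => ?_⟩
  obtain ⟨m, hm⟩ := ModularGroup_T_zpow_mem_verticalStrip z (Nat.one_pos)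
  have h1 : latSum w z =
      latSum (fun v => w (v ᵥ* ((((ModularGroup.T ^ ((1 : ℕ) * m))⁻¹)⁻¹ : SL(2, ℤ)) : Matrix (Fin 2) (Fin 2) ℤ)))
        (ModularGroup.T ^ ((1 : ℕ) * m) • z) := by
    have hT : denom ((ModularGroup.T ^ ((1 : ℕ) * m))⁻¹ : SL(2, ℤ))
        ((ModularGroup.T ^ ((1 : ℕ) * m) • z : ℍ) : ℂ) = 1 := by
      rw [← zpow_neg, ModularGroup.denom_apply, ModularGroup.coe_T_zpow]
      simp
    conv_lhs => rw [← inv_smul_smul (ModularGroup.T ^ ((1 : ℕ) * m)) z]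
    rw [latSum_smul, hT, one_zpow, one_mul]
  rw [h1, latSum]
  refine (norm_tsum_le_tsum_norm (Summable.of_nonneg_of_le (fun _ => norm_nonneg _)
    (norm_term_le (fun v => hw _) _)
    (EisensteinSeries.summable_norm_eisSummand (by norm_num) _))).trans ?_
  refine (Summable.of_nonneg_of_le (fun _ => norm_nonneg _) (norm_term_le (fun v => hw _) _)
    (EisensteinSeries.summable_norm_eisSummand (by norm_num) _)).tsum_le_tsum ?_ ?_
  · intro v
    refine (norm_term_le (fun v => hw _) _ v).trans ?_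
    simp_rw [eisSummand, norm_zpow]
    exact_mod_cast EisensteinSeries.summand_bound_of_mem_verticalStrip
      (lt_trans two_pos hk).le v two_pos (verticalStrip_anti_right _ hz hm)
  · exact_mod_cast (EisensteinSeries.summable_one_div_norm_rpow hk).mul_left
      (EisensteinSeries.r ⟨⟨(1 : ℕ), 2⟩, Nat.ofNat_pos⟩ ^ (-(4 : ℤ)))

theorem bdd_pow {f : ℍ → ℂ} (hf : IsBoundedAtImInfty f) (k : ℕ) :
    IsBoundedAtImInfty fun τ => f τ ^ k := by
  induction k with
  | zero =>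
    simp only [pow_zero]
    exact Filter.const_boundedAtFilter _ (1 : ℂ)
  | succ k ih =>
    simp only [pow_succ]
    exact ih.mul hf

theorem bdd_mul_div {f a b : ℍ → ℂ} (hf : IsBoundedAtImInfty f) {x : ℂ}
    (ha : Tendsto a atImInfty (𝓝 x)) (hb : Tendsto b atImInfty (𝓝 1)) :
    IsBoundedAtImInfty fun τ => f τ * a τ / b τ := by
  have h := hf.mul ((ha.div hb one_ne_zero).isBigO_one ℝ)
  simp only [mul_div_assoc]
  exact h

variable {N : ℕ} [NeZero N]

local notation "Γ₀" => Gamma0 N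
local notation "Cx" => Additive ℂˣ

/-- Bottom rows of elements of `Γ₀(N)`. -/
def IsRow (N : ℕ) (v : Fin 2 → ℤ) : Prop := ∃ γ : Gamma0 N, mat γ 1 = v

open scoped Classical in
/-- The weights of the twisted Eisenstein series. -/
def eisWeight (χ : Additive Γ₀ →+ Cx) (v : Fin 2 → ℤ) : ℂ :=
  if h : IsRow N v then (mult χ h.choose)⁻¹ else 0

theorem mult_of_tr {χ : Additive Γ₀ →+ Cx} (hχ : χ ∈ Hpar Γ₀ Cx) {γ : Γ₀}
    (h : (mat γ).trace ^ 2 ≤ 4) : mult χ γ = 1 := by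
  rw [mult, hχ γ h]
  rfl

theorem eisWeight_row {χ : Additive Γ₀ →+ Cx} (hχ : χ ∈ Hpar Γ₀ Cx) (γ : Γ₀) :
    eisWeight χ (mat γ 1) = (mult χ γ)⁻¹ := by
  have h : IsRow N (mat γ 1) := ⟨γ, rfl⟩
  rw [eisWeight, dif_pos h]
  congr 1
  set δ := h.choose
  have hδ : mat δ 1 = mat γ 1 := h.choose_spec
  have hd1 := PeriodHecke.mat_det γ
  have hd2 := PeriodHecke.mat_det δ
  rw [Matrix.det_fin_two] at hd1 hd2
  have e0 : mat δ 1 0 = mat γ 1 0 := congrFun hδ 0
  have e1 : mat δ 1 1 = mat γ 1 1 := congrFun hδ 1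
  have h3 : mat (δ * γ⁻¹) 1 0 = 0 ∧ mat (δ * γ⁻¹) 1 1 = 1 ∧ mat (δ * γ⁻¹) 0 0 = 1 := by
    have hinv : mat γ⁻¹ = (mat γ).adjugate := by
      simp [mat, Matrix.SpecialLinearGroup.coe_inv]
    rw [PeriodHecke.mat_mul, hinv, Matrix.adjugate_fin_two]
    simp only [Matrix.mul_apply, Fin.sum_univ_two, Matrix.of_apply, Matrix.cons_val',
      Matrix.cons_val_zero, Matrix.cons_val_one, Matrix.cons_val_fin_one, Matrix.empty_val']
    refine ⟨?_, ?_, ?_⟩
    · rw [e0, e1]; ring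
    · rw [e0, e1]; linear_combination hd1
    · rw [e0, e1] at hd2; linear_combination hd2
  have h4 : mult χ (δ * γ⁻¹) = 1 := mult_of_tr hχ (by
    rw [Matrix.trace_fin_two, h3.2.1, h3.2.2]; norm_num)
  have h5 := mult_mul χ (δ * γ⁻¹) γ
  rw [inv_mul_cancel_right, h4, one_mul] at h5
  exact h5

omit [NeZero N] in
theorem norm_eisWeight {χ : Additive Γ₀ →+ Cx} {n : ℕ} (hn : n ≠ 0) (hnχ : n • χ = 0)
    (v : Fin 2 → ℤ) : ‖eisWeight χ v‖ ≤ 1 := by
  rw [eisWeight]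
  split_ifs with h
  · have h1 : mult χ h.choose ^ n = 1 := by rw [← mult_nsmul, hnχ, mult_zero]
    rw [norm_inv, Complex.norm_eq_one_of_pow_eq_one h1 hn, inv_one]
  · simp

theorem row_mul (γ δ : Γ₀) : mat (γ * δ) 1 = mat γ 1 ᵥ* mat δ := by
  rw [PeriodHecke.mat_mul]
  rfl

theorem eisWeight_vecMul {χ : Additive Γ₀ →+ Cx} (hχ : χ ∈ Hpar Γ₀ Cx) (γ : Γ₀) (v : Fin 2 → ℤ) :
    eisWeight χ (v ᵥ* mat γ⁻¹) = mult χ γ * eisWeight χ v := by
  by_cases h : IsRow N v
  · obtain ⟨δ, rfl⟩ := h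
    rw [← row_mul, eisWeight_row hχ, eisWeight_row hχ]
    have h1 := mult_mul χ (δ * γ⁻¹) γ
    rw [inv_mul_cancel_right] at h1
    rw [h1, mul_inv]
    field_simp [mult_ne_zero]
  · have h' : ¬ IsRow N (v ᵥ* mat γ⁻¹) := fun ⟨δ, hδ⟩ => h ⟨δ * γ, by
      rw [row_mul, hδ, Matrix.vecMul_vecMul, ← PeriodHecke.mat_mul, inv_mul_cancel,
        PeriodHecke.mat_one, Matrix.vecMul_one]⟩
    rw [eisWeight, dif_neg h', eisWeight, dif_neg h, mul_zero]

/-- The twisted Eisenstein series. -/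
def eisChi (χ : Additive Γ₀ →+ Cx) : ℍ → ℂ := latSum (eisWeight χ)

theorem eisChi_smul {χ : Additive Γ₀ →+ Cx} (hχ : χ ∈ Hpar Γ₀ Cx) (γ : Γ₀) (z : ℍ) :
    eisChi χ ((γ : SL(2, ℤ)) • z) =
      mult χ γ * denom (γ : SL(2, ℤ)) (z : ℂ) ^ (4 : ℤ) * eisChi χ z := by
  rw [eisChi, latSum_smul]
  have h : (fun v => eisWeight χ (v ᵥ* (((γ : SL(2, ℤ))⁻¹ : SL(2, ℤ)) : Matrix (Fin 2) (Fin 2) ℤ))) =
      fun v => mult χ γ * eisWeight χ v := funext fun v => eisWeight_vecMul hχ γ v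
  rw [h, latSum, latSum]
  simp only [mul_assoc]
  rw [tsum_mul_left]
  ring

/-- The point `i (m + 2)`. -/
def highPt (m : ℕ) : ℍ := ⟨((m : ℂ) + 2) * Complex.I, by simp; positivity⟩

theorem eisChi_ne_zero {χ : Additive Γ₀ →+ Cx} (hχ : χ ∈ Hpar Γ₀ Cx) {n : ℕ} (hn : n ≠ 0)
    (hnχ : n • χ = 0) : eisChi χ ≠ 0 := by
  intro h0
  set w := eisWeight χ
  let lim : (Fin 2 → ℤ) → ℂ := fun v => if v 0 = 0 then w v * ((v 1 : ℂ)) ^ (-(4 : ℤ)) else 0
  have hk : (2 : ℝ) < ((4 : ℤ) : ℝ) := by norm_num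
  have hT : Tendsto (fun m => latSum w (highPt m)) atTop (𝓝 (∑' v, lim v)) := by
    refine tendsto_tsum_of_dominated_convergence
      (bound := fun v : Fin 2 → ℤ =>
        EisensteinSeries.r ⟨⟨(0 : ℝ), 2⟩, Nat.ofNat_pos⟩ ^ (-(4 : ℤ)) * ‖v‖ ^ (-(4 : ℤ))) ?_ ?_ ?_
    · exact_mod_cast (EisensteinSeries.summable_one_div_norm_rpow hk).mul_left
        (EisensteinSeries.r ⟨⟨(0 : ℝ), 2⟩, Nat.ofNat_pos⟩ ^ (-(4 : ℤ)))
    · intro v
      simp only [lim]
      split_ifs with hv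
      · refine tendsto_const_nhds.congr fun m => ?_
        simp [eisSummand, highPt, hv]
      · have hsmall : Tendsto (fun m : ℕ => eisSummand 4 v (highPt m)) atTop (𝓝 0) := by
          rw [tendsto_zero_iff_norm_tendsto_zero]
          have hb : ∀ m : ℕ, ‖eisSummand 4 v (highPt m)‖ ≤ ((|(v 0 : ℝ)| * ((m : ℝ) + 2)) ^ 4)⁻¹ := by
            intro m
            rw [eisSummand, norm_zpow, zpow_neg, zpow_ofNat]
            refine inv_anti₀ (by positivity) (pow_le_pow_left₀ (by positivity) ?_ _)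
            have h1 := Complex.abs_im_le_norm ((v 0 : ℂ) * (highPt m : ℂ) + v 1)
            simpa [highPt, abs_mul, abs_of_nonneg (show (0 : ℝ) ≤ (m : ℝ) + 2 by positivity)] using h1
          refine squeeze_zero (fun _ => norm_nonneg _) hb ?_
          have h2 : Tendsto (fun m : ℕ => |(v 0 : ℝ)| * ((m : ℝ) + 2)) atTop atTop :=
            (tendsto_atTop_add_const_right atTop 2 tendsto_natCast_atTop_atTop).const_mul_atTop
              (by positivity)
          exact tendsto_inv_atTop_zero.comp ((tendsto_pow_atTop (by norm_num)).comp h2)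
        simpa using hsmall.const_mul (w v)
    · refine Eventually.of_forall fun m v => (norm_term_le (norm_eisWeight hn hnχ) _ v).trans ?_
      simp_rw [eisSummand, norm_zpow]
      exact_mod_cast EisensteinSeries.summand_bound_of_mem_verticalStrip
        (lt_trans two_pos hk).le v two_pos
        ⟨by simp [highPt], by
          show (2 : ℝ) ≤ (((m : ℂ) + 2) * Complex.I).im
          simp⟩
  rw [show latSum w = eisChi χ from rfl, h0] at hT
  have h1 : ∑' v, lim v = 0 := (tendsto_nhds_unique hT tendsto_const_nhds)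
  have hrow : ∀ v : Fin 2 → ℤ, v 0 = 0 → IsRow N v → v 1 = 1 ∨ v 1 = -1 := fun v h0 ⟨γ, hγ⟩ => by
    have hd := PeriodHecke.mat_det γ
    rw [Matrix.det_fin_two, congrFun hγ 0, congrFun hγ 1, h0, mul_zero, sub_zero] at hd
    exact Int.isUnit_iff.1 (IsUnit.of_mul_eq_one_right _ hd)
  have hone : ∀ γ : Γ₀, mat γ 1 0 = 0 → eisWeight χ (mat γ 1) = 1 := fun γ h0 => by
    rw [eisWeight_row hχ, mult_of_tr hχ, inv_one]
    have hd := PeriodHecke.mat_det γ
    rw [Matrix.det_fin_two, h0, mul_zero, sub_zero] at hd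
    rw [Matrix.trace_fin_two]
    rcases Int.mul_eq_one_iff_eq_one_or_neg_one.1 hd with ⟨a, b⟩ | ⟨a, b⟩ <;> rw [a, b] <;> norm_num
  have h01 : eisWeight χ ![0, 1] = 1 := by
    have := hone 1 (by simp [PeriodHecke.mat_one])
    rwa [show mat (1 : Γ₀) 1 = ![0, 1] from funext fun i => by
      rw [PeriodHecke.mat_one]; fin_cases i <;> rfl] at this
  have h0m : eisWeight χ ![0, -1] = 1 := by
    let ε : Γ₀ := ⟨-1, ES.Gamma0_neg_one_mem⟩
    have hε : mat ε 1 = ![0, -1] := funext fun i => by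
      fin_cases i <;> simp [ε, mat]
    have := hone ε (by rw [hε]; rfl)
    rwa [hε] at this
  have hne : (![0, 1] : Fin 2 → ℤ) ≠ ![0, -1] := fun h => by simpa using congrFun h 1
  have e : lim = fun v => (if v = ![0, 1] then (1 : ℂ) else 0) + if v = ![0, -1] then (1 : ℂ) else 0 := by
    funext v
    rcases eq_or_ne v ![0, 1] with rfl | ha
    · simp [lim, w, h01, hne]
    rcases eq_or_ne v ![0, -1] with rfl | hb
    · simp [lim, w, h0m, hne.symm]; norm_num
    simp only [lim, if_neg ha, if_neg hb, add_zero]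
    split_ifs with hv
    · by_cases hr : IsRow N v
      · rcases hrow v hv hr with h | h
        · exact absurd (funext fun i => by fin_cases i <;> simp [hv, h]) ha
        · exact absurd (funext fun i => by fin_cases i <;> simp [hv, h]) hb
      · simp only [w, eisWeight, dif_neg hr, zero_mul]
    · rfl
  have h3 : ∑' v, lim v = 1 + 1 := by
    rw [e, Summable.tsum_add ⟨_, hasSum_ite_eq ![0, 1] (1 : ℂ)⟩ ⟨_, hasSum_ite_eq ![0, -1] (1 : ℂ)⟩,
      tsum_ite_eq, tsum_ite_eq]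
  rw [h3] at h1
  norm_num at h1

/-- A function of weight zero with the given multiplier, an `n`-th root of a function of level
`N`. -/
theorem exists_root_fun {χ : Additive Γ₀ →+ Cx} (hχ : χ ∈ Hpar Γ₀ Cx) {n : ℕ} (hn : n ≠ 0)
    (hnχ : n • χ = 0) :
    ∃ (R : Hol) (A : W0 N), R ≠ 0 ∧ HasChar (R : ℍ → ℂ) χ ∧ R ^ n = toHol A := by
  set w := eisWeight χ
  have hw : ∀ v, ‖w v‖ ≤ 1 := norm_eisWeight hn hnχ
  set R : ℍ → ℂ := fun τ => eisChi χ τ * e4 τ ^ 2 / dlt τ with hR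
  have hRmd : MDiff R := by
    rw [UpperHalfPlane.mdifferentiable_iff]
    exact ((UpperHalfPlane.mdifferentiable_iff.1 (mdiff_latSum hw)).mul
      ((UpperHalfPlane.mdifferentiable_iff.1 (ES.e4_mem (Γ := ⊤)).2.1).pow 2)).div
      (UpperHalfPlane.mdifferentiable_iff.1 (ES.dlt_mem (Γ := ⊤)).2.1) fun z _ => ES.dlt_ne_zero _
  have hgen : ∀ (g : SL(2, ℤ)) τ, R (g • τ) =
      latSum (fun v => w (v ᵥ* ((g⁻¹ : SL(2, ℤ)) : Matrix (Fin 2) (Fin 2) ℤ))) τ * e4 τ ^ 2 / dlt τ := by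
    intro g τ
    simp only [hR, eisChi]
    rw [latSum_smul, ES.top_apply_smul (ES.e4_mem (Γ := ⊤)), ES.top_apply_smul (ES.dlt_mem (Γ := ⊤))]
    have hd : denom g (τ : ℂ) ≠ 0 := UpperHalfPlane.denom_ne_zero _ _
    have := ES.dlt_ne_zero τ
    simp only [zpow_ofNat]
    field_simp
    ring
  have hchar : HasChar R χ := fun γ τ => by
    simp only [hR, eisChi_smul hχ, ES.top_apply_smul (ES.e4_mem (Γ := ⊤)),
      ES.top_apply_smul (ES.dlt_mem (Γ := ⊤))]
    have hd : denom (γ : SL(2, ℤ)) (τ : ℂ) ≠ 0 := UpperHalfPlane.denom_ne_zero _ _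
    have := ES.dlt_ne_zero τ
    simp only [zpow_ofNat]
    field_simp
  have hne : R ≠ 0 := fun h0 => by
    have h1 : (⟨eisChi χ, mdiff_latSum hw⟩ : Hol) * ⟨e4, (ES.e4_mem (Γ := ⊤)).2.1⟩ ^ 2 = 0 :=
      Subtype.ext (funext fun τ => by
        have := congrFun h0 τ
        simp only [hR, Pi.zero_apply, div_eq_zero_iff] at this
        simpa using this.resolve_right (ES.dlt_ne_zero τ))
    rcases mul_eq_zero.1 h1 with h | h
    · exact eisChi_ne_zero hχ hn hnχ (congrArg Subtype.val h)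
    · have h4 : e4 = 0 := congrArg Subtype.val (pow_eq_zero_iff'.1 h).1
      have := ES.e4_tendsto
      rw [h4] at this
      exact zero_ne_one (tendsto_nhds_unique tendsto_const_nhds this)
  have hinv : ∀ γ ∈ Gamma0 N, ∀ τ, R (γ • τ) ^ n = R τ ^ n := fun γ hγ τ => by
    rw [hchar ⟨γ, hγ⟩ τ, mul_pow, ← mult_nsmul, hnχ, mult_zero, one_mul]
  have hA : (fun τ => R τ ^ n) ∈ W0 N := by
    refine ⟨hRmd.pow n, hinv, fun g => ?_⟩
    refine ⟨N * n, ?_, ?_, ?_⟩
    · exact ((comp_smul_mdiff hRmd g).pow n).mul (mdiff_qh.pow _)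
    · intro z
      have hq := periodic_qh (h := (N : ℝ)) z
      simp only [comp_apply] at hq
      simp only [comp_apply, Pi.mul_apply, Pi.pow_apply, hq]
      by_cases hz : 0 < z.im
      · have hz1 : 0 < (z + ((N : ℝ) : ℂ)).im := by simpa using hz
        rw [ofComplex_apply_of_im_pos hz, ofComplex_apply_of_im_pos hz1]
        congr 1
        have hmem : g * ModularGroup.T ^ (N : ℤ) * g⁻¹ ∈ Gamma0 N :=
          Gamma0_mem.2 (Gamma_mem.1 ((Gamma_normal N).conj_mem _ (ModularGroup_T_pow_mem_Gamma N N dvd_rfl) g)).2.2.1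
        have he : (⟨z + ((N : ℝ) : ℂ), hz1⟩ : ℍ) = ModularGroup.T ^ (N : ℤ) • ⟨z, hz⟩ := by
          apply UpperHalfPlane.ext
          rw [UpperHalfPlane.modular_T_zpow_smul]
          simp [add_comm]
        rw [he, show g • ModularGroup.T ^ (N : ℤ) • (⟨z, hz⟩ : ℍ) =
          (g * ModularGroup.T ^ (N : ℤ) * g⁻¹) • g • (⟨z, hz⟩ : ℍ) by
            rw [← mul_smul, ← mul_smul, inv_mul_cancel_right]]
        exact hinv _ hmem _
      · have hz1 : (z + ((N : ℝ) : ℂ)).im ≤ 0 := by simpa using not_lt.mp hz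
        rw [ofComplex_apply_of_im_nonpos hz1, ofComplex_apply_of_im_nonpos (not_lt.mp hz)]
    · set w' : (Fin 2 → ℤ) → ℂ := fun v => w (v ᵥ* ((g⁻¹ : SL(2, ℤ)) : Matrix (Fin 2) (Fin 2) ℤ))
      have hlim : Tendsto (fun τ : ℍ => eulerH τ ^ 24) atImInfty (𝓝 1) := by
        refine ModularForm.tendsto_atImInfty_tprod_one_sub_eta_q_pow.congr fun τ => ?_
        have h := dlt_eq_euler τ
        rw [dlt, ModularForm.discriminant_eq_q_prod, qh] at h
        exact mul_left_cancel₀ (Periodic.qParam_ne_zero _) h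
      have hq1 : ∀ τ : ℍ, qh 1 τ = qh (N : ℝ) τ ^ N := fun τ => by
        simp only [qh, Periodic.qParam, ← Complex.exp_nat_mul]
        congr 1
        have : (N : ℂ) ≠ 0 := Nat.cast_ne_zero.2 (NeZero.ne N)
        push_cast
        field_simp
      have h1 : (fun τ => R (g • τ) ^ n) * qh (N : ℝ) ^ (N * n) =
          fun τ => (latSum w' τ * e4 τ ^ 2 / eulerH τ ^ 24) ^ n := by
        funext τ
        simp only [Pi.mul_apply, Pi.pow_apply, hgen, w', pow_mul, ← mul_pow, ← hq1]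
        congr 1
        rw [dlt_eq_euler]
        have := eulerH_ne_zero τ
        have := qh_ne_zero (h := 1) τ
        field_simp
      show IsBoundedAtImInfty ((fun τ => R (g • τ) ^ n) * qh (N : ℝ) ^ (N * n))
      rw [h1]
      have h2 : IsBoundedAtImInfty (fun τ => latSum w' τ * e4 τ ^ 2 / eulerH τ ^ 24) :=
        bdd_mul_div (bdd_latSum (w := w') fun v => hw _) (ES.e4_tendsto.pow 2) hlim
      exact bdd_pow h2 n
  exact ⟨⟨R, hRmd⟩, ⟨_, hA⟩, fun h0 => hne (congrArg Subtype.val h0), hchar, Subtype.ext rfl⟩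

end FLTAgent.TorsionHom
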