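import Fermat.Agent.TorsionHom.Basic
import Fermat.Agent.PeriodHecke.Lattice

/-!
Homomorphisms with values in the integers modulo `n` as characters of exponent `n`.
-/

set_option autoImplicit false

noncomputable section

open CongruenceSubgroup
open scoped MatrixGroups

namespace FLTAgent.TorsionHom

open FLTAgent.PeriodHecke (Hpar mapHpar)

variable (n : ℕ) [NeZero n]

/-- The residue `a` as the root of unity `exp (2πi a / n)`. -/
def rootHom : ZMod n →+ Additive ℂˣ :=
  AddMonoidHom.mk' (fun a => Additive.ofMul ((ZMod.stdAddChar (N := n)).toMonoidHom.toHomUnits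
    (Multiplicative.ofAdd a)))
    fun a b => by rw [ofAdd_add, map_mul, ofMul_mul]

theorem rootHom_apply (a : ZMod n) :
    (((rootHom n a).toMul : ℂˣ) : ℂ) = ZMod.stdAddChar (N := n) a := rfl

theorem rootHom_injective : Function.Injective (rootHom n) := fun a b h =>
  ZMod.injective_stdAddChar (by rw [← rootHom_apply, ← rootHom_apply, h])

theorem exists_rootHom {x : Additive ℂˣ} (hx : n • x = 0) : ∃ a, rootHom n a = x := by
  have hprim : IsPrimitiveRoot (ZMod.stdAddChar (N := n) ((1 : ℤ) : ZMod n)) n := by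
    rw [ZMod.stdAddChar_coe]
    simpa using Complex.isPrimitiveRoot_exp n (NeZero.ne n)
  have hz : ((x.toMul : ℂˣ) : ℂ) ^ n = 1 := by
    rw [← Units.val_pow_eq_pow_val, ← toMul_nsmul, hx, toMul_zero, Units.val_one]
  obtain ⟨i, -, hi⟩ := hprim.eq_pow_of_pow_eq_one hz
  refine ⟨(i : ZMod n), Additive.toMul.injective (Units.ext ?_)⟩
  rw [rootHom_apply, ← hi, Int.cast_one, ← AddChar.map_nsmul_eq_pow, nsmul_one]

variable (N : ℕ)

local notation "Γ₀" => Gamma0 N

theorem mapHpar_root_injective : Function.Injective (mapHpar (Γ := Γ₀) (rootHom n)) := fun φ ψ h =>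
  Subtype.ext (AddMonoidHom.ext fun γ => rootHom_injective n
    (DFunLike.congr_fun (congrArg Subtype.val h) γ))

theorem nsmul_mapHpar_root (φ : Hpar Γ₀ (ZMod n)) : n • mapHpar (rootHom n) φ = 0 := by
  rw [← map_nsmul, show n • φ = 0 from Subtype.ext (AddMonoidHom.ext fun γ => by simp), map_zero]

theorem exists_mapHpar_root {χ : Hpar Γ₀ (Additive ℂˣ)} (h : n • χ = 0) :
    ∃ φ, mapHpar (rootHom n) φ = χ := by
  have hv : ∀ γ, n • χ.1 γ = 0 := fun γ =>
    DFunLike.congr_fun (congrArg Subtype.val h) γ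
  choose a ha using fun γ => exists_rootHom n (hv γ)
  refine ⟨⟨AddMonoidHom.mk' a fun γ δ => rootHom_injective n (by rw [map_add, ha, ha, ha, map_add]),
    fun γ hγ => rootHom_injective n ?_⟩, Subtype.ext (AddMonoidHom.ext fun γ => ha γ)⟩
  rw [map_zero]
  exact (ha _).trans (χ.2 γ hγ)

theorem finite_killed [NeZero N] :
    {χ : Additive Γ₀ →+ Additive ℂˣ | χ ∈ Hpar Γ₀ (Additive ℂˣ) ∧ n • χ = 0}.Finite := by
  haveI : Finite (Hpar Γ₀ (ZMod n)) := Nat.finite_of_card_ne_zero (by
    rw [PeriodHecke.card_Hpar_zmod N n]; exact pow_ne_zero _ (NeZero.ne n))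
  refine (Set.finite_range fun φ : Hpar Γ₀ (ZMod n) => (mapHpar (rootHom n) φ).1).subset ?_
  rintro χ ⟨hχ, hn⟩
  obtain ⟨φ, hφ⟩ := exists_mapHpar_root n N (χ := ⟨χ, hχ⟩) (Subtype.ext hn)
  exact ⟨φ, congrArg Subtype.val hφ⟩

end FLTAgent.TorsionHom
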