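import Mathlib

/-!
An element outside an algebraically closed subfield of `ℂ` has infinite orbit under the
automorphisms fixing the subfield.
-/

set_option autoImplicit false

noncomputable section

namespace FLTAgent.TorsionHom

open MvPolynomial

/-- The translation of one variable. -/
def shiftVar {ι : Type*} {R : Type*} [CommRing R] [DecidableEq ι] (i : ι) (c : R) :
    MvPolynomial ι R →ₐ[R] MvPolynomial ι R :=
  aeval fun j => if j = i then X j + C c else X j

theorem shiftVar_shiftVar {ι : Type*} {R : Type*} [CommRing R] [DecidableEq ι] (i : ι) (c : R) :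
    (shiftVar i c).comp (shiftVar i (-c)) = AlgHom.id R (MvPolynomial ι R) := by
  refine algHom_ext fun j => ?_
  by_cases h : j = i <;> simp [shiftVar, h]

theorem exists_translation (L : Subfield ℂ) [IsAlgClosed L] {z : ℂ} (hz : z ∉ L) :
    ∃ e : ℂ ≃ₐ[ℚ] ℂ, (∀ a ∈ L, e a = a) ∧ e z = z + 1 := by
  classical
  have hind : AlgebraicIndepOn L id ({z} : Set ℂ) := by
    rw [AlgebraicIndepOn, algebraicIndependent_singleton_iff ⟨z, Set.mem_singleton z⟩]
    intro halg
    obtain ⟨a, ha⟩ := IntermediateField.mem_bot.1 (IsAlgClosed.algebraMap_bijective_of_isIntegral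
      (k := L) (K := algebraicClosure L ℂ) |>.2 ⟨z, mem_algebraicClosure_iff.2 halg⟩ |>.elim
      fun a ha => (IntermediateField.mem_bot.2 ⟨a, congrArg Subtype.val ha⟩ : z ∈ (⊥ : IntermediateField L ℂ)))
    exact hz (ha ▸ a.2)
  obtain ⟨s, hzs, hs⟩ := exists_isTranscendenceBasis_superset hind
  set z' : s := ⟨z, hzs rfl⟩
  set v : s → ℂ := fun x => (x : ℂ)
  have hs' : IsTranscendenceBasis L v := hs
  letI := IsAlgClosed.isAlgClosure_of_transcendence_basis v hs'
  let e₀ : MvPolynomial s L ≃ₐ[L] MvPolynomial s L :=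
    AlgEquiv.ofAlgHom (shiftVar z' 1) (shiftVar z' (-1)) (shiftVar_shiftVar _ _)
      (by simpa using shiftVar_shiftVar z' (-1 : L))
  let e : Algebra.adjoin L (Set.range v) ≃+* Algebra.adjoin L (Set.range v) :=
    hs'.1.aevalEquiv.symm.toRingEquiv.trans (e₀.toRingEquiv.trans hs'.1.aevalEquiv.toRingEquiv)
  let σ : ℂ ≃+* ℂ := IsAlgClosure.equivOfEquiv ℂ ℂ e
  have hσ : ∀ p : MvPolynomial s L, σ (aeval v p) = aeval v (e₀ p) := by
    intro p
    have := IsAlgClosure.equivOfEquiv_algebraMap ℂ ℂ e (hs'.1.aevalEquiv p)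
    simpa [e, σ, AlgebraicIndependent.algebraMap_aevalEquiv] using this
  refine ⟨AlgEquiv.ofRingEquiv (f := σ) fun q => ?_, fun a ha => ?_, ?_⟩
  · rw [eq_ratCast, map_ratCast]
  · have h := hσ (C ⟨a, ha⟩)
    rw [show e₀ (C ⟨a, ha⟩) = C ⟨a, ha⟩ from algHom_C (shiftVar z' 1) _, aeval_C] at h
    exact h
  · have h := hσ (X z')
    rw [show e₀ (X z') = X z' + C 1 from (aeval_X _ z').trans (if_pos rfl), map_add, aeval_X,
      aeval_C, map_one] at h
    exact h

end FLTAgent.TorsionHom
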