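import Fermat.Agent.TorsionHom.GoodRep
import Fermat.Agent.TorsionHom.RootHom
import Fermat.Agent.TorsionHom.Translation
import Fermat.Agent.TorsionHom.Eis
import Fermat.Prelude.Def_ModularCurve_ArithmeticGalois

/-!
Every character of exponent `n` killing parabolic and elliptic elements comes from a function with
coefficients in any algebraically closed subfield.
-/

set_option autoImplicit false

noncomputable section

open CongruenceSubgroup Function
open scoped MatrixGroups

namespace FLTAgent.TorsionHom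

open FLTAgent.X0Fn AlgebraicCurve
open FLTAgent.PeriodHecke (Hpar)
open ModularCurve (coeffMap qExpand arithmeticGalois modularFunctionFieldFull)

variable {N : ℕ} [NeZero N]

local notation "Γ₀" => Gamma0 N
local notation "Cx" => Additive ℂˣ

/-- The expansion of an invariant function as a series in `q`. -/
theorem exists_q_series (f : W0 N) :
    ∃ z : LaurentSeries ℂ, iota (N := N) (RingHom.id ℂ) z = expW N f := by
  have hN : (N : ℤ) ≠ 0 := Nat.cast_ne_zero.2 (NeZero.ne N)
  set g := expW N f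
  have hvan : ∀ k : ℤ, ¬ (N : ℤ) ∣ k → g.coeff k = 0 := fun k hk => by
    by_contra h0
    have h1 := coeff_expL_shift (⟨f, W0_le_PerL f.2⟩ : PerL (N : ℝ)) ⟨f, W0_le_PerL f.2⟩ 1
      (fun τ => (f.2.2.1 _ (Gamma0_mem.2 (by simp)) τ).symm) k
    change g.coeff k = _ * g.coeff k at h1
    have h2 := mul_right_cancel₀ h0 ((one_mul _).trans h1)
    rw [← Complex.exp_int_mul, eq_comm, Complex.exp_eq_one_iff] at h2
    obtain ⟨m, hm⟩ := h2
    refine hk ⟨m, ?_⟩
    have hNC : (N : ℂ) ≠ 0 := Nat.cast_ne_zero.2 (NeZero.ne N)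
    have h3 : (k : ℂ) = (N : ℂ) * m := by
      have := Complex.two_pi_I_ne_zero
      push_cast at hm
      field_simp at hm
      linear_combination hm
    exact_mod_cast h3
  refine ⟨HahnSeries.ofSuppBddBelow (fun k => g.coeff (N * k)) ⟨min g.order 0, fun k hk => ?_⟩, ?_⟩
  · have h1 : g.order ≤ N * k := HahnSeries.order_le_of_coeff_ne_zero hk
    have h2 : (1 : ℤ) ≤ N := Int.natCast_pos.2 (Nat.pos_of_ne_zero (NeZero.ne N))
    rcases le_or_gt 0 k with h | h
    · exact (min_le_right _ _).trans h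
    · exact (min_le_left _ _).trans (h1.trans (by nlinarith))
  · refine HahnSeries.ext (funext fun k => ?_)
    rw [iota, RingHom.comp_apply, ModularCurve.coeffMap_id]
    by_cases hk : (N : ℤ) ∣ k
    · obtain ⟨m, rfl⟩ := hk
      rw [ModularCurve.qExpand_coeff_mul]
      rfl
    · rw [ModularCurve.qExpand_coeff_of_not_dvd _ _ hk, hvan k hk]

/-- Over the complex numbers every character comes from a function. -/
theorem exists_fn_complex {χ : Additive Γ₀ →+ Cx} (hχ : χ ∈ Hpar Γ₀ Cx) {n : ℕ} (hn : n ≠ 0)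
    (hnχ : n • χ = 0) :
    ∃ x : XF ℂ N, x ≠ 0 ∧ IsCharFn (RingHom.id ℂ) n (x : LaurentSeries ℂ) χ := by
  obtain ⟨R, A, hR, hc, hA⟩ := exists_root_fun hχ hn hnχ
  obtain ⟨z, hz⟩ := exists_q_series A
  have h1 : (1 : W0 N) ≠ 0 := fun h =>
    one_ne_zero (congrFun (congrArg Subtype.val h) UpperHalfPlane.I)
  have hz1 : iota (N := N) (RingHom.id ℂ) z * expW N 1 = expW N A := by rw [map_one, mul_one, hz]
  refine ⟨⟨z, mem_XF_of_W0 _ h1 hz1⟩, fun h0 => hR ?_,
    R, ⟨A, 1, h1, hz1, by rw [one_pow, mul_one]; exact hA⟩, hc⟩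
  have hz0 : z = 0 := congrArg Subtype.val h0
  rw [hz0, map_zero, eq_comm, map_eq_zero_iff _ expW_injective] at hz
  rw [hz, map_zero] at hA
  exact (pow_eq_zero_iff'.1 hA).1

section Galois

variable (e : ℂ ≃ₐ[ℚ] ℂ)

theorem order_coeffMap (x : LaurentSeries ℂ) : (coeffMap (e : ℂ →+* ℂ) x).order = x.order :=
  order_eq_of_support_eq (Set.ext fun k => by
    simp [ModularCurve.coeffMap_coeff])

set_option quotPrecheck false in
local notation "gal" => arithmeticGalois (modularFunctionFieldFull N) e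

theorem gal_infPlace : gal • infPlace N (RingHom.id ℂ) = infPlace N (RingHom.id ℂ) := by
  refine Curves.place_eq_of_le fun f hf => ?_
  rw [← Curves.ordGE_zero_iff_mem] at hf ⊢
  rcases hf with rfl | hf
  · exact Curves.ordGE_zero _ _
  refine Or.inr ?_
  have h1 : f = gal • (gal⁻¹ • f) := (smul_inv_smul gal f).symm
  have h2 : (f : LaurentSeries ℂ).order = (gal⁻¹ • f : XF ℂ N).1.order := by
    conv_lhs => rw [h1]
    exact order_coeffMap e _
  rw [h1, AlgebraicCurve.SemilinearAut.ord_smul] at hf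
  rw [← order_coe, h2, order_coe]
  exact hf

theorem Good.gal {n : ℕ} {x : XF ℂ N} (h : Good (RingHom.id ℂ) n x) :
    Good (RingHom.id ℂ) n (gal • x) := by
  refine ⟨fun h0 => h.1 ((smul_eq_zero_iff_eq gal).1 h0), fun v => ?_⟩
  rw [show v = gal • (gal⁻¹ • v) from (smul_inv_smul _ v).symm,
    AlgebraicCurve.SemilinearAut.ord_smul]
  refine ⟨(h.2 _).1, fun hv => (h.2 _).2 fun he => hv ?_⟩
  rw [he, gal_infPlace]

end Galois

theorem Reduced.gal {n : ℕ} {x : XF ℂ N} (h : Reduced (RingHom.id ℂ) n x) (e : ℂ ≃ₐ[ℚ] ℂ) :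
    Reduced (RingHom.id ℂ) n (arithmeticGalois (modularFunctionFieldFull N) e • x) := by
  set g := arithmeticGalois (L := ℂ) (modularFunctionFieldFull N) e
  refine ⟨h.1.gal e, ?_, fun y hy hg => ?_⟩
  · show HahnSeries.leadingCoeff (coeffMap (e : ℂ →+* ℂ) (x : LaurentSeries ℂ)) = 1
    rw [HahnSeries.leadingCoeff_eq, order_coeffMap, ModularCurve.coeffMap_coeff,
      ← HahnSeries.leadingCoeff_eq, h.2.1, map_one]
  have hy' : g⁻¹ • y ≠ 0 := fun h0 => hy ((smul_eq_zero_iff_eq g⁻¹).1 h0)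
  have hxy : g⁻¹ • ((g • x) * y ^ n) = x * (g⁻¹ • y) ^ n := by
    rw [smul_mul', inv_smul_smul, smul_pow']
  have h1 : Good (RingHom.id ℂ) n (g⁻¹ • ((g • x) * y ^ n)) := by
    rw [show g⁻¹ = arithmeticGalois (L := ℂ) (modularFunctionFieldFull N) e⁻¹ from (map_inv _ _).symm]
    exact hg.gal e⁻¹
  rw [hxy] at h1
  have h2 := h.2.2 _ hy' h1
  rw [← AlgebraicCurve.SemilinearAut.ord_smul g, gal_infPlace, ← hxy, smul_inv_smul,
    ← AlgebraicCurve.SemilinearAut.ord_smul g (v := infPlace N (RingHom.id ℂ)) (f := x),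
    gal_infPlace] at h2
  exact h2

theorem finite_reduced {n : ℕ} (hn : n ≠ 0) :
    {x : XF ℂ N | Reduced (RingHom.id ℂ) n x}.Finite := by
  haveI : NeZero n := ⟨hn⟩
  choose c hc hcn hchar using fun x : {x : XF ℂ N // Reduced (RingHom.id ℂ) n x} =>
    exists_isCharFn (RingHom.id ℂ) x.2.1.1 hn fun v => (x.2.1.2 v).1
  haveI : Finite {χ : Additive Γ₀ →+ Cx // χ ∈ Hpar Γ₀ Cx ∧ n • χ = 0} :=
    (finite_killed n N).to_subtype
  refine Set.finite_coe_iff.1 (Finite.of_injective
    (fun x : {x : XF ℂ N // Reduced (RingHom.id ℂ) n x} =>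
      (⟨c x, hc x, hcn x⟩ : {χ : Additive Γ₀ →+ Cx // χ ∈ Hpar Γ₀ Cx ∧ n • χ = 0}))
    fun x y hxy => ?_)
  have he : c x = c y := congrArg Subtype.val hxy
  obtain ⟨w, hw, hxw⟩ := exists_pow_ratio hn x.2.1.1 y.2.1.1 (hcn y) (he ▸ hchar x) (hchar y)
  exact Subtype.ext (x.2.eq_of_pow hn y.2 hw hxw)

variable {K : Type*} [Field K] [Algebra ℚ K] [IsAlgClosed K] (κ : K →+* ℂ)

omit [Algebra ℚ K] in
/-- Coefficients of normalised representatives lie in every algebraically closed subfield. -/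
theorem coeff_mem_range {n : ℕ} (hn : n ≠ 0) {x : XF ℂ N} (hx : Reduced (RingHom.id ℂ) n x)
    (i : ℤ) : (x : LaurentSeries ℂ).coeff i ∈ κ.fieldRange := by
  by_contra hz
  set z := (x : LaurentSeries ℂ).coeff i
  haveI : IsAlgClosed κ.fieldRange := IsAlgClosed.of_exists_root _ fun p _ hp => by
    obtain ⟨a, ha⟩ := IsAlgClosed.exists_root (p.map κ.rangeRestrictFieldEquiv.symm.toRingHom) (by
      rw [Polynomial.degree_map]
      exact hp.degree_pos.ne')
    refine ⟨κ.rangeRestrictFieldEquiv a, ?_⟩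
    rw [Polynomial.IsRoot, Polynomial.eval_map] at ha
    have h1 := congrArg κ.rangeRestrictFieldEquiv.toRingHom ha
    rw [Polynomial.hom_eval₂, map_zero, RingEquiv.toRingHom_comp_symm_toRingHom,
      Polynomial.eval₂_id] at h1
    exact h1
  obtain ⟨e, -, he⟩ := exists_translation κ.fieldRange hz
  have hmem : ∀ k : ℕ, ∃ y : XF ℂ N, Reduced (RingHom.id ℂ) n y ∧
      (y : LaurentSeries ℂ).coeff i = z + k := by
    intro k
    induction k with
    | zero => exact ⟨x, hx, by simp [z]⟩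
    | succ k ih =>
      obtain ⟨y, hy, hk⟩ := ih
      refine ⟨_, hy.gal e, ?_⟩
      show (coeffMap (e : ℂ →+* ℂ) (y : LaurentSeries ℂ)).coeff i = _
      rw [ModularCurve.coeffMap_coeff, hk]
      show e (z + k) = _
      rw [map_add, he, map_natCast]
      push_cast
      ring
  have hfin := (finite_reduced (N := N) hn).image fun y : XF ℂ N => (y : LaurentSeries ℂ).coeff i
  refine Set.infinite_of_injective_forall_mem (s := _) (f := fun k : ℕ => z + k) ?_ (fun k => ?_) hfin
  · intro a b hab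
    exact_mod_cast add_left_cancel hab
  · obtain ⟨y, hy, hk⟩ := hmem k
    exact ⟨y, hy, hk⟩

/-- Every character of exponent `n` comes from a function over `K`. -/
theorem exists_fn_of_char {χ : Additive Γ₀ →+ Cx} (hχ : χ ∈ Hpar Γ₀ Cx) {n : ℕ} (hn : n ≠ 0)
    (hnχ : n • χ = 0) :
    ∃ x : XF K N, x ≠ 0 ∧ IsCharFn κ n (x : LaurentSeries K) χ := by
  obtain ⟨z, hz0, hz⟩ := exists_fn_complex hχ hn hnχ
  obtain ⟨y, hy, hred⟩ := exists_reduced (κ := RingHom.id ℂ) hn hz0
    (dvd_ord_of_isCharFn (RingHom.id ℂ) hz0 hn hz hχ)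
  obtain ⟨a, b, hb, hab⟩ := (mem_ratField (RingHom.id ℂ)).1 (XF_le_ratField (RingHom.id ℂ) y.2)
  have hchar : IsCharFn (RingHom.id ℂ) n ((z * y ^ n : XF ℂ N) : LaurentSeries ℂ) χ := by
    have h := hz.mul (isCharFn_pow hb hab hn)
    rw [show χ + 0 = χ from mult_injective fun γ => by rw [mult_add, mult_zero, mul_one]] at h
    simpa using h
  set u : XF ℂ N := z * y ^ n
  choose c hc using coeff_mem_range κ hn hred
  have hsupp : BddBelow (Function.support c) := ⟨(u : LaurentSeries ℂ).order, fun k hk =>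
    HahnSeries.order_le_of_coeff_ne_zero (by rw [← hc]; exact (map_ne_zero κ).2 hk)⟩
  set w : LaurentSeries K := HahnSeries.ofSuppBddBelow c hsupp
  have hw : coeffMap κ w = (u : LaurentSeries ℂ) :=
    HahnSeries.ext (funext fun k => (ModularCurve.coeffMap_coeff κ w k).trans (hc k))
  have hiota : iota (N := N) κ w = iota (N := N) (RingHom.id ℂ) (u : LaurentSeries ℂ) := by
    rw [iota, iota, RingHom.comp_apply, RingHom.comp_apply, hw, ModularCurve.coeffMap_id]
  obtain ⟨R, ⟨A, B, hB, hAB, hR⟩, hchi⟩ := hchar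
  rw [← hiota] at hAB
  refine ⟨⟨w, mem_XF_of_W0 κ hB hAB⟩, fun h0 => hred.1.1 (Subtype.ext ?_),
    R, ⟨A, B, hB, hAB, hR⟩, hchi⟩
  show (u : LaurentSeries ℂ) = 0
  rw [← hw, show w = 0 from congrArg Subtype.val h0, map_zero]

end FLTAgent.TorsionHom
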