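import Fermat.Agent.TorsionHom.Basic

/-!
A quotient of functions of level `N` with expansion over `K` lies in the function field over `K`.
-/

set_option autoImplicit false

noncomputable section

open UpperHalfPlane CongruenceSubgroup Complex Function IntermediateField
open scoped MatrixGroups Manifold

namespace FLTAgent.TorsionHom

open FLTAgent.X0Fn
open FLTAgent.ES (jfun)
open ModularCurve

/-- A field all whose elements have bounded degree equals a subfield of that degree. -/
theorem mem_of_bounded_degree {E L : Type*} [Field E] [Field L] [Algebra E L] [CharZero E]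
    (F' W : IntermediateField E L) {n : ℕ} (hn : 0 < n) (hF : Module.finrank E F' = n)
    (hle : F' ≤ W) (hb : ∀ θ ∈ W, IsIntegral E θ ∧ (minpoly E θ).natDegree ≤ n) {z : L}
    (hz : z ∈ W) : z ∈ F' := by
  have : FiniteDimensional E F' := Module.finite_of_finrank_pos (by omega)
  have : FiniteDimensional E E⟮z⟯ := IntermediateField.adjoin.finiteDimensional (hb z hz).1
  let G : IntermediateField E L := F' ⊔ E⟮z⟯
  have hGW : G ≤ W := sup_le hle (IntermediateField.adjoin_simple_le_iff.2 hz)
  obtain ⟨θ, hθ⟩ := Field.exists_primitive_element E G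
  have hGle : Module.finrank E G ≤ n := by
    rw [← (IntermediateField.topEquiv (F := E) (E := G)).toLinearEquiv.finrank_eq, ← hθ,
      IntermediateField.adjoin.finrank (Algebra.IsIntegral.isIntegral θ)]
    refine le_of_eq_of_le ?_ (hb _ (hGW θ.2)).2
    exact congrArg _ (minpoly.algHom_eq G.val Subtype.val_injective θ).symm
  have heq : F' = G := IntermediateField.eq_of_le_of_finrank_le le_sup_left (hF ▸ hGle)
  rw [heq]
  exact (le_sup_right : E⟮z⟯ ≤ G) (IntermediateField.mem_adjoin_simple_self E z)

variable {K : Type*} [Field K] [Algebra ℚ K] {N : ℕ} [NeZero N] (κ : K →+* ℂ)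

/-- An integral relation over the polynomials in `j` for a function of level `N`. -/
theorem exists_monic_relation (f : W0 N) :
    ∃ p : Fin (Fintype.card (Cos N)) → Polynomial ℂ,
      f ^ Fintype.card (Cos N) +
        ∑ m, Polynomial.aeval (toW κ (jA K N)) (p m) * f ^ (m : ℕ) = 0 := by
  classical
  set n := Fintype.card (Cos N) with hn
  set x : Cos N → ℍ → ℂ := fun q => trans q f with hx
  set c : ℕ → ℍ → ℂ := fun m => FLTAgent.CuspForms.symCoeff x m with hc
  have hev : ∀ m τ, c m τ = FLTAgent.CuspForms.symCoeff (fun q => x q τ) m := fun m τ => by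
    simp [hc, FLTAgent.CuspForms.symCoeff, Finset.sum_apply, Finset.prod_apply]
  have hinv : ∀ m (g : SL(2, ℤ)) τ, c m (g • τ) = c m τ := fun m g τ => by
    rw [hev, hev]
    have : (fun q => x q (g • τ)) = (fun q => x q τ) ∘ MulAction.toPerm g⁻¹ := by
      funext q
      simp only [hx, comp_apply, MulAction.toPerm_apply, trans_smul, inv_inv]
    rw [this, FLTAgent.CuspForms.symCoeff_comp_perm]
  have hmem : ∀ (S : Subalgebra ℂ (ℍ → ℂ)), (∀ q, x q ∈ S) → ∀ m, c m ∈ S := fun S hS m => by
    simp only [hc, FLTAgent.CuspForms.symCoeff]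
    exact S.sum_mem fun t _ => S.prod_mem fun q _ => S.neg_mem (hS q)
  have hW : ∀ m, c m ∈ W0 N := fun m => by
    refine ⟨hmem Hol (fun q => trans_mem_Hol q _) m, fun γ _ τ => hinv m γ τ, fun g => ?_⟩
    rw [funext (hinv m g)]
    exact hmem _ (fun q => trans_mem_PerL q _) m
  choose p hp using fun m => exists_poly_of_level_one (hW m) (hinv m)
  refine ⟨fun m => p m, Subtype.ext (funext fun τ => ?_)⟩
  set jW := toW κ (jA K N)
  have h0 := congrArg (fun P : Polynomial ℂ => P.eval (x ((1 : SL(2, ℤ)) : Cos N) τ))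
    (FLTAgent.CuspForms.prod_X_sub_C_eq fun q => x q τ)
  rw [Polynomial.eval_prod, Finset.prod_eq_zero (Finset.mem_univ ((1 : SL(2, ℤ)) : Cos N))
    (by simp), Polynomial.eval_finsetSum, Finset.sum_range_succ,
    FLTAgent.CuspForms.symCoeff_card] at h0
  have hx1 : x ((1 : SL(2, ℤ)) : Cos N) τ = (f : ℍ → ℂ) τ := congrFun (trans_one f) τ
  simp only [Polynomial.eval_mul, Polynomial.eval_C, Polynomial.eval_pow, Polynomial.eval_X, hx1,
    one_mul, ← hev, hp] at h0
  rw [Finset.sum_range] at h0
  have hev2 : ∀ m : Fin n, ((Polynomial.aeval jW (p m) : W0 N) : ℍ → ℂ) τ = (p m).eval (jfun τ) := by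
    intro m
    rw [Polynomial.aeval_subalgebra_coe]
    have : ((Polynomial.aeval (jW : ℍ → ℂ) (p m)) : ℍ → ℂ) τ =
        Polynomial.aeval ((jW : ℍ → ℂ) τ) (p m) :=
      (Polynomial.aeval_algHom_apply (Pi.evalAlgHom ℂ (fun _ : ℍ => ℂ) τ) _ _).symm
    rw [this, toW_jA, Polynomial.coe_aeval_eq_eval]
  simp only [AddMemClass.coe_add, SubmonoidClass.coe_pow, AddSubmonoidClass.coe_finsetSum,
    MulMemClass.coe_mul, Pi.add_apply, Pi.pow_apply, Finset.sum_apply, Pi.mul_apply, hev2,
    ZeroMemClass.coe_zero, Pi.zero_apply]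
  rw [h0, add_comm]

/-- A quotient of functions of level `N` has a denominator which is a polynomial in `j`. -/
theorem exists_poly_den (A : W0 N) {B : W0 N} (hB : B ≠ 0) :
    ∃ (p : Polynomial ℂ) (A' : W0 N), p ≠ 0 ∧
      A * Polynomial.aeval (toW κ (jA K N)) p = B * A' := by
  classical
  set q₁ : Cos N := ((1 : SL(2, ℤ)) : Cos N) with hq₁
  let P : ℍ → ℂ := fun τ => ∏ q, trans q B τ
  let A'f : ℍ → ℂ := fun τ => (A : ℍ → ℂ) τ * ∏ q ∈ Finset.univ.erase q₁, trans q B τ
  have hperm : ∀ (g : SL(2, ℤ)) τ, P (g • τ) = P τ := fun g τ => by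
    simp only [P]
    exact Equiv.prod_comp (MulAction.toPerm g⁻¹) (fun q => trans q B τ) ▸
      Finset.prod_congr rfl fun q _ => by
        rw [MulAction.toPerm_apply, trans_smul, inv_inv]
  have hprodmem : ∀ (S : Subalgebra ℂ (ℍ → ℂ)) (s : Finset (Cos N)), (∀ q, trans q B ∈ S) →
      (fun τ => ∏ q ∈ s, trans q B τ) ∈ S := fun S s h => by
    rw [show (fun τ => ∏ q ∈ s, trans q B τ) = ∏ q ∈ s, trans q B from
      funext fun τ => (Finset.prod_apply τ _ _).symm]
    exact S.prod_mem fun q _ => h q
  have hPW : P ∈ W0 N := by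
    refine ⟨hprodmem Hol _ fun q => trans_mem_Hol q _, fun γ _ τ => hperm γ τ, fun g => ?_⟩
    rw [funext (hperm g)]
    exact hprodmem _ _ fun q => trans_mem_PerL q _
  obtain ⟨p, hp⟩ := exists_poly_of_level_one hPW hperm
  have hA' : A'f ∈ W0 N := by
    refine ⟨MDifferentiable.mul A.2.1 (hprodmem Hol _ fun q => trans_mem_Hol q _),
      fun γ hγ τ => ?_, fun g => ?_⟩
    · simp only [A'f, A.2.2.1 γ hγ]
      congr 1
      refine Finset.prod_equiv (MulAction.toPerm γ⁻¹) (fun q => ?_) fun q _ => ?_
      · simp only [Finset.mem_erase, Finset.mem_univ, and_true, MulAction.toPerm_apply, ne_eq,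
          inv_smul_eq_iff]
        rw [show γ • q₁ = q₁ from by
          rw [hq₁, MulAction.Quotient.smul_coe, smul_eq_mul, mul_one, QuotientGroup.eq]
          simpa using inv_mem hγ]
      · rw [MulAction.toPerm_apply, trans_smul, inv_inv]
    · have h1 : (fun τ => A'f (g • τ)) = (fun τ => (A : ℍ → ℂ) (g • τ)) *
          fun τ => ∏ q ∈ Finset.univ.erase q₁, trans q B (g • τ) := rfl
      rw [h1]
      refine mul_mem (A.2.2.2 g) ?_
      rw [show (fun τ => ∏ q ∈ Finset.univ.erase q₁, trans q B (g • τ)) =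
        ∏ q ∈ Finset.univ.erase q₁, trans (g⁻¹ • q) B from funext fun τ => by
          rw [Finset.prod_apply]
          exact Finset.prod_congr rfl fun q _ => by rw [trans_smul, inv_inv]]
      exact Subalgebra.prod_mem _ fun q _ => trans_mem_PerL _ _
  refine ⟨p, ⟨A'f, hA'⟩, fun h0 => ?_, Subtype.ext (funext fun τ => ?_)⟩
  · have h1 : (∏ q, ⟨trans q B, trans_mem_Hol q B⟩ : Hol) = 0 := Subtype.ext (funext fun τ => by
      simp only [SubmonoidClass.coe_finsetProd, Finset.prod_apply, ZeroMemClass.coe_zero,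
        Pi.zero_apply]
      have := hp τ
      rwa [h0, Polynomial.eval_zero] at this)
    obtain ⟨q, -, hq⟩ := Finset.prod_eq_zero_iff.1 h1
    exact hB (trans_injective q (by rw [map_zero]; exact congrArg Subtype.val hq))
  · have hj : ((Polynomial.aeval (toW κ (jA K N)) p : W0 N) : ℍ → ℂ) τ = P τ := by
      rw [hp, Polynomial.aeval_subalgebra_coe]
      have : ((Polynomial.aeval ((toW κ (jA K N) : W0 N) : ℍ → ℂ) p) : ℍ → ℂ) τ =
          Polynomial.aeval (((toW κ (jA K N) : W0 N) : ℍ → ℂ) τ) p :=
        (Polynomial.aeval_algHom_apply (Pi.evalAlgHom ℂ (fun _ : ℍ => ℂ) τ) _ _).symm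
      rw [this, toW_jA, Polynomial.coe_aeval_eq_eval]
    simp only [MulMemClass.coe_mul, Pi.mul_apply, hj, A'f, P]
    rw [← Finset.mul_prod_erase Finset.univ (fun q => trans q B τ) (Finset.mem_univ q₁), hq₁,
      congrFun (trans_one B) τ]
    ring

/-- A quotient of functions of level `N` with coefficients in `K` satisfies a relation over
`K[j]` of degree the index of `Γ₀(N)`. -/
theorem exists_relation_of_W0 {z : LaurentSeries K} {A B : W0 N} (hB : B ≠ 0)
    (h : iota (N := N) κ z * expW N B = expW N A) :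
    ∃ Q : Polynomial (Polynomial K), Q ≠ 0 ∧ Q.natDegree ≤ Fintype.card (Cos N) ∧
      (Q.map (Polynomial.aeval (coeffEmb K jq)).toRingHom).eval z = 0 := by
  classical
  obtain ⟨p, A', hp, hA'⟩ := exists_poly_den κ A hB
  set jW := toW κ (jA K N) with hjW
  set J := iota (N := N) κ (coeffEmb K jq)
  have he : ∀ P : Polynomial ℂ, expW N (Polynomial.aeval jW P) = Polynomial.aeval J P := by
    intro P
    have e := expW_toW κ (jA K N)
    exact (Polynomial.aeval_algHom_apply (expW N) jW P).symm.trans
      (congrArg (fun z => Polynomial.aeval z P) e)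
  have hz : expW N A' = iota (N := N) κ z * Polynomial.aeval J p := by
    refine mul_left_cancel₀ (fun e => hB (expW_injective (e.trans (map_zero _).symm)) :
      expW N B ≠ 0) ?_
    rw [← map_mul, ← hA', map_mul, ← h, he]; ring
  obtain ⟨r, hr⟩ := exists_monic_relation κ A'
  rw [← hjW] at hr
  let n := Fintype.card (Cos N)
  -- coefficients of the relation
  let P : ℕ → Polynomial ℂ := fun m => if hm : m < n then r ⟨m, hm⟩ * p ^ m else p ^ n
  have h1 : ∑ m ∈ Finset.range (n + 1), Polynomial.aeval J (P m) * iota (N := N) κ z ^ m = 0 := by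
    have h2 := congrArg (expW N) hr
    simp only [map_add, map_sum, map_mul, map_pow, map_zero, he, hz] at h2
    rw [Finset.sum_range_succ, add_comm, Finset.sum_range, ← h2]
    congr 1
    · simp only [P, dif_neg (lt_irrefl n), map_pow]; ring
    · refine Finset.sum_congr rfl fun m _ => ?_
      simp only [P, dif_pos m.2, map_mul, map_pow, Fin.eta]
      ring
  -- descend
  letI : Algebra K ℂ := κ.toAlgebra
  obtain ⟨i₀, hi₀⟩ : ∃ i, (P n).coeff i ≠ 0 := by
    by_contra hne
    simp only [not_exists, not_not] at hne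
    have : P n = 0 := Polynomial.ext fun i => by rw [hne, Polynomial.coeff_zero]
    simp only [P, dif_neg (lt_irrefl n)] at this
    exact hp (pow_eq_zero_iff'.1 this).1
  obtain ⟨l, hl⟩ := Module.Projective.exists_dual_ne_zero K hi₀
  let Q : ℕ → Polynomial K := fun m => ∑ i ∈ Finset.range ((P m).natDegree + 1),
    Polynomial.C (l ((P m).coeff i)) * Polynomial.X ^ i
  have hD : ∀ (c : ℂ) (b : LaurentSeries K),
      descend (N := N) l (algebraMap ℂ (LaurentSeries ℂ) c * iota (N := N) κ b) =
        algebraMap K (LaurentSeries K) (l c) * b := fun c b => by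
    ext k
    show l ((algebraMap ℂ (LaurentSeries ℂ) c * iota (N := N) κ b).coeff ((N : ℤ) * k)) =
      (algebraMap K (LaurentSeries K) (l c) * b).coeff k
    rw [algebraMap_laurentSeries_eq_single, algebraMap_laurentSeries_eq_single,
      HahnSeries.coeff_single_mul, HahnSeries.coeff_single_mul, sub_zero, sub_zero, iota,
      RingHom.comp_apply, qExpand_coeff_mul,
      coeffMap_coeff, mul_comm c, show κ (b.coeff k) * c = (b.coeff k) • c from rfl,
      map_smul, smul_eq_mul, mul_comm]
  have h3 : ∑ m ∈ Finset.range (n + 1), Polynomial.aeval (coeffEmb K jq) (Q m) * z ^ m = 0 := by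
    have h4 := congrArg (descend (N := N) l) h1
    simp only [Polynomial.aeval_eq_sum_range, Finset.sum_mul, Algebra.smul_def, mul_assoc,
      ← map_pow, ← map_mul, map_sum, map_zero, hD, J] at h4
    refine (Finset.sum_congr rfl fun m _ => ?_).trans h4
    simp only [Q, map_sum, map_mul, Polynomial.aeval_C, map_pow, Polynomial.aeval_X,
      Finset.sum_mul, mul_assoc]
  refine ⟨∑ m ∈ Finset.range (n + 1), Polynomial.C (Q m) * Polynomial.X ^ m, fun h0 => ?_, ?_, ?_⟩
  · have h5 := congrArg (fun R => Polynomial.coeff (Polynomial.coeff R n) i₀) h0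
    simp only [Polynomial.finsetSum_coeff, Polynomial.coeff_C_mul_X_pow, Finset.sum_ite_eq,
      Finset.mem_range, Nat.lt_succ_self, if_true, Q, Polynomial.coeff_zero] at h5
    rw [if_pos (Nat.lt_succ_of_le (Polynomial.le_natDegree_of_ne_zero hi₀))] at h5
    exact hl h5
  · refine Polynomial.natDegree_sum_le_of_forall_le _ _ fun m hm => ?_
    exact (Polynomial.natDegree_C_mul_X_pow_le _ _).trans (Nat.lt_succ_iff.1 (Finset.mem_range.1 hm))
  · simp only [Polynomial.map_sum, Polynomial.map_mul, Polynomial.map_C, Polynomial.map_pow,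
      Polynomial.map_X, Polynomial.eval_finsetSum, Polynomial.eval_mul, Polynomial.eval_C,
      Polynomial.eval_pow, Polynomial.eval_X, AlgHom.toRingHom_eq_coe, RingHom.coe_coe]
    exact h3

/-- Quotients of functions of level `N` with coefficients in `K`. -/
def ratField : IntermediateField K (LaurentSeries K) where
  carrier := {z | ∃ A B : W0 N, B ≠ 0 ∧ iota (N := N) κ z * expW N B = expW N A}
  mul_mem' := by
    rintro x y ⟨A, B, hB, h⟩ ⟨A', B', hB', h'⟩
    exact ⟨A * A', B * B', W0_mul_ne_zero hB hB', by rw [map_mul, map_mul, map_mul, ← h, ← h']; ring⟩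
  add_mem' := by
    rintro x y ⟨A, B, hB, h⟩ ⟨A', B', hB', h'⟩
    exact ⟨A * B' + A' * B, B * B', W0_mul_ne_zero hB hB', by
      rw [map_add, map_add, map_mul, map_mul, map_mul, ← h, ← h']; ring⟩
  algebraMap_mem' c := ⟨algebraMap ℂ _ (κ c), 1, fun h => one_ne_zero (congrFun
      (congrArg (fun f : W0 N => (f : ℍ → ℂ)) h) UpperHalfPlane.I), by
    rw [map_one, mul_one, AlgHom.commutes, iota_algebraMap]⟩
  inv_mem' := by
    rintro x ⟨A, B, hB, h⟩
    rcases eq_or_ne x 0 with rfl | hx
    · exact ⟨0, B, hB, by simp⟩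
    refine ⟨B, A, fun hA => ?_, ?_⟩
    · rw [hA, map_zero, mul_eq_zero, map_eq_zero_iff _ (iota_injective κ),
        map_eq_zero_iff _ expW_injective] at h
      exact h.elim hx hB
    · rw [← h, ← mul_assoc, ← map_mul, inv_mul_cancel₀ hx, map_one, one_mul]

theorem mem_ratField {z : LaurentSeries K} : z ∈ ratField (N := N) κ ↔
    ∃ A B : W0 N, B ≠ 0 ∧ iota (N := N) κ z * expW N B = expW N A := Iff.rfl

theorem XF_le_ratField : XF K N ≤ ratField (N := N) κ := by
  rw [XF_eq_adjoin, IntermediateField.adjoin_le_iff]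
  intro x hx
  exact ⟨toW κ ⟨x, Algebra.subset_adjoin hx⟩, 1, fun h => one_ne_zero (congrFun
      (congrArg (fun f : W0 N => (f : ℍ → ℂ)) h) UpperHalfPlane.I), by
    rw [map_one, mul_one, expW_toW]⟩

/-- A quotient of functions of level `N` with expansion over `K` is in the function field. -/
theorem mem_XF_of_W0 {z : LaurentSeries K} {A B : W0 N} (hB : B ≠ 0)
    (h : iota (N := N) κ z * expW N B = expW N A) : z ∈ XF K N := by
  classical
  haveI : CharZero K := charZero_of_injective_algebraMap (algebraMap ℚ K).injective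
  haveI : CharZero (LaurentSeries K) :=
    charZero_of_injective_algebraMap (algebraMap K (LaurentSeries K)).injective
  set J : LaurentSeries K := coeffEmb K jq
  have htr : Transcendental K J := by
    intro halg
    exact transcendental_jF (N := N) κ ((isAlgebraic_algHom_iff (XF K N).val Subtype.val_injective).1 halg)
  let E : IntermediateField K (LaurentSeries K) := K⟮J⟯
  have hEF : E ≤ XF K N := IntermediateField.adjoin_simple_le_iff.2 (jF K N).2
  let F' : IntermediateField E (LaurentSeries K) := IntermediateField.extendScalars hEF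
  -- degree of the function field
  have hmap : (K⟮jF K N⟯).map (XF K N).val = E := by
    rw [IntermediateField.adjoin_map, Set.image_singleton]; rfl
  have hi1 : ∀ x : XF K N, x ∈ K⟮jF K N⟯ → (x : LaurentSeries K) ∈ E := fun x hx => by
    rw [← hmap]; exact ⟨x, hx, rfl⟩
  have hi2 : ∀ (x : XF K N), (x : LaurentSeries K) ∈ E → x ∈ K⟮jF K N⟯ := fun x hx => by
    rw [← hmap] at hx
    obtain ⟨y, hy, e⟩ := hx
    exact (Subtype.ext e : y = x) ▸ hy
  let i : K⟮jF K N⟯ ≃+* E :=
    { toFun := fun x => ⟨x.1.1, hi1 x.1 x.2⟩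
      invFun := fun y => ⟨⟨y.1, hEF y.2⟩, hi2 _ y.2⟩
      map_mul' := fun _ _ => rfl, map_add' := fun _ _ => rfl }
  let j : XF K N ≃+* F' :=
    { toFun := fun x => ⟨x.1, x.2⟩, invFun := fun x => ⟨x.1, x.2⟩
      map_mul' := fun _ _ => rfl, map_add' := fun _ _ => rfl }
  have hdeg : Module.finrank E F' = Fintype.card (Cos N) := by
    rw [← (isFunctionField_and_finrank (N := N) κ).2]
    refine (Algebra.finrank_eq_of_equiv_equiv i j ?_).symm
    ext x
    rfl
  -- every quotient has bounded degree
  have hbound : ∀ θ : LaurentSeries K, θ ∈ ratField (N := N) κ →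
      IsIntegral E θ ∧ (minpoly E θ).natDegree ≤ Fintype.card (Cos N) := by
    intro θ hθ
    obtain ⟨A', B', hB', h'⟩ := hθ
    obtain ⟨Q, hQ, hQd, hQ0⟩ := exists_relation_of_W0 κ hB' h'
    let φ : Polynomial K →+* E := (Polynomial.aeval (AdjoinSimple.gen K J)).toRingHom
    have hφ : Function.Injective φ := by
      have : Transcendental K (AdjoinSimple.gen K J) := fun ha =>
        htr ((isAlgebraic_algHom_iff E.val Subtype.val_injective).2 ha)
      exact transcendental_iff_injective.1 this
    have hmap0 : Q.map φ ≠ 0 := (Polynomial.map_ne_zero_iff hφ).2 hQ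
    have hroot : Polynomial.aeval θ (Q.map φ) = 0 := by
      rw [Polynomial.aeval_def, Polynomial.eval₂_map, ← Polynomial.eval_map]
      rw [show (algebraMap E (LaurentSeries K)).comp φ = (Polynomial.aeval J).toRingHom from
        Polynomial.ringHom_ext (fun a => by simp [φ]) (by simp [φ])]
      exact hQ0
    have hint : IsIntegral E θ := IsAlgebraic.isIntegral ⟨_, hmap0, hroot⟩
    exact ⟨hint, ((Polynomial.natDegree_le_of_dvd (minpoly.dvd E θ hroot) hmap0).trans
      Polynomial.natDegree_map_le).trans hQd⟩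
  haveI : CharZero E := charZero_of_injective_algebraMap (algebraMap K E).injective
  exact mem_of_bounded_degree F' (IntermediateField.extendScalars (hEF.trans (XF_le_ratField κ)))
    Fintype.card_pos hdeg (fun x hx => XF_le_ratField κ hx) hbound (z := z) ⟨A, B, hB, h⟩

end FLTAgent.TorsionHom
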