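import Fermat.Agent.TorsionHom.Descent
import Fermat.Agent.PeriodHecke.Families

/-!
Torsion in the degree zero class group of the function field of level `N` as homomorphisms on
`Γ₀(N)` killing parabolic and elliptic elements.
-/

set_option autoImplicit false

noncomputable section

open CongruenceSubgroup Function
open scoped MatrixGroups

namespace FLTAgent.TorsionHom

open FLTAgent.X0Fn AlgebraicCurve
open FLTAgent.PeriodHecke (Hpar mapHpar fricke fricke_fricke fricke_mem_Hpar)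

variable {N : ℕ} [NeZero N] {K : Type*} [Field K] [Algebra ℚ K] [IsAlgClosed K] (κ : K →+* ℂ)

local notation "Γ₀" => Gamma0 N
local notation "Cx" => Additive ℂˣ
local notation "P0" => Pic0 K (XF K N)

/-- The character of a torsion class. -/
def IsKummer (n : ℕ) (c : P0) (χ : Additive Γ₀ →+ Cx) : Prop :=
  ∃ (D : Divisor.degZero (K := K) (F := XF K N)) (x : XF K N), Pic0.mk D = c ∧ x ≠ 0 ∧
    (∀ v, (n : ℤ) * (D : Divisor K (XF K N)) v = v.ord x) ∧
    IsCharFn κ n (x : LaurentSeries K) χ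

variable {κ}

theorem isCharFn_power {n : ℕ} (hn : n ≠ 0) (w : XF K N) :
    IsCharFn κ n ((w ^ n : XF K N) : LaurentSeries K) (0 : Additive Γ₀ →+ Cx) := by
  obtain ⟨a, b, hb, hab⟩ := (mem_ratField κ).1 (XF_le_ratField κ w.2)
  simpa using isCharFn_pow hb hab hn

theorem exists_isKummer {n : ℕ} (hn : n ≠ 0) {c : P0} (hc : c ∈ Pic0.torsion K (XF K N) n) :
    ∃ χ ∈ Hpar Γ₀ Cx, n • χ = 0 ∧ IsKummer κ n c χ := by
  obtain ⟨D, rfl⟩ := Pic0.mk_surjective c
  rw [Pic0.mem_torsion] at hc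
  change ((((n : ℤ) • D : Divisor.degZero (K := K) (F := XF K N))) :
    Pic0 K (XF K N)) = 0 at hc
  rw [QuotientAddGroup.eq_zero_iff, AddSubgroup.mem_addSubgroupOf, Divisor.mem_principal] at hc
  obtain ⟨x, hx, hdiv⟩ := hc
  have hdiv' : ∀ v, (n : ℤ) * (D : Divisor K (XF K N)) v = v.ord x := fun v => by
    rw [← hdiv v]
    simp
  obtain ⟨χ, h1, h2, h3⟩ := exists_isCharFn κ hx hn fun v => ⟨_, (hdiv' v).symm⟩
  exact ⟨χ, h1, h2, D, x, rfl, hx, hdiv', h3⟩

theorem IsKummer.unique {n : ℕ} (hn : n ≠ 0) {c : P0} {χ χ' : Additive Γ₀ →+ Cx}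
    (h : IsKummer κ n c χ) (h' : IsKummer κ n c χ') : χ = χ' := by
  haveI := (isFunctionField_and_finrank (N := N) κ).1
  obtain ⟨D, x, rfl, hx, hD, hχ⟩ := h
  obtain ⟨D', x', he, hx', hD', hχ'⟩ := h'
  have hp : -D' + D ∈ (Divisor.principal (K := K) (F := XF K N)).addSubgroupOf _ :=
    QuotientAddGroup.eq.1 he
  rw [AddSubgroup.mem_addSubgroupOf, Divisor.mem_principal] at hp
  obtain ⟨f, hf, hfv⟩ := hp
  set u := x / (x' * f ^ n) with hu
  have hne : x' * f ^ n ≠ 0 := mul_ne_zero hx' (pow_ne_zero _ hf)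
  obtain ⟨c, hc⟩ := Curves.eq_algebraMap_of_forall_ord_nonneg (K := K) (f := u) fun v => by
    rw [hu, Curves.ord_div v hx hne, v.ord_mul hx' (pow_ne_zero _ hf), Curves.ord_pow, ← hfv v,
      ← hD v, ← hD' v]
    simp
    ring_nf
    rfl
  obtain ⟨d, hd⟩ := IsAlgClosed.exists_pow_nat_eq c (Nat.pos_of_ne_zero hn)
  have hxe : x = x' * (algebraMap K (XF K N) d * f) ^ n := by
    rw [mul_pow, ← map_pow, hd, ← hc, hu]
    field_simp
  have hw := isCharFn_power (κ := κ) hn (algebraMap K (XF K N) d * f)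
  have h2 := hχ'.mul hw
  rw [← IntermediateField.coe_mul, ← hxe,
    show χ' + 0 = χ' from mult_injective fun γ => by rw [mult_add, mult_zero, mul_one]] at h2
  exact hχ.unique hn (fun e => hx (Subtype.ext e)) h2

theorem IsKummer.add {n : ℕ} {c c' : P0} {χ χ' : Additive Γ₀ →+ Cx}
    (h : IsKummer κ n c χ) (h' : IsKummer κ n c' χ') : IsKummer κ n (c + c') (χ + χ') := by
  obtain ⟨D, x, rfl, hx, hD, hχ⟩ := h
  obtain ⟨D', x', rfl, hx', hD', hχ'⟩ := h'
  refine ⟨D + D', x * x', Pic0.mk_add D D', mul_ne_zero hx hx', fun v => ?_, ?_⟩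
  · rw [v.ord_mul hx hx', ← hD v, ← hD' v, AddSubgroup.coe_add, Finsupp.add_apply, mul_add]
  · rw [IntermediateField.coe_mul]
    exact hχ.mul hχ'

theorem IsKummer.mul_level {n : ℕ} (hn : n ≠ 0) {c : P0} {χ : Additive Γ₀ →+ Cx}
    (h : IsKummer κ n c χ) (m : ℕ) (hm : m ≠ 0) : IsKummer κ (n * m) c χ := by
  obtain ⟨D, x, rfl, hx, hD, hχ⟩ := h
  refine ⟨D, x ^ m, rfl, pow_ne_zero _ hx, fun v => ?_, ?_⟩
  · rw [Curves.ord_pow, ← hD v]
    push_cast
    ring
  · rw [IntermediateField.coe_pow]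
    exact hχ.pow hn m hm

theorem IsKummer.eq_zero {n : ℕ} (hn : n ≠ 0) {c : P0} (h : IsKummer κ n c 0) : c = 0 := by
  obtain ⟨D, x, rfl, hx, hD, hχ⟩ := h
  obtain ⟨y, hy, hyn⟩ := exists_pow_eq κ (fun e => hx (Subtype.ext e)) hn hχ
  set y' : XF K N := ⟨y, hy⟩
  have he : y' ^ n = x := Subtype.ext (by simpa [y'] using hyn)
  have hy0 : y' ≠ 0 := fun h0 => hx (by rw [← he, h0, zero_pow hn])
  refine (QuotientAddGroup.eq_zero_iff D).2 ?_
  rw [AddSubgroup.mem_addSubgroupOf, Divisor.mem_principal]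
  refine ⟨y', hy0, fun v => ?_⟩
  have h1 := hD v
  rw [← he, Curves.ord_pow] at h1
  exact mul_left_cancel₀ (by exact_mod_cast hn) h1

theorem exists_class {n : ℕ} (hn : n ≠ 0) {χ : Additive Γ₀ →+ Cx} (hχ : χ ∈ Hpar Γ₀ Cx)
    (hnχ : n • χ = 0) : ∃ c ∈ Pic0.torsion K (XF K N) n, IsKummer κ n c χ := by
  haveI := (isFunctionField_and_finrank (N := N) κ).1
  obtain ⟨x, hx, hc⟩ := exists_fn_of_char κ hχ hn hnχ
  have hdiv := dvd_ord_of_isCharFn κ hx hn hc hχ
  set E : Divisor K (XF K N) := (Curves.divOf K x).mapRange (· / (n : ℤ)) (Int.zero_ediv _)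
  have hE : ∀ v, (n : ℤ) * E v = v.ord x := fun v => by
    rw [Finsupp.mapRange_apply, Curves.divOf_apply, Int.mul_ediv_cancel' (hdiv v)]
  have hnE : (n : ℤ) • E = Curves.divOf K x := Finsupp.ext fun v => by simp [hE]
  have hdeg : Divisor.degree E = 0 := by
    have h := congrArg Divisor.degree hnE
    rw [map_zsmul, Curves.degree_divOf, smul_eq_mul, mul_eq_zero] at h
    exact h.resolve_left (by exact_mod_cast hn)
  refine ⟨Pic0.mk ⟨E, hdeg⟩, ?_, ⟨E, hdeg⟩, x, rfl, hx, hE, hc⟩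
  rw [Pic0.mem_torsion]
  refine (QuotientAddGroup.eq_zero_iff ((n : ℤ) • (⟨E, hdeg⟩ : Divisor.degZero (K := K) (F := XF K N)))).2 ?_
  rw [AddSubgroup.mem_addSubgroupOf, Divisor.mem_principal]
  exact ⟨x, hx, fun v => by simp [hE]⟩

variable (κ) (n : ℕ) [NeZero n]

local notation "Tors" => Pic0.torsion K (XF K N) n

/-- The Kummer character of a torsion class. -/
def kummer : Tors →+ Hpar Γ₀ Cx :=
  AddMonoidHom.mk' (fun c => ⟨(exists_isKummer (κ := κ) (NeZero.ne n) c.2).choose,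
      (exists_isKummer (κ := κ) (NeZero.ne n) c.2).choose_spec.1⟩)
    fun a b => Subtype.ext <| IsKummer.unique (NeZero.ne n)
      (exists_isKummer (κ := κ) (NeZero.ne n) (a + b).2).choose_spec.2.2
      ((exists_isKummer (κ := κ) (NeZero.ne n) a.2).choose_spec.2.2.add
        (exists_isKummer (κ := κ) (NeZero.ne n) b.2).choose_spec.2.2)

theorem kummer_spec (c : Tors) : IsKummer κ n (c : P0) (kummer κ n c).1 :=
  (exists_isKummer (κ := κ) (NeZero.ne n) c.2).choose_spec.2.2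

theorem nsmul_kummer (c : Tors) : n • kummer κ n c = 0 :=
  Subtype.ext (exists_isKummer (κ := κ) (NeZero.ne n) c.2).choose_spec.2.1

theorem kummer_eq {c : Tors} {χ : Additive Γ₀ →+ Cx} (h : IsKummer κ n (c : P0) χ) :
    (kummer κ n c).1 = χ := (kummer_spec κ n c).unique (NeZero.ne n) h

theorem kummer_injective : Injective (kummer (N := N) κ n) := by
  refine (injective_iff_map_eq_zero _).2 fun c hc => Subtype.ext ?_
  refine IsKummer.eq_zero (κ := κ) (NeZero.ne n) ?_
  have := kummer_spec κ n c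
  rwa [hc] at this

/-- The twist by the Fricke involution. -/
def frickeHom : Hpar Γ₀ Cx →+ Hpar Γ₀ Cx where
  toFun φ := ⟨φ.1.comp (fricke N).toAdditive, fricke_mem_Hpar (N := N) φ.2⟩
  map_zero' := rfl
  map_add' _ _ := rfl

theorem frickeHom_frickeHom (φ : Hpar Γ₀ Cx) : frickeHom (N := N) (frickeHom φ) = φ :=
  Subtype.ext (AddMonoidHom.ext fun γ => congrArg φ.1
    (congrArg Additive.ofMul (fricke_fricke N γ.toMul)))

theorem exists_torsHom (c : Tors) :
    ∃ φ : Hpar Γ₀ (ZMod n), mapHpar (rootHom n) φ = frickeHom (kummer κ n c) :=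
  exists_mapHpar_root n N (by rw [← map_nsmul, nsmul_kummer, map_zero])

/-- The value of `torsEquiv`. -/
def torsFun (c : Tors) : Hpar Γ₀ (ZMod n) := Classical.choose (exists_torsHom κ n c)

theorem torsFun_spec (c : Tors) :
    mapHpar (rootHom n) (torsFun κ n c) = frickeHom (kummer κ n c) :=
  Classical.choose_spec (exists_torsHom κ n c)

theorem torsFun_add (a b : Tors) : torsFun κ n (a + b) = torsFun κ n a + torsFun κ n b :=
  mapHpar_root_injective n N (((torsFun_spec κ n (a + b)).trans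
    ((congrArg _ (map_add (kummer κ n) a b)).trans (map_add frickeHom _ _))).trans
    ((congrArg₂ (· + ·) (torsFun_spec κ n a).symm (torsFun_spec κ n b).symm).trans
      (map_add _ _ _).symm))

theorem torsFun_injective : Injective (torsFun (N := N) κ n) := fun a b h => by
  have h1 := (torsFun_spec κ n a).symm.trans
    ((congrArg (mapHpar (rootHom n)) h).trans (torsFun_spec κ n b))
  have h2 := congrArg (frickeHom (N := N)) h1
  rw [frickeHom_frickeHom, frickeHom_frickeHom] at h2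
  exact kummer_injective κ n h2

theorem torsFun_surjective : Surjective (torsFun (N := N) κ n) := fun φ => by
  have hn0 : n • frickeHom (N := N) (mapHpar (rootHom n) φ) = 0 := by
    rw [← map_nsmul, nsmul_mapHpar_root, map_zero]
  obtain ⟨c, hc, hk⟩ := exists_class (κ := κ) (NeZero.ne n)
    (frickeHom (N := N) (mapHpar (rootHom n) φ)).2 (congrArg Subtype.val hn0)
  refine ⟨⟨c, hc⟩, mapHpar_root_injective n N ?_⟩
  rw [torsFun_spec, show kummer κ n ⟨c, hc⟩ = frickeHom (mapHpar (rootHom n) φ) from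
    Subtype.ext (kummer_eq κ n hk), frickeHom_frickeHom]

/-- The torsion classes as homomorphisms with values modulo `n`. -/
def torsEquiv : Tors ≃+ Hpar Γ₀ (ZMod n) :=
  AddEquiv.ofBijective (AddMonoidHom.mk' (torsFun κ n) (torsFun_add κ n))
    ⟨torsFun_injective κ n, torsFun_surjective κ n⟩

theorem torsEquiv_spec (c : Tors) :
    mapHpar (rootHom n) (torsEquiv κ n c) = frickeHom (kummer κ n c) :=
  torsFun_spec κ n c

theorem torsEquiv_eq {c : Tors} {χ : Hpar Γ₀ Cx} (h : IsKummer κ n (c : P0) χ.1)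
    {φ : Hpar Γ₀ (ZMod n)} (hφ : mapHpar (rootHom n) φ = frickeHom χ) : torsEquiv κ n c = φ :=
  mapHpar_root_injective n N (by
    rw [torsEquiv_spec, hφ, show kummer κ n c = χ from Subtype.ext (kummer_eq κ n h)])

include κ in
theorem card_torsion : Nat.card Tors = n ^ (2 * Module.finrank ℂ (CuspForm Γ₀ 2)) := by
  rw [Nat.card_congr (torsEquiv κ n).toEquiv, PeriodHecke.card_Hpar_zmod N n,
    PeriodHecke.finrank_Hpar]

/-- Compatibility between levels `n` and `n m`. -/
theorem kummer_mul_level (m : ℕ) [NeZero m] (c : Tors) (d : Pic0.torsion K (XF K N) (n * m))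
    (h : (d : P0) = c) : kummer κ (n * m) d = kummer κ n c :=
  Subtype.ext (kummer_eq κ (n * m)
    (h ▸ (kummer_spec κ n c).mul_level (NeZero.ne n) m (NeZero.ne m)))

end FLTAgent.TorsionHom
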