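import Fermat.Agent.TorsionHom.HeckeEmb
import Fermat.Agent.TorsionHom.Kummer
import Fermat.Prelude.Def_ModularCurve_HeckeOperatorTotal

/-!
The Hecke correspondences act on the characters of torsion classes by the Hecke operators of the
double cosets.
-/

set_option autoImplicit false

noncomputable section

open UpperHalfPlane CongruenceSubgroup Function
open scoped MatrixGroups Manifold

namespace FLTAgent.TorsionHom

open FLTAgent.X0Fn AlgebraicCurve
open FLTAgent.PeriodHecke (mat HeckeIdx heckeFam' Hpar mapHpar)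
open ModularCurve (heckeAlphaBar heckeBetaBar heckeOperatorAlong)

/-- The divisor of the pushed forward pullback. -/
theorem ord_norm_pullback {K F F' : Type*} [Field K] [Field F] [Field F'] [Algebra K F] [Algebra K F']
    [HasPrincipalDivisors K F'] (φ ψ : F →ₐ[K] F') (hφ : φ.toRingHom.IsIntegral)
    (hψ : ψ.toRingHom.IsIntegral) (hfin : FiniteAlong K ψ) (hN : NormFormulaAlong K ψ hfin)
    {n : ℤ} {D : Divisor K F} {x : F} (hx : x ≠ 0) (hD : ∀ v, n * D v = v.ord x) (v : Place K F) :
    n * Divisor.correspondence φ ψ hφ hψ D v =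
      v.ord (letI := algebraAlong ψ; Algebra.norm F (φ x)) := by
  have hpull : ∀ w, Divisor.pullbackAlong φ hφ (n • D) w = w.ord (φ x) := by
    letI := algebraAlong φ
    haveI := isScalarTower_along φ
    haveI := isIntegral_along φ hφ
    exact fun w => Divisor.pullback_apply_eq_ord (fun v => by simp [hD v]) w
  have hpush : Divisor.pushforwardAlong ψ hψ (Divisor.pullbackAlong φ hφ (n • D)) v =
      v.ord (letI := algebraAlong ψ; Algebra.norm F (φ x)) := by
    letI := algebraAlong ψ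
    haveI := isScalarTower_along ψ
    haveI := isIntegral_along ψ hψ
    exact hN _ ((map_ne_zero φ).2 hx) _ hpull v
  rw [← Divisor.correspondence_apply, map_zsmul] at hpush
  rw [← hpush]
  simp

theorem norm_along_ne_zero {K F F' : Type*} [Field K] [Field F] [Field F'] [Algebra K F]
    [Algebra K F'] (ψ : F →ₐ[K] F') (hfin : FiniteAlong K ψ) {z : F'} (hz : z ≠ 0) :
    (letI := algebraAlong ψ; Algebra.norm F z) ≠ 0 := by
  letI := algebraAlong ψ
  haveI : Module.Finite F F' := hfin
  exact Algebra.norm_ne_zero_iff.2 hz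

variable {N : ℕ} [NeZero N] (l : ℕ) [Fact l.Prime] [NeZero (N * l)]
variable {K : Type*} [Field K] [Algebra ℚ K] [IsAlgClosed K] {κ : K →+* ℂ}

local notation "Γ₀" => Gamma0 N
local notation "Cx" => Additive ℂˣ

/-- Two representations of the norm give the same functions. -/
theorem norm_relation {x : XF K N} {a b c d : XA K N} (hxe : x * incA K N b = incA K N a)
    (hce : (letI := algebraAlong (heckeAlphaBar K N l);
      Algebra.norm (XF K N) (heckeBetaBar K N l x)) * incA K N d = incA K N c) :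
    toHol (toW κ c) * heckeProd N l (toHol (toW κ b)) =
      toHol (toW κ d) * heckeProd N l (toHol (toW κ a)) := by
  have hmemC : ∀ e : XA K N, (toHol (toW κ e) : ℍ → ℂ) ∈ PerL ((N * l : ℕ) : ℝ) := fun e => by
    rw [coe_toHol, ← toW_alphaA l κ e]
    exact W0_le_PerL (toW κ (alphaA l e)).2
  have hlow : ∀ e : XA K N, lowEmb l κ (incA K N e) = expL _ ⟨_, hmemC e⟩ := fun e => by
    rw [lowEmb_incA]
    congr 1
    exact Subtype.ext (toW_alphaA l κ e)
  choose hm he using fun (i : HeckeIdx N l) (e : XA K N) => emb_beta l κ i e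
  have h1 := congrArg (lowEmb l κ) hce
  rw [map_mul, lowEmb_norm, hlow, hlow] at h1
  have hb : ∀ i, cuspEmb κ (repCoset N l i) (heckeBetaBar K N l x) * expL _ ⟨_, hm i b⟩ =
      expL _ ⟨_, hm i a⟩ := fun i => by
    rw [← he, ← he, ← map_mul, ← map_mul, hxe]
  have h3 : expL _ (⟨_, hmemC c⟩ * ∏ i, (⟨_, hm i b⟩ : PerL ((N * l : ℕ) : ℝ))) =
      expL _ (⟨_, hmemC d⟩ * ∏ i, (⟨_, hm i a⟩ : PerL ((N * l : ℕ) : ℝ))) := by
    rw [map_mul, map_mul, map_prod, map_prod, ← h1,
      ← Finset.prod_congr rfl fun i _ => hb i, Finset.prod_mul_distrib]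
    ring
  have h4 := congrArg Subtype.val (expL_injective h3)
  apply Subtype.ext
  simpa [heckeProd_apply] using h4

omit [NeZero N] [IsAlgClosed K] in
theorem incA_eq_zero_iff {a : XA K N} : incA K N a = 0 ↔ a = 0 :=
  map_eq_zero_iff _ (Subalgebra.inclusion_injective _)

omit [IsAlgClosed K] in
theorem toHol_toW_ne_zero {a : XA K N} (ha : a ≠ 0) : toHol (toW κ a) ≠ 0 :=
  (map_ne_zero_iff _ toHol_injective).2 ((map_ne_zero_iff _ (toW_injective κ)).2 ha)

omit [IsAlgClosed K] in
theorem iota_mul_expW {x : XF K N} {a b : XA K N} (h : x * incA K N b = incA K N a) :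
    iota (N := N) κ (x : LaurentSeries K) * expW N (toW κ b) = expW N (toW κ a) := by
  rw [expW_toW, expW_toW, ← map_mul]
  exact congrArg _ (congrArg Subtype.val h)

/-- The norm of the pullback has the Hecke transform of the character. -/
theorem isCharFn_norm {x z : XF K N} (hx : x ≠ 0) (hz : z ≠ 0)
    (hze : z = (letI := algebraAlong (heckeAlphaBar K N l);
      Algebra.norm (XF K N) (heckeBetaBar K N l x))) {n : ℕ} (hn : n ≠ 0)
    (hdx : ∀ v : Place K (XF K N), (n : ℤ) ∣ v.ord x)
    (hdz : ∀ v : Place K (XF K N), (n : ℤ) ∣ v.ord z) {χ : Additive Γ₀ →+ Cx}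
    (h : IsCharFn κ n (x : LaurentSeries K) χ) :
    IsCharFn κ n (z : LaurentSeries K) ((heckeFam' N l).hecke χ) := by
  obtain ⟨a, b, hab⟩ := exists_incA_div x
  obtain ⟨c, d, hcd⟩ := exists_incA_div z
  have hb : b ≠ 0 := fun h0 => hx (by rw [hab, h0, map_zero, div_zero])
  have hd : d ≠ 0 := fun h0 => hz (by rw [hcd, h0, map_zero, div_zero])
  have hxe : x * incA K N b = incA K N a := by
    rw [hab, div_mul_cancel₀ _ (incA_eq_zero_iff.not.2 hb)]
  have hze' : z * incA K N d = incA K N c := by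
    rw [hcd, div_mul_cancel₀ _ (incA_eq_zero_iff.not.2 hd)]
  have hB0 : toW κ b ≠ 0 := (map_ne_zero_iff _ (toW_injective κ)).2 hb
  have hD0 : toW κ d ≠ 0 := (map_ne_zero_iff _ (toW_injective κ)).2 hd
  obtain ⟨R0, hR0⟩ := exists_root_rep κ hx hn hdx hB0 (iota_mul_expW hxe)
  obtain ⟨R1, hR1⟩ := exists_root_rep κ hz hn hdz hD0 (iota_mul_expW hze')
  have hroot0 : IsRoot (N := N) κ n (x : LaurentSeries K) R0 :=
    ⟨_, _, hB0, iota_mul_expW hxe, hR0⟩
  have hx' : (x : LaurentSeries K) ≠ 0 := fun e => hx (Subtype.ext e)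
  obtain ⟨χ0, hc0, -⟩ := exists_hasChar hn (hroot0.ne_zero hn hx') hR0
  obtain rfl : χ = χ0 := h.unique hn hx' ⟨R0, hroot0, hc0⟩
  have hroot1 : IsRoot (N := N) κ n (z : LaurentSeries K) R1 :=
    ⟨_, _, hD0, iota_mul_expW hze', hR1⟩
  have hR1' := hroot1.ne_zero hn fun e => hz (Subtype.ext e)
  obtain ⟨χ1, hc1, -⟩ := exists_hasChar hn hR1' hR1
  refine ⟨R1, hroot1, ?_⟩
  -- compare the two roots
  have hrel := norm_relation (κ := κ) l hxe (hze ▸ hze')
  set B' := heckeProd N l (toHol (toW κ b)) with hB'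
  set A' := heckeProd N l (toHol (toW κ a)) with hA'
  set P := heckeProd N l R0 with hP
  have hPn : P ^ n = A' * B' ^ (n - 1) := by
    rw [hP, ← map_pow, hR0, map_mul, map_pow, map_mul, map_pow]
  have hpow : (R1 * B') ^ n = (P * toHol (toW κ d)) ^ n := by
    obtain ⟨m, rfl⟩ := Nat.exists_eq_succ_of_ne_zero hn
    rw [mul_pow, mul_pow, hR1, hPn, map_mul, map_pow, Nat.succ_sub_one, pow_succ, pow_succ]
    linear_combination (toHol (toW κ d) ^ m * B' ^ m) * hrel
  obtain ⟨ζ, -, hζ⟩ := eq_smul_of_pow_eq hn hpow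
  have hB'c : HasChar (B' : ℍ → ℂ) (0 : Additive Γ₀ →+ Cx) := by
    have h2 := heckeProd_hasChar l (R := toHol (toW κ b)) (hasChar_W0 (toW κ b))
    rwa [map_zero] at h2
  have h2 : HasChar ((R1 * B' : Hol) : ℍ → ℂ) χ1 := by
    have h3 := hc1.mul hB'c
    rwa [show χ1 + 0 = χ1 from mult_injective fun γ => by rw [mult_add, mult_zero, mul_one]] at h3
  have h3 : HasChar ((R1 * B' : Hol) : ℍ → ℂ) ((heckeFam' N l).hecke χ) := by
    rw [hζ]
    exact ((heckeProd_hasChar l hc0).mul_W0 (toW κ d)).const_mul ζ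
  have hne : R1 * B' ≠ 0 := mul_ne_zero hR1' (heckeProd_ne_zero l (toHol_toW_ne_zero hb))
  rwa [← h2.unique hne h3]

/-- The Hecke correspondence on the character of a torsion class. -/
theorem IsKummer.heckeOperatorAlong [NeZero l] {n : ℕ} (hn : n ≠ 0) {c : Pic0 K (XF K N)}
    {χ : Additive Γ₀ →+ Cx} (h : IsKummer κ n c χ) :
    IsKummer κ n (ModularCurve.heckeOperatorAlong K N l c) ((heckeFam' N l).hecke χ) := by
  haveI := (isFunctionField_and_finrank (N := N) κ).1
  haveI := (isFunctionField_and_finrank (N := N * l) κ).1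
  haveI : CharZero K := charZero_of_injective_algebraMap (algebraMap ℚ K).injective
  haveI : HasPrincipalDivisors K (XF K (N * l)) := Curves.hasPrincipalDivisors
  obtain ⟨D, x, rfl, hx, hD, hχ⟩ := h
  have hα : ModularCurve.HeckeAlphaBarIntegral K N l := Kronecker.isIntegralAlong _
  have hβ : ModularCurve.HeckeBetaBarIntegral K N l := Kronecker.isIntegralAlong _
  rw [ModularCurve.heckeOperatorAlong_eq hα hβ (Kronecker.fundamentalIdentityAlong _ _)
    (Kronecker.finiteAlong _) (Kronecker.normFormulaAlong _ _)]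
  set z : XF K N := (letI := algebraAlong (heckeAlphaBar K N l);
    Algebra.norm (XF K N) (heckeBetaBar K N l x)) with hz
  have hz0 : z ≠ 0 := norm_along_ne_zero (heckeAlphaBar K N l) (Kronecker.finiteAlong _)
    ((map_ne_zero _).2 hx)
  have hord : ∀ v, (n : ℤ) * Divisor.correspondence (heckeBetaBar K N l) (heckeAlphaBar K N l) hβ hα
      (D : Divisor K (XF K N)) v = v.ord z := fun v =>
    ord_norm_pullback _ _ hβ hα (Kronecker.finiteAlong _) (Kronecker.normFormulaAlong _ _) hx hD v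
  exact ⟨Pic0.degZeroCorrespondence (heckeBetaBar K N l) (heckeAlphaBar K N l) hβ hα
      (Kronecker.fundamentalIdentityAlong _ _) D, z, rfl, hz0, hord,
    isCharFn_norm l hx hz0 hz hn (fun v => ⟨_, (hD v).symm⟩) (fun v => ⟨_, (hord v).symm⟩) hχ⟩

end FLTAgent.TorsionHom
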