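import Fermat.Agent.Curves.Orbits

/-!
A full set of embeddings covers the places over a point; the ramification is the orbit length.
-/

set_option autoImplicit false

noncomputable section

namespace FLTAgent.TorsionHom

open AlgebraicCurve Polynomial IntermediateField FLTAgent.Curves

variable {K F : Type*} [Field K] [Field F] [Algebra K F] [IsAlgClosed K] [IsFunctionField K F]
variable {C : Type*} [Field C] [CharZero C] {κ : K →+* C}

/-- Places over the zero set of `t` are the orbits of the monodromy on a full set of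
embeddings. -/
theorem exists_place_cover {I : Type*} [Fintype I] [Nonempty I] (φ : I → F →+* LaurentSeries C)
    (hφ : ∀ i, ∀ a : K, φ i (algebraMap K F a) = HahnSeries.C (κ a))
    (hinj : Function.Injective φ) {t : F} (hI : Fintype.card I = Module.finrank K⟮t⟯ F)
    {T : LaurentSeries C} (hT : ∀ i, φ i t = T) (hm : 0 < T.order)
    (σ : Equiv.Perm I) (hσ : ∀ i f, (φ (σ i) f).order = (φ i f).order)
    (hfix : ∀ i, ∀ d : ℕ, (σ ^ d) i = i → ∀ f, T.order ∣ (d : ℤ) * (φ i f).order) :
    ∃ (P : I → Place K F) (c : I → ℤ), (∀ i, 0 < c i) ∧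
      (∀ i f, (φ i f).order = c i * (P i).ord f) ∧ (∀ v, 0 < v.ord t → ∃ i, P i = v) ∧
      ∀ i, ∃ d : ℕ, 0 < d ∧ (σ ^ d) i = i ∧ c i * d = T.order := by
  classical
  choose P c hc hord using fun i => exists_place (φ i) (hφ i) (t := t) (by rw [hT]; exact hm)
  have hPt : ∀ i, c i * (P i).ord t = T.order := fun i => by rw [← hord, hT]
  have hpos : ∀ i, 0 < (P i).ord t := fun i => by
    have := hPt i
    have := hc i
    nlinarith
  obtain ⟨i₀⟩ := ‹Nonempty I›
  have ht : Transcendental K t := transcendental_of_ord_ne_zero (v := P i₀) (hpos i₀).ne'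
  haveI := finiteDimensional_adjoin (K := K) ht
  -- each place receives at most `ord t` embeddings
  set fib : Place K F → Finset I := fun v => Finset.univ.filter fun i => P i = v with hfib
  have hle : ∀ v, 0 < v.ord t → ((fib v).card : ℤ) ≤ v.ord t := by
    intro v hv
    obtain ⟨π, hπ0, hπ⟩ := exists_uniformizer v
    obtain ⟨e, he⟩ := Int.eq_ofNat_of_zero_le hv.le
    set u := t / π ^ e with hu
    have ht0 : t ≠ 0 := ne_zero_of_transcendental ht
    have hu0 : u ≠ 0 := div_ne_zero ht0 (pow_ne_zero _ hπ0)
    have huv : v.ord u = 0 := by rw [hu, ord_div v ht0 (pow_ne_zero _ hπ0), ord_pow, hπ, he]; simp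
    obtain ⟨a, ha⟩ := exists_residue v (ordGE_of_le huv.ge)
    have ha0 : a ≠ 0 := by
      rintro rfl
      rw [map_zero, sub_zero] at ha
      have := ha.le_ord hu0
      omega
    have hlcu : ∀ i, P i = v → (φ i u).leadingCoeff = κ a := by
      intro i hi
      have ho : (φ i u).order = 0 := by rw [hord, hi, huv, mul_zero]
      have h1 : LGE 1 (φ i (u - algebraMap K F a)) := by
        rcases ha with h | h
        · exact Or.inl (by rw [h, map_zero])
        · refine Or.inr ?_
          rw [hord, hi]
          nlinarith [hc i]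
      rw [HahnSeries.leadingCoeff_eq, ho]
      have h2 : (φ i (u - algebraMap K F a)).coeff 0 = 0 := by
        rcases h1 with h | h
        · simp [h]
        · exact HahnSeries.coeff_eq_zero_of_lt_order (by omega)
      rw [map_sub, hφ, HahnSeries.coeff_sub, sub_eq_zero] at h2
      rw [h2]
      simp
    set r := T.leadingCoeff / κ a with hr
    have hroot : ∀ i ∈ fib v, (φ i π).leadingCoeff ∈ (nthRoots e r).toFinset := by
      intro i hi
      have hi' : P i = v := (Finset.mem_filter.1 hi).2
      rw [Multiset.mem_toFinset, mem_nthRoots (by omega), hr, ← hlcu i hi', eq_div_iff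
        (HahnSeries.leadingCoeff_ne_zero.2 (by simpa using hu0)), ← Curves.leadingCoeff_pow', ← map_pow,
        ← HahnSeries.leadingCoeff_mul, ← map_mul, ← hT i]
      congr 2
      rw [hu]; field_simp
    have hcard : (fib v).card ≤ (nthRoots e r).toFinset.card := by
      refine Finset.card_le_card_of_injOn (fun i => (φ i π).leadingCoeff) hroot ?_
      intro i hi j hj hij
      have hi' : P i = v := (Finset.mem_filter.1 (Finset.mem_coe.1 hi)).2
      have hj' : P j = v := (Finset.mem_filter.1 (Finset.mem_coe.1 hj)).2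
      have hcij : c i = c j := by
        have h1 := hPt i
        have h2 := hPt j
        rw [hi'] at h1
        rw [hj'] at h2
        exact mul_right_cancel₀ hv.ne' (h1.trans h2.symm)
      exact hinj (eq_of_leadingCoeff_eq (φ i) (φ j) (hφ i) (hφ j) ((hT i).trans (hT j).symm) v
        (hc i) (fun f => by rw [hord, hi']) (fun f => by rw [hord, hj', hcij]) hv hπ hij
        (Int.cast_ne_zero.2 hv.ne'))
    rw [he]
    exact_mod_cast hcard.trans ((Multiset.toFinset_card_le _).trans (card_nthRoots e r))
  -- the total forces equality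
  have htot : ∑ v ∈ zerosOf K t, ((fib v).card : ℤ) = ∑ v ∈ zerosOf K t, v.ord t := by
    rw [sum_ord_zerosOf ht, ← hI, ← Nat.cast_sum, Nat.cast_inj, ← Finset.card_univ,
      Finset.card_eq_sum_card_fiberwise (f := P) (s := Finset.univ) (t := zerosOf K t)
        fun i _ => mem_zerosOf.2 (hpos i)]
  have heq : ∀ v, 0 < v.ord t → ((fib v).card : ℤ) = v.ord t := fun v hv =>
    (Finset.sum_eq_sum_iff_of_le fun v hv => hle v (mem_zerosOf.1 hv)).1 htot v (mem_zerosOf.2 hv)
  refine ⟨P, c, hc, hord, fun v hv => ?_, fun i => ?_⟩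
  · obtain ⟨i, hi⟩ : (fib v).Nonempty := Finset.card_pos.1 (by have := heq v hv; omega)
    exact ⟨i, (Finset.mem_filter.1 hi).2⟩
  -- the monodromy preserves the place
  have hσP : ∀ i, P (σ i) = P i := fun i => by
    refine place_eq_of_le fun f hf => ?_
    rw [← ordGE_zero_iff_mem] at hf ⊢
    rcases hf with rfl | hf
    · exact ordGE_zero _ _
    · have h1 := hσ i f
      rw [hord, hord] at h1
      refine ordGE_of_le ?_
      have := hc i
      have := hc (σ i)
      nlinarith
  have hσpow : ∀ (i : I) (d : ℕ), P ((σ ^ d) i) = P i := fun i d => by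
    induction d with
    | zero => simp
    | succ d ih => rw [pow_succ', Equiv.Perm.mul_apply, hσP, ih]
  obtain ⟨π, -, hπ⟩ := exists_uniformizer (P i)
  set d := Function.minimalPeriod σ i
  have hd0 : 0 < d := Function.minimalPeriod_pos_of_mem_periodicPts
    (Function.injective_iff_periodicPts_eq_univ.1 σ.injective ▸ Set.mem_univ i)
  -- the orbit fills the fibre
  set orb := (Finset.range d).image fun k => (σ ^ k) i with horb
  have hcard : orb.card = d := by
    rw [horb, Finset.card_image_of_injOn, Finset.card_range]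
    intro a ha b hb hab
    simp only [Finset.coe_range, Set.mem_Iio] at ha hb
    simp only [Equiv.Perm.coe_pow] at hab
    exact (Function.iterate_eq_iterate_iff_of_lt_minimalPeriod ha hb).1 hab
  have hsub : orb ⊆ fib (P i) := fun k hk => by
    obtain ⟨m', -, rfl⟩ := Finset.mem_image.1 hk
    exact Finset.mem_filter.2 ⟨Finset.mem_univ _, hσpow i m'⟩
  have hperiod : (σ ^ d) i = i := by
    rw [Equiv.Perm.coe_pow]
    exact Function.iterate_minimalPeriod
  have hdvd := hfix i d hperiod π
  rw [hord i π, hπ, mul_one, ← hPt i, mul_comm (d : ℤ)] at hdvd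
  have hle' : ((fib (P i)).card : ℤ) ≤ d := by
    rw [heq _ (hpos i)]
    exact Int.le_of_dvd (by exact_mod_cast hd0) ((mul_dvd_mul_iff_left (hc i).ne').1 hdvd)
  have hge := Finset.card_le_card hsub
  rw [hcard] at hge
  refine ⟨d, hd0, hperiod, ?_⟩
  have h5 : ((fib (P i)).card : ℤ) = d := le_antisymm hle' (by exact_mod_cast hge)
  rw [← h5, heq _ (hpos i), hPt]

/-- Every order of an embedding is a multiple of the order at a place. -/
theorem exists_ord_dvd (φ : F →+* LaurentSeries C)
    (hφ : ∀ a : K, φ (algebraMap K F a) = HahnSeries.C (κ a)) {x : F} {n : ℤ}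
    (hx : ∀ v : Place K F, n ∣ v.ord x) :
    ∃ l : ℤ, (φ x).order = n * l ∧
      ∀ m d : ℤ, (∀ f, m ∣ d * (φ f).order) → m ∣ d * l := by
  by_cases h : ∀ f, (φ f).order = 0
  · exact ⟨0, by rw [h, mul_zero], fun m d _ => by rw [mul_zero]; exact dvd_zero m⟩
  · simp only [not_forall] at h
    obtain ⟨f, hf⟩ := h
    obtain ⟨t, ht⟩ : ∃ t, 0 < (φ t).order := by
      rcases lt_or_gt_of_ne hf with h | h
      · exact ⟨f⁻¹, by rw [map_inv₀, lord_inv]; omega⟩
      · exact ⟨f, h⟩
    obtain ⟨v, c, -, hord⟩ := exists_place φ hφ ht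
    obtain ⟨e, he⟩ := hx v
    refine ⟨c * e, by rw [hord, he]; ring, fun m d hm => ?_⟩
    obtain ⟨π, -, hπ⟩ := exists_uniformizer v
    have h1 := hm π
    rw [hord, hπ, mul_one] at h1
    rw [← mul_assoc]
    exact h1.mul_right e

end FLTAgent.TorsionHom
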