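import Fermat.Agent.TorsionHom.HolRoot

/-!
Multipliers of roots at fixed points and at infinity.
-/

set_option autoImplicit false

noncomputable section

open UpperHalfPlane CongruenceSubgroup Complex Function Filter
open scoped MatrixGroups Manifold Topology

namespace FLTAgent.TorsionHom

open FLTAgent.X0Fn

/-- At a fixed point the multiplier is the power of the rotation given by the order. -/
theorem mult_eq_of_fixed {R : Hol} (hR : R ≠ 0) {τ₀ : ℍ} {g : SL(2, ℤ)} (hg : g • τ₀ = τ₀) {c : ℂ}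
    (hc : ∀ τ, (R : ℍ → ℂ) (g • τ) = c * (R : ℍ → ℂ) τ) :
    c = ((denom g (τ₀ : ℂ)) ^ (-2 : ℤ)) ^ analyticOrderNatAt ((R : ℍ → ℂ) ∘ ofComplex) τ₀ := by
  obtain ⟨k, a, hk⟩ := exists_hasLead R.2 (fun e => hR (Subtype.ext e)) τ₀
  rw [analyticOrderNatAt_of_hasLead (analyticAt_of_hol R.2 τ₀.im_pos) hk]
  set u : ℂ → ℂ := fun z => ((g 0 0 : ℤ) * z + (g 0 1 : ℤ)) / ((g 1 0 : ℤ) * z + (g 1 1 : ℤ)) with hu
  set e : ℂ := (g 1 0 : ℤ) * (τ₀ : ℂ) + (g 1 1 : ℤ) with he
  have hden : denom g (τ₀ : ℂ) = e := by simp [UpperHalfPlane.denom, he]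
  have hden0 : e ≠ 0 := hden ▸ UpperHalfPlane.denom_ne_zero _ _
  have hu0 : u τ₀ = τ₀ := by
    have := congrArg (fun τ : ℍ => (τ : ℂ)) hg
    simp only [UpperHalfPlane.coe_specialLinearGroup_apply] at this
    simpa [hu] using this
  have hanu : AnalyticAt ℂ u τ₀ :=
    ((analyticAt_const.mul analyticAt_id).add analyticAt_const).div
      ((analyticAt_const.mul analyticAt_id).add analyticAt_const) hden0
  have hdet : ((g 0 0 : ℤ) : ℂ) * (g 1 1 : ℤ) - (g 0 1 : ℤ) * (g 1 0 : ℤ) = 1 := by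
    have := g.2
    rw [Matrix.det_fin_two] at this
    exact_mod_cast this
  have hderiv : HasDerivAt u (e ^ (-2 : ℤ)) τ₀ := by
    have hA : HasDerivAt (fun z : ℂ => ((g 0 0 : ℤ) : ℂ) * z + (g 0 1 : ℤ)) (g 0 0 : ℤ) τ₀ := by
      simpa using ((hasDerivAt_id (τ₀ : ℂ)).const_mul ((g 0 0 : ℤ) : ℂ)).add_const ((g 0 1 : ℤ) : ℂ)
    have hB : HasDerivAt (fun z : ℂ => ((g 1 0 : ℤ) : ℂ) * z + (g 1 1 : ℤ)) (g 1 0 : ℤ) τ₀ := by
      simpa using ((hasDerivAt_id (τ₀ : ℂ)).const_mul ((g 1 0 : ℤ) : ℂ)).add_const ((g 1 1 : ℤ) : ℂ)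
    refine (hA.div hB hden0).congr_deriv ?_
    rw [← he, zpow_neg, zpow_two, eq_comm, inv_eq_iff_eq_inv, inv_div, eq_div_iff]
    · rw [he]; linear_combination (e * e) * hdet
    · rw [he]; intro h
      have : ((g 0 0 : ℤ) : ℂ) * (g 1 1 : ℤ) - (g 0 1 : ℤ) * (g 1 0 : ℤ) = 0 := by linear_combination h
      rw [hdet] at this
      exact one_ne_zero this
  have hlead := hk.comp hanu hu0 hderiv (zpow_ne_zero _ hden0)
  have heq : (((R : ℍ → ℂ) ∘ ofComplex) ∘ u) =ᶠ[𝓝 (τ₀ : ℂ)]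
      fun z => c * ((R : ℍ → ℂ) ∘ ofComplex) z := by
    filter_upwards [isOpen_upperHalfPlaneSet.mem_nhds τ₀.im_pos] with z hz
    have hcoe : ((g • (⟨z, hz⟩ : ℍ) : ℍ) : ℂ) = u z := by
      rw [UpperHalfPlane.coe_specialLinearGroup_apply]
      simp [hu]
    simp only [comp_apply, ofComplex_apply_of_im_pos hz, ← hcoe, UpperHalfPlane.ofComplex_apply, hc]
  have h1 : tay (τ₀ : ℂ) (((R : ℍ → ℂ) ∘ ofComplex) ∘ u) =
      PowerSeries.C c * tay (τ₀ : ℂ) ((R : ℍ → ℂ) ∘ ofComplex) := by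
    rw [tay_congr heq, ← tay_const (τ₀ : ℂ) c,
      ← tay_mul analyticAt_const (analyticAt_of_hol R.2 τ₀.im_pos)]
    rfl
  have h2 := congrArg (PowerSeries.coeff k) h1
  rw [hlead.tay_order.2, PowerSeries.coeff_C_mul, hk.tay_order.2, mul_comm c] at h2
  rw [hden]
  exact (mul_left_cancel₀ hk.1 h2).symm

section Infinity

variable {N : ℕ} [NeZero N]

theorem tendsto_of_mem_Per (f : Per (N : ℝ)) :
    Tendsto (f : ℍ → ℂ) atImInfty (𝓝 (PowerSeries.coeff 0 (qExp (N : ℝ) f))) := by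
  have hpos' : (0 : ℝ) < N := by exact_mod_cast Nat.pos_of_ne_zero (NeZero.ne N)
  have h0 : PowerSeries.coeff 0 (qExp (N : ℝ) f) =
      UpperHalfPlane.cuspFunction (N : ℝ) (f : ℍ → ℂ) 0 := by
    show PowerSeries.coeff 0 (qExpansion (N : ℝ) (f : ℍ → ℂ)) = _
    rw [qExpansion_coeff]
    simp
  rw [h0]
  have h1 := ((analyticAt_of_mem f.2).continuousAt.tendsto.comp
    (qParam_tendsto_atImInfty hpos'))
  refine h1.congr fun τ => ?_
  exact eq_cuspFunction (h := (N : ℝ)) τ hpos'.ne' f.2.2.1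

/-- The leading coefficient is the limit after removing the power of the parameter. -/
theorem tendsto_leading (f : PerL (N : ℝ)) (hf : f ≠ 0) :
    Tendsto (fun τ => (f : ℍ → ℂ) τ * qh (N : ℝ) τ ^ (-(expL (N : ℝ) f).order)) atImInfty
      (𝓝 (expL (N : ℝ) f).leadingCoeff) := by
  obtain ⟨m, hm⟩ := f.2
  have he := expL_eq f hm
  set S := qExp (N : ℝ) ⟨_, hm⟩ with hS
  have hS0 : S ≠ 0 := fun h0 => hf (expL_injective (by rw [he, h0, map_zero, map_zero, mul_zero]))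
  obtain ⟨p, hp⟩ := ENat.ne_top_iff_exists.1 fun h0 => hS0 (PowerSeries.order_eq_top.1 h0)
  have hps : HahnSeries.ofPowerSeries ℤ ℂ S ≠ 0 := fun h0 =>
    hS0 (HahnSeries.ofPowerSeries_injective (h0.trans (map_zero _).symm))
  have hord : (expL (N : ℝ) f).order = (p : ℤ) - m := by
    rw [he, Curves.lord_mul (HahnSeries.single_ne_zero one_ne_zero) hps,
      HahnSeries.order_single one_ne_zero, order_ofPowerSeries hp.symm]
    ring
  have hlc : (expL (N : ℝ) f).leadingCoeff = PowerSeries.coeff p S := by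
    rw [HahnSeries.leadingCoeff_eq, hord, he, HahnSeries.coeff_single_mul, one_mul,
      show (p : ℤ) - m - -(m : ℤ) = p by ring, HahnSeries.ofPowerSeries_apply_coeff]
  set u : ℍ → ℂ := fun τ => (f : ℍ → ℂ) τ * qh (N : ℝ) τ ^ ((m : ℤ) - p) with hu
  have hup : u * qh (N : ℝ) ^ p = (f : ℍ → ℂ) * qh (N : ℝ) ^ m := by
    funext τ
    simp only [hu, Pi.mul_apply, Pi.pow_apply]
    rw [mul_assoc, ← zpow_natCast _ p, ← zpow_add₀ (qh_ne_zero τ), sub_add_cancel, zpow_natCast]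
  have hup' : u * qh (N : ℝ) ^ p ∈ Per (N : ℝ) := hup ▸ hm
  have heu := expL_eq (⟨u, p, hup'⟩ : PerL (N : ℝ)) hup'
  rw [show (⟨_, hup'⟩ : Per (N : ℝ)) = ⟨_, hm⟩ from Subtype.ext hup, ← hS] at heu
  have hmem : u ∈ Per (N : ℝ) := mem_Per_of_coeff ⟨u, p, hup'⟩ fun n hn => by
    rw [heu, HahnSeries.coeff_single_mul, one_mul]
    rcases lt_or_ge (n - -(p : ℤ)) 0 with h | h
    · exact ModularCurve.ofPowerSeries_coeff_of_neg _ h
    · obtain ⟨i, hi⟩ := Int.eq_ofNat_of_zero_le h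
      rw [hi, HahnSeries.ofPowerSeries_apply_coeff]
      exact PowerSeries.coeff_of_lt_order i (by rw [← hp]; exact_mod_cast (by omega : i < p))
  have hc : PowerSeries.coeff 0 (qExp (N : ℝ) ⟨u, hmem⟩) = PowerSeries.coeff p S := by
    have h2 := congrArg (fun x : LaurentSeries ℂ => x.coeff ((0 : ℕ) : ℤ))
      ((expL_of_mem_Per ⟨u, p, hup'⟩ hmem).symm.trans heu)
    simp only at h2
    rw [HahnSeries.ofPowerSeries_apply_coeff, HahnSeries.coeff_single_mul, one_mul, Nat.cast_zero,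
      zero_sub, neg_neg, HahnSeries.ofPowerSeries_apply_coeff] at h2
    exact h2
  rw [hlc, ← hc, hord]
  refine (tendsto_of_mem_Per ⟨u, hmem⟩).congr fun τ => ?_
  simp [hu]

/-- An invariant periodic function has order compatible with the shift. -/
theorem shift_dvd_order (f : PerL (N : ℝ)) {b : ℤ}
    (hb : ∀ τ, (f : ℍ → ℂ) (ModularGroup.T ^ b • τ) = (f : ℍ → ℂ) τ) :
    (N : ℤ) ∣ b * (expL (N : ℝ) f).order := by
  rcases eq_or_ne (expL (N : ℝ) f) 0 with h0 | h0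
  · simp [h0]
  have h := coeff_expL_shift f f b (fun τ => (hb τ).symm) (expL (N : ℝ) f).order
  have h1 := mul_right_cancel₀ (coeff_order_ne h0) ((one_mul _).trans h)
  rw [← Complex.exp_int_mul, eq_comm, Complex.exp_eq_one_iff] at h1
  obtain ⟨k, hk⟩ := h1
  have hN : (N : ℂ) ≠ 0 := Nat.cast_ne_zero.2 (NeZero.ne N)
  refine ⟨k, ?_⟩
  have h2 : ((b : ℂ) * (expL (N : ℝ) f).order) = (N : ℂ) * (k : ℤ) := by
    have h3 := Complex.two_pi_I_ne_zero
    field_simp at hk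
    linear_combination hk
  exact_mod_cast h2

/-- At infinity the multiplier is trivial. -/
theorem mult_eq_one_of_shift {n : ℕ} (hn : n ≠ 0) {R : ℍ → ℂ} (hR : MDiff R) (G : PerL (N : ℝ))
    (hG0 : G ≠ 0) (hG : ∀ τ, R τ ^ n = (G : ℍ → ℂ) τ) {k b : ℤ}
    (hk : (expL (N : ℝ) G).order = n * k) (hbk : (N : ℤ) ∣ b * k) {c : ℂ} (hc : c ^ n = 1)
    (hshift : ∀ τ, R (ModularGroup.T ^ b • τ) = c * R τ) : c = 1 := by
  set C := (expL (N : ℝ) G).leadingCoeff
  have hC : C ≠ 0 :=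
    HahnSeries.leadingCoeff_ne_zero.2 fun h => hG0 (expL_injective (h.trans (map_zero _).symm))
  set V : ℍ → ℂ := fun τ => R τ * qh (N : ℝ) τ ^ (-k) with hV
  have hVn : ∀ τ, V τ ^ n = (G : ℍ → ℂ) τ * qh (N : ℝ) τ ^ (-(expL (N : ℝ) G).order) := fun τ => by
    rw [hV, mul_pow, hG, hk, ← zpow_natCast (_ ^ (-k)) n, ← zpow_mul, neg_mul, mul_comm k]
  have hlim : Tendsto (fun τ => V τ ^ n) atImInfty (𝓝 C) := by
    simp only [hVn]
    exact tendsto_leading G hG0
  have hshiftV : ∀ τ, V (ModularGroup.T ^ b • τ) = c * V τ := fun τ => by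
    simp only [hV, hshift, qh_T_zpow, mul_zpow]
    have h1 : Complex.exp (2 * Real.pi * Complex.I * b / N) ^ (-k) = 1 := by
      obtain ⟨e, he⟩ := hbk
      rw [← Complex.exp_int_mul, Complex.exp_eq_one_iff]
      refine ⟨-e, ?_⟩
      have hN : (N : ℂ) ≠ 0 := Nat.cast_ne_zero.2 (NeZero.ne N)
      have he' : (b : ℂ) * k = N * e := by exact_mod_cast he
      push_cast
      field_simp
      linear_combination (-1 : ℂ) * he'
    rw [h1, one_mul, mul_assoc]
  obtain ⟨d, hd⟩ := IsAlgClosed.exists_pow_nat_eq C (Nat.pos_of_ne_zero hn)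
  have hd0 : d ≠ 0 := fun h => hC (by rw [← hd, h, zero_pow hn])
  have hev : ∀ᶠ τ in atImInfty, V τ ^ n / C ∈ Complex.slitPlane := by
    have h1 : Tendsto (fun τ => V τ ^ n / C) atImInfty (𝓝 1) := by
      simpa [div_self hC] using hlim.div_const C
    exact h1.eventually (Complex.isOpen_slitPlane.mem_nhds (by simp))
  obtain ⟨A, hA⟩ := (atImInfty_mem _).1 hev
  set y := max A 1
  let S : Set ℂ := {z : ℂ | y ≤ z.im}
  have hSpos : ∀ z ∈ S, 0 < z.im := fun z hz => one_pos.trans_le ((le_max_right A 1).trans hz)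
  have hSmem : ∀ z ∈ S, V (ofComplex z) ^ n / C ∈ Complex.slitPlane := fun z hz => by
    refine hA _ ?_
    rw [ofComplex_apply_of_im_pos (hSpos z hz)]
    exact (le_max_left A 1).trans hz
  let L : ℂ → ℂ := fun z => V (ofComplex z) / (d * (V (ofComplex z) ^ n / C) ^ ((n : ℂ)⁻¹))
  have hVcont : ContinuousOn (fun z => V (ofComplex z)) S := by
    refine ContinuousOn.mul ?_ ?_
    · exact ((UpperHalfPlane.mdifferentiable_iff.1 hR).continuousOn).mono hSpos
    · exact (((UpperHalfPlane.mdifferentiable_iff.1 mdiff_qh).continuousOn).mono hSpos).zpow₀ _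
        fun z _ => Or.inl (qh_ne_zero _)
  have hne : ∀ z ∈ S, (V (ofComplex z) ^ n / C) ^ ((n : ℂ)⁻¹) ≠ 0 := fun z hz h0 => by
    rw [Complex.cpow_eq_zero_iff] at h0
    exact Complex.slitPlane_ne_zero (hSmem z hz) h0.1
  have hLcont : ContinuousOn L S :=
    hVcont.div (continuousOn_const.mul (((hVcont.pow n).div_const C).cpow_const hSmem))
      fun z hz => mul_ne_zero hd0 (hne z hz)
  have hLroot : ∀ z ∈ S, L z ^ n = 1 := fun z hz => by
    have hne' : V (ofComplex z) ^ n ≠ 0 := fun h0 =>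
      Complex.slitPlane_ne_zero (hSmem z hz) (by rw [h0, zero_div])
    rw [div_pow, mul_pow d, Complex.cpow_nat_inv_pow _ hn, hd, mul_div_cancel₀ _ hC, div_self hne']
  have hT : ({t : ℂ | t ^ n = 1}).Finite :=
    (Polynomial.nthRootsFinset n (1 : ℂ)).finite_toSet.subset fun t ht => by
      simpa [Polynomial.mem_nthRootsFinset (Nat.pos_of_ne_zero hn)] using ht
  have hpre : IsPreconnected S := (convex_halfSpace_im_ge y).isPreconnected
  let z₀ : ℂ := (y : ℂ) * Complex.I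
  have hz₀ : z₀ ∈ S := by simp [S, z₀]
  have hz₁ : z₀ + (b : ℂ) ∈ S := by simp [S, z₀]
  have hconst := hpre.constant_of_mapsTo hT.isDiscrete hLcont (fun z hz => hLroot z hz) hz₀ hz₁
  have hmove : ofComplex (z₀ + (b : ℂ)) = ModularGroup.T ^ b • ofComplex z₀ := by
    rw [ofComplex_apply_of_im_pos (hSpos _ hz₁), ofComplex_apply_of_im_pos (hSpos _ hz₀)]
    apply UpperHalfPlane.ext
    rw [UpperHalfPlane.modular_T_zpow_smul]
    simp [add_comm]
  simp only [L, hmove, hshiftV, mul_pow, hc, one_mul] at hconst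
  have hL0 : V (ofComplex z₀) / (d * (V (ofComplex z₀) ^ n / C) ^ ((n : ℂ)⁻¹)) ≠ 0 := fun h0 => by
    have := hLroot z₀ hz₀
    simp only [L, h0, zero_pow hn] at this
    exact zero_ne_one this
  refine (mul_eq_right₀ hL0).1 ?_
  rw [← mul_div_assoc]
  exact hconst.symm

end Infinity

end FLTAgent.TorsionHom
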