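import Fermat.Agent.X0Fn.Genus
import Fermat.Agent.PeriodHecke.Basic
import Fermat.Agent.ES.Primitive
import Fermat.Agent.TorsionHom.Interp
import Fermat.Agent.TorsionHom.Local
import Fermat.Agent.TorsionHom.Cover

/-!
Functions with divisor divisible by `n` are those whose roots have characters killing parabolic
and elliptic elements.
-/

set_option autoImplicit false

noncomputable section

open UpperHalfPlane CongruenceSubgroup Complex Function Filter
open scoped MatrixGroups Manifold Topology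

namespace FLTAgent.TorsionHom

open FLTAgent.X0Fn AlgebraicCurve
open FLTAgent.Curves (lord_mul lord_pow lord_inv IsFunctionField exists_residue ordGE_of_le
  OrdGE)
open FLTAgent.ES (jfun rhoPt)
open FLTAgent.PeriodHecke (Hpar mat)

variable {N : ℕ} [NeZero N]

local notation "Γ₀" => Gamma0 N
local notation "Cx" => Additive ℂˣ

/-- Expansion of a translate at a point. -/
def psiPoint (τ₀ : ℍ) (q : Cos N) : W0 N →+* LaurentSeries ℂ :=
  (HahnSeries.ofPowerSeries ℤ ℂ).comp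
    ((taylorAt τ₀).comp ((X0Fn.trans q).codRestrict Hol (trans_mem_Hol q))).toRingHom

/-- Expansion of a translate at infinity. -/
def psiCusp (q : Cos N) : W0 N →+* LaurentSeries ℂ :=
  ((expL (N : ℝ)).comp ((X0Fn.trans q).codRestrict (PerL (N : ℝ)) (trans_mem_PerL q))).toRingHom

theorem psiPoint_apply (τ₀ : ℍ) (q : Cos N) (f : W0 N) :
    psiPoint τ₀ q f =
      HahnSeries.ofPowerSeries ℤ ℂ (taylorAt τ₀ ⟨X0Fn.trans q f, trans_mem_Hol q f⟩) := rfl

theorem psiPoint_injective (τ₀ : ℍ) (q : Cos N) : Injective (psiPoint τ₀ q) := fun _ _ h =>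
  trans_injective q (congrArg Subtype.val
    (taylorAt_injective τ₀ (HahnSeries.ofPowerSeries_injective h)))

theorem psiCusp_apply (q : Cos N) (f : W0 N) :
    psiCusp q f = expL (N : ℝ) ⟨X0Fn.trans q f, trans_mem_PerL q f⟩ := rfl

theorem psiCusp_injective (q : Cos N) : Injective (psiCusp q) := fun _ _ h =>
  trans_injective q (congrArg Subtype.val (expL_injective h))

variable {K : Type*} [Field K] [Algebra ℚ K] (κ : K →+* ℂ)

theorem W0_ne_zero_left {A B : W0 N} (hB : B ≠ 0) {x : LaurentSeries K} (hx : x ≠ 0)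
    (h : iota (N := N) κ x * expW N B = expW N A) : A ≠ 0 := fun h0 => by
  rw [h0, map_zero, mul_eq_zero] at h
  exact h.elim (fun e => hx (iota_injective κ (e.trans (map_zero _).symm)))
    fun e => hB (expW_injective (e.trans (map_zero _).symm))

/-- An embedding of the field agrees with an expansion of functions. -/
theorem emb_mul (φ : XF K N →+* LaurentSeries ℂ) (Ψ : W0 N →+* LaurentSeries ℂ)
    (hφ : ∀ a, φ (incA K N a) = Ψ (toW κ a)) {x : XF K N} {A B : W0 N}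
    (h : iota (N := N) κ (x : LaurentSeries K) * expW N B = expW N A) : φ x * Ψ B = Ψ A := by
  obtain ⟨a, b, rfl⟩ := exists_incA_div x
  by_cases hb : incA K N b = 0
  · rw [hb, div_zero] at h ⊢
    rw [ZeroMemClass.coe_zero, map_zero, zero_mul, eq_comm, map_eq_zero_iff _ expW_injective] at h
    rw [map_zero, zero_mul, h, map_zero]
  have hb' : (b : LaurentSeries K) ≠ 0 := fun e => hb (Subtype.ext e)
  have hW : toW κ a * B = toW κ b * A := expW_injective (by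
    rw [map_mul, map_mul, expW_toW, expW_toW, ← h, ← mul_assoc, ← map_mul]
    congr 2
    show (a : LaurentSeries K) = (b : LaurentSeries K) * ((a : LaurentSeries K) / b)
    rw [mul_div_cancel₀ _ hb'])
  have h1 := congrArg Ψ hW
  rw [map_mul, map_mul, ← hφ, ← hφ] at h1
  have hne : φ (incA K N b) ≠ 0 := (map_ne_zero φ).2 hb
  rw [map_div₀, div_mul_eq_mul_div, h1, mul_div_cancel_left₀ _ hne]

theorem pointEmb_incA' (τ₀ : ℍ) (q : Cos N) (a : XA K N) :
    pointEmb κ τ₀ q (incA K N a) = psiPoint τ₀ q (toW κ a) := pointEmb_incA κ τ₀ q a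

theorem cuspEmb_incA' (q : Cos N) (a : XA K N) :
    cuspEmb κ q (incA K N a) = psiCusp q (toW κ a) := cuspEmb_incA κ q a

/-- The order of a root. -/
theorem order_root {x a b P : LaurentSeries ℂ} {n : ℕ} (hn : n ≠ 0) (hx : x ≠ 0) (hb : b ≠ 0)
    (h : x * b = a) (hP : P ^ n = a * b ^ (n - 1)) :
    x.order = n * (P.order - b.order) := by
  obtain ⟨m, rfl⟩ := Nat.exists_eq_succ_of_ne_zero hn
  rw [Nat.succ_eq_add_one, Nat.add_sub_cancel, ← h, mul_assoc, ← pow_succ'] at hP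
  have h1 := congrArg HahnSeries.order hP
  rw [lord_pow, lord_mul hx (pow_ne_zero _ hb), lord_pow] at h1
  rw [mul_sub]
  push_cast at h1 ⊢
  linarith

theorem psiPoint_order (τ₀ : ℍ) (q : Cos N) {f : W0 N} (hf : f ≠ 0) :
    (psiPoint τ₀ q f).order = analyticOrderNatAt (X0Fn.trans q f ∘ ofComplex) τ₀ := by
  rw [psiPoint_apply]
  exact order_ofPowerSeries (taylor_order_eq (f := ⟨_, trans_mem_Hol q f⟩)
    (fun e => hf (trans_injective q ((congrArg Subtype.val e).trans (map_zero _).symm))) τ₀)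

theorem hol_order (τ₀ : ℍ) {f : Hol} (hf : f ≠ 0) :
    (HahnSeries.ofPowerSeries ℤ ℂ (taylorAt τ₀ f)).order =
      analyticOrderNatAt ((f : ℍ → ℂ) ∘ ofComplex) τ₀ :=
  order_ofPowerSeries (taylor_order_eq hf τ₀)

theorem psiPoint_one (τ₀ : ℍ) (f : W0 N) :
    psiPoint τ₀ ((1 : SL(2, ℤ)) : Cos N) f = HahnSeries.ofPowerSeries ℤ ℂ (taylorAt τ₀ (toHol f)) := by
  rw [psiPoint_apply]
  congr 2
  exact Subtype.ext (trans_one f)

variable [IsAlgClosed K]

/-- A quotient with divisor divisible by `n` has a holomorphic root. -/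
theorem exists_root_rep {x : XF K N} (hx : x ≠ 0) {n : ℕ} (hn : n ≠ 0)
    (hdiv : ∀ v : Place K (XF K N), (n : ℤ) ∣ v.ord x) {A B : W0 N} (hB : B ≠ 0)
    (hAB : iota (N := N) κ (x : LaurentSeries K) * expW N B = expW N A) :
    ∃ R : Hol, R ^ n = toHol (A * B ^ (n - 1)) := by
  haveI := (isFunctionField_and_finrank (N := N) κ).1
  have hx' : (x : LaurentSeries K) ≠ 0 := fun e => hx (Subtype.ext e)
  have hA := W0_ne_zero_left κ hB hx' hAB
  set G := A * B ^ (n - 1)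
  have hG : toHol G ≠ 0 :=
    (map_ne_zero_iff _ toHol_injective).2 (W0_mul_ne_zero hA (W0_pow_ne_zero hB _))
  obtain ⟨R, hR⟩ := exists_root hn hG fun τ => by
    set q₁ : Cos N := ((1 : SL(2, ℤ)) : Cos N)
    obtain ⟨l, hl, -⟩ := exists_ord_dvd (pointEmb κ τ q₁)
      (fun a => pointEmb_algebraMap κ τ q₁ a) (n := (n : ℤ)) hdiv
    have h1 := emb_mul κ _ _ (pointEmb_incA' κ τ q₁) hAB
    have hx1 : pointEmb κ τ q₁ x ≠ 0 := (map_ne_zero _).2 hx
    have hB1 : psiPoint τ q₁ B ≠ 0 := (map_ne_zero_iff _ (psiPoint_injective τ q₁)).2 hB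
    have h2 : (psiPoint τ q₁ G).order = n * (l + (psiPoint τ q₁ B).order) := by
      obtain ⟨m, rfl⟩ := Nat.exists_eq_succ_of_ne_zero hn
      rw [map_mul, map_pow, ← h1, mul_assoc, ← pow_succ', lord_mul hx1 (pow_ne_zero _ hB1), lord_pow,
        hl, Nat.succ_eq_add_one, Nat.add_sub_cancel]
      push_cast; ring
    rw [psiPoint_one, hol_order τ hG] at h2
    exact Int.natCast_dvd_natCast.1 ⟨_, h2⟩
  exact ⟨R, hR⟩

/-- A function with divisor divisible by `n` has a holomorphic root. -/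
theorem exists_isRoot {x : XF K N} (hx : x ≠ 0) {n : ℕ} (hn : n ≠ 0)
    (hdiv : ∀ v : Place K (XF K N), (n : ℤ) ∣ v.ord x) :
    ∃ R : Hol, IsRoot (N := N) κ n (x : LaurentSeries K) R := by
  obtain ⟨A, B, hB, hAB⟩ := (mem_ratField κ).1 (XF_le_ratField κ x.2)
  obtain ⟨R, hR⟩ := exists_root_rep κ hx hn hdiv hB hAB
  exact ⟨R, A, B, hB, hAB, hR⟩

theorem exists_fixed_point (γ : SL(2, ℤ))
    (h : (γ : Matrix (Fin 2) (Fin 2) ℤ).trace ^ 2 < 4) : ∃ τ : ℍ, γ • τ = τ := by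
  set a : ℝ := ((γ 0 0 : ℤ) : ℝ)
  set b : ℝ := ((γ 0 1 : ℤ) : ℝ)
  set c : ℝ := ((γ 1 0 : ℤ) : ℝ)
  set d : ℝ := ((γ 1 1 : ℤ) : ℝ)
  have hdet : a * d - b * c = 1 := by
    have := γ.2
    rw [Matrix.det_fin_two] at this
    simp only [a, b, c, d]
    exact_mod_cast this
  have ht : (a + d) ^ 2 < 4 := by
    rw [Matrix.trace_fin_two] at h
    simp only [a, d]
    exact_mod_cast h
  have hc : c ≠ 0 := fun h0 => by
    rw [h0, mul_zero, sub_zero] at hdet
    nlinarith [sq_nonneg (a - d)]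
  set s := Real.sqrt (4 - (a + d) ^ 2) / (2 * |c|)
  have hs : 0 < s := div_pos (Real.sqrt_pos.2 (by linarith)) (by positivity)
  have hs2 : s ^ 2 * (4 * c ^ 2) = 4 - (a + d) ^ 2 := by
    rw [div_pow, Real.sq_sqrt (by linarith), mul_pow, sq_abs]
    field_simp
    ring
  clear_value s
  set X := (a - d) / (2 * c)
  have hX : X * (2 * c) = a - d := div_mul_cancel₀ _ (by positivity)
  have hreal : c * (X ^ 2 - s ^ 2) + (d - a) * X - b = 0 := by
    refine mul_left_cancel₀ (mul_ne_zero (four_ne_zero : (4 : ℝ) ≠ 0) hc) ?_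
    rw [mul_zero]
    linear_combination (X * (2 * c) - (a - d)) * hX - hs2 + 4 * hdet
  refine ⟨⟨⟨X, s⟩, hs⟩, ?_⟩
  apply UpperHalfPlane.ext
  rw [UpperHalfPlane.coe_specialLinearGroup_apply]
  simp only [algebraMap_int_eq, eq_intCast, Complex.ofReal_intCast]
  set z : ℂ := ⟨X, s⟩
  have hne : ((γ 1 0 : ℤ) : ℂ) * z + (γ 1 1 : ℤ) ≠ 0 := fun h0 => by
    have := congrArg Complex.im h0
    simp [z] at this
    rcases this with h | h
    · exact hc (by simpa [c] using h)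
    · exact hs.ne' h
  have key : (a : ℂ) * z + (b : ℂ) = z * ((c : ℂ) * z + (d : ℂ)) := by
    apply Complex.ext <;> simp [z]
    · linear_combination -hreal
    · linear_combination -s * hX
  rw [div_eq_iff hne]
  simp only [a, b, c, d, Complex.ofReal_intCast] at key
  exact key

theorem mult_one_of_fix {R : Hol} (hR : R ≠ 0) {τ : ℍ} {g : SL(2, ℤ)} (hg : g • τ = τ)
    (hc : ∀ z, (R : ℍ → ℂ) (g • z) = (R : ℍ → ℂ) z) :
    ((denom g (τ : ℂ)) ^ (-2 : ℤ)) ^ analyticOrderNatAt ((R : ℍ → ℂ) ∘ ofComplex) τ = 1 :=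
  (mult_eq_of_fixed hR hg (c := 1) fun z => by rw [hc, one_mul]).symm

omit [NeZero N] in
theorem smul_one_coset (γ : Γ₀) :
    (γ : SL(2, ℤ)) • ((1 : SL(2, ℤ)) : Cos N) = ((1 : SL(2, ℤ)) : Cos N) := by
  rw [MulAction.Quotient.smul_coe, smul_eq_mul, mul_one, QuotientGroup.eq]
  simpa using inv_mem γ.2

theorem point_dvd_one {τ : ℍ} {γ : Γ₀} (hfix : (γ : SL(2, ℤ)) • τ = τ) (f : XF K N) :
    (orderOf ((denom (γ : SL(2, ℤ)) (τ : ℂ)) ^ (-2 : ℤ)) : ℤ) ∣
      (1 : ℤ) * (pointEmb κ τ ((1 : SL(2, ℤ)) : Cos N) f).order :=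
  point_dvd_order κ hfix (IsPrimitiveRoot.orderOf _) (d := 1)
    (by rw [pow_one]; exact smul_one_coset γ) f

omit [IsAlgClosed K] in
theorem root_pow_point {A B : W0 N} {R : Hol} {n : ℕ} (hP : R ^ n = toHol (A * B ^ (n - 1)))
    (τ : ℍ) :
    HahnSeries.ofPowerSeries ℤ ℂ (taylorAt τ R) ^ n =
      psiPoint τ ((1 : SL(2, ℤ)) : Cos N) A * psiPoint τ ((1 : SL(2, ℤ)) : Cos N) B ^ (n - 1) := by
  rw [psiPoint_one, psiPoint_one, ← map_pow, ← map_pow, hP, map_mul, map_pow, map_mul, map_pow,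
    map_mul, map_pow]

omit [IsAlgClosed K] in
theorem root_order_one {x : XF K N} (hx : x ≠ 0) {n : ℕ} (hn : n ≠ 0) {A B : W0 N} (hB : B ≠ 0)
    (hAB : iota (N := N) κ (x : LaurentSeries K) * expW N B = expW N A) {R : Hol} (hR : R ≠ 0)
    (hP : R ^ n = toHol (A * B ^ (n - 1))) (τ : ℍ) {l : ℤ}
    (hl : (pointEmb κ τ ((1 : SL(2, ℤ)) : Cos N) x).order = (n : ℤ) * l) :
    (analyticOrderNatAt ((R : ℍ → ℂ) ∘ ofComplex) τ : ℤ) =
      l + (analyticOrderNatAt ((toHol B : ℍ → ℂ) ∘ ofComplex) τ : ℕ) := by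
  have h1 := emb_mul κ _ _ (pointEmb_incA' κ τ ((1 : SL(2, ℤ)) : Cos N)) hAB
  have hx1 : pointEmb κ τ ((1 : SL(2, ℤ)) : Cos N) x ≠ 0 := (map_ne_zero _).2 hx
  have hB1 : psiPoint τ ((1 : SL(2, ℤ)) : Cos N) B ≠ 0 :=
    (map_ne_zero_iff _ (psiPoint_injective τ _)).2 hB
  have h2 := order_root hn hx1 hB1 h1 (root_pow_point hP τ)
  rw [hl, psiPoint_one, hol_order τ hR,
    hol_order τ ((map_ne_zero_iff _ toHol_injective).2 hB)] at h2
  have h3 := mul_left_cancel₀ (Int.natCast_ne_zero.2 hn) h2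
  omega

theorem mult_elliptic {x : XF K N} (hx : x ≠ 0) {n : ℕ} (hn : n ≠ 0)
    (hdiv : ∀ v : Place K (XF K N), (n : ℤ) ∣ v.ord x) {R : Hol} {χ : Additive Γ₀ →+ Cx}
    (hroot : IsRoot (N := N) κ n (x : LaurentSeries K) R) (hc : HasChar (R : ℍ → ℂ) χ) {γ : Γ₀}
    (h : (mat γ).trace ^ 2 < 4) : mult χ γ = 1 := by
  haveI := (isFunctionField_and_finrank (N := N) κ).1
  have hR := hroot.ne_zero hn fun e => hx (Subtype.ext e)
  obtain ⟨A, B, hB, hAB, hP⟩ := hroot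
  obtain ⟨τ, hfix⟩ := exists_fixed_point (γ : SL(2, ℤ)) h
  obtain ⟨l, hl, hlm⟩ := exists_ord_dvd (pointEmb κ τ ((1 : SL(2, ℤ)) : Cos N))
    (fun a => pointEmb_algebraMap κ τ ((1 : SL(2, ℤ)) : Cos N) a) (n := (n : ℤ)) hdiv
  have hord := root_order_one κ hx hn hB hAB hR hP τ hl
  have hml := hlm _ 1 (point_dvd_one κ hfix)
  rw [one_mul] at hml
  have hwb := mult_one_of_fix ((map_ne_zero_iff _ toHol_injective).2 hB) hfix
    fun z => B.2.2.1 _ γ.2 z
  have hw0 : (denom (γ : SL(2, ℤ)) (τ : ℂ)) ^ (-2 : ℤ) ≠ 0 :=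
    zpow_ne_zero _ (UpperHalfPlane.denom_ne_zero _ _)
  rw [mult_eq_of_fixed hR hfix (hc γ), ← zpow_natCast, hord, zpow_add₀ hw0, zpow_natCast, hwb,
    mul_one]
  obtain ⟨e, he⟩ := hml
  rw [he, zpow_mul, zpow_natCast, pow_orderOf_eq_one, one_zpow]

omit [NeZero N] in
theorem upper_smul (u : SL(2, ℤ)) (h : u 1 0 = 0) (τ : ℍ) :
    u • τ = ModularGroup.T ^ (u 0 0 * u 0 1) • τ := by
  have hdet : u 0 0 * u 1 1 = 1 := by
    have := u.2
    rw [Matrix.det_fin_two, h, mul_zero, sub_zero] at this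
    exact this
  apply UpperHalfPlane.ext
  rw [UpperHalfPlane.modular_T_zpow_smul, coe_vadd, UpperHalfPlane.coe_specialLinearGroup_apply]
  rcases Int.mul_eq_one_iff_eq_one_or_neg_one.1 hdet with ⟨a, b⟩ | ⟨a, b⟩ <;>
    simp [h, a, b] <;> ring

theorem mult_parabolic {x : XF K N} (hx : x ≠ 0) {n : ℕ} (hn : n ≠ 0)
    (hdiv : ∀ v : Place K (XF K N), (n : ℤ) ∣ v.ord x) {R : Hol} {χ : Additive Γ₀ →+ Cx}
    (hroot : IsRoot (N := N) κ n (x : LaurentSeries K) R) (hc : HasChar (R : ℍ → ℂ) χ)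
    (hnχ : n • χ = 0) {γ : Γ₀} (h : (mat γ).trace ^ 2 = 4) : mult χ γ = 1 := by
  haveI := (isFunctionField_and_finrank (N := N) κ).1
  have hx' : (x : LaurentSeries K) ≠ 0 := fun e => hx (Subtype.ext e)
  obtain ⟨A, B, hB, hAB, hP⟩ := hroot
  obtain ⟨σ, hσ⟩ := ES.exists_conj_upper (γ := (γ : SL(2, ℤ))) h
  set u := σ⁻¹ * (γ : SL(2, ℤ)) * σ
  set b := u 0 0 * u 0 1
  set q : Cos N := ((σ⁻¹ : SL(2, ℤ)) : Cos N)
  have hmove : ∀ τ : ℍ, σ • (ModularGroup.T ^ b • τ) = (γ : SL(2, ℤ)) • σ • τ := fun τ => by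
    rw [← upper_smul u hσ τ, ← mul_smul, ← mul_smul]
    congr 1
    simp [u, mul_assoc]
  have htr : ∀ (f : W0 N) τ, X0Fn.trans q f τ = (f : ℍ → ℂ) (σ • τ) := fun f τ => by
    rw [trans_mk, inv_inv]
  have hshift : ∀ (f : W0 N),
      (N : ℤ) ∣ b * (psiCusp q f).order := fun f => by
    rw [psiCusp_apply]
    refine shift_dvd_order _ fun τ => ?_
    show X0Fn.trans q f _ = X0Fn.trans q f τ
    rw [htr, htr, hmove, f.2.2.1 _ γ.2]
  obtain ⟨l, hl, hlm⟩ := exists_ord_dvd (cuspEmb κ q)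
    (fun a => cuspEmb_algebraMap κ q a) (n := (n : ℤ)) hdiv
  have hNl : (N : ℤ) ∣ b * l := hlm N b fun f => dvd_order_of_incA _ (fun a => by
    rw [cuspEmb_incA']; exact hshift _) f
  set G : PerL (N : ℝ) := ⟨X0Fn.trans q (A * B ^ (n - 1)), trans_mem_PerL q _⟩
  have h1 := emb_mul κ _ _ (cuspEmb_incA' κ q) hAB
  have hx1 : cuspEmb κ q x ≠ 0 := (map_ne_zero _).2 hx
  have hB1 : psiCusp q B ≠ 0 := (map_ne_zero_iff _ (psiCusp_injective q)).2 hB
  have hA := W0_ne_zero_left κ hB hx' hAB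
  have hG0 : G ≠ 0 := fun e => W0_mul_ne_zero hA (W0_pow_ne_zero hB (n - 1))
    (trans_injective q ((congrArg Subtype.val e).trans (map_zero _).symm))
  have hord : (expL (N : ℝ) G).order = n * (l + (psiCusp q B).order) := by
    obtain ⟨m, rfl⟩ := Nat.exists_eq_succ_of_ne_zero hn
    show (psiCusp q (A * B ^ _)).order = _
    rw [map_mul, map_pow, ← h1, mul_assoc, ← pow_succ', lord_mul hx1 (pow_ne_zero _ hB1), lord_pow,
      hl, Nat.succ_eq_add_one, Nat.add_sub_cancel]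
    push_cast; ring
  refine mult_eq_one_of_shift hn (comp_smul_mdiff R.2 σ) G hG0 (fun τ => ?_) hord
    (by rw [mul_add]; exact dvd_add hNl (hshift B)) (c := mult χ γ)
    (by rw [← mult_nsmul, hnχ, mult_zero]) fun τ => ?_
  · show (R : ℍ → ℂ) (σ • τ) ^ n = X0Fn.trans q _ τ
    rw [htr]
    exact congrFun (congrArg Subtype.val hP) (σ • τ)
  · show (R : ℍ → ℂ) (σ • ModularGroup.T ^ b • τ) = _
    rw [hmove, hc]

/-- The character of a function with divisor divisible by `n`. -/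
theorem exists_isCharFn {x : XF K N} (hx : x ≠ 0) {n : ℕ} (hn : n ≠ 0)
    (hdiv : ∀ v : Place K (XF K N), (n : ℤ) ∣ v.ord x) :
    ∃ χ ∈ Hpar Γ₀ Cx, n • χ = 0 ∧ IsCharFn κ n (x : LaurentSeries K) χ := by
  obtain ⟨R, hroot⟩ := exists_isRoot κ hx hn hdiv
  have hx' : (x : LaurentSeries K) ≠ 0 := fun e => hx (Subtype.ext e)
  have hR := hroot.ne_zero hn hx'
  obtain ⟨A, B, hB, hAB, hP⟩ := hroot
  obtain ⟨χ, hc, hnχ⟩ := exists_hasChar hn hR hP
  refine ⟨χ, fun γ hγ => Additive.toMul.injective (Units.ext ?_), hnχ, R, ⟨A, B, hB, hAB, hP⟩, hc⟩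
  show mult χ γ = 1
  rcases hγ.lt_or_eq with h | h
  · exact mult_elliptic κ hx hn hdiv ⟨A, B, hB, hAB, hP⟩ hc h
  · exact mult_parabolic κ hx hn hdiv ⟨A, B, hB, hAB, hP⟩ hc hnχ h

end FLTAgent.TorsionHom
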