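import Fermat.Agent.TorsionHom.Converse
import Fermat.Agent.TorsionHom.Interp
import Mathlib.RingTheory.PowerSeries.Binomial

/-!
A function with trivial character is a power in the function field.
-/

set_option autoImplicit false

noncomputable section

open UpperHalfPlane CongruenceSubgroup Complex Function
open scoped MatrixGroups Manifold

namespace FLTAgent.TorsionHom

open FLTAgent.X0Fn
open FLTAgent.PeriodHecke (Hpar)
open ModularCurve (coeffMap qExpand)

/-- `n`-th roots of `1 + v` for a series `v` without constant term. -/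
theorem exists_pow_eq_unit {K : Type*} [Field K] [Algebra ℚ K] [IsAlgClosed K] {u : PowerSeries K}
    (hu : PowerSeries.constantCoeff u ≠ 0) {n : ℕ} (hn : n ≠ 0) : ∃ w, w ^ n = u := by
  set c := PowerSeries.constantCoeff u with hc
  obtain ⟨d, hd⟩ := IsAlgClosed.exists_pow_nat_eq c (Nat.pos_of_ne_zero hn)
  set v : PowerSeries K := PowerSeries.C c⁻¹ * u - 1 with hv
  have hv0 : PowerSeries.constantCoeff v = 0 := by
    rw [hv, map_sub, map_mul, PowerSeries.constantCoeff_C, map_one, ← hc, inv_mul_cancel₀ hu,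
      sub_self]
  set B : PowerSeries K := PowerSeries.binomialSeries K ((n : ℚ)⁻¹)
  have hB : B ^ n = 1 + PowerSeries.X := by
    have h : ∀ k : ℕ, B ^ k = PowerSeries.binomialSeries K ((k : ℚ) * (n : ℚ)⁻¹) := by
      intro k
      induction k with
      | zero => simp
      | succ k ih =>
        rw [pow_succ, ih, Nat.cast_succ, add_mul, one_mul, PowerSeries.binomialSeries_add]
    rw [h, mul_inv_cancel₀ (by exact_mod_cast hn), show (1 : ℚ) = ((1 : ℕ) : ℚ) from Nat.cast_one.symm,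
      PowerSeries.binomialSeries_nat, pow_one]
  have hs := PowerSeries.HasSubst.of_constantCoeff_zero' hv0
  refine ⟨PowerSeries.C d * PowerSeries.substAlgHom hs B, ?_⟩
  rw [mul_pow, ← map_pow, hd, ← map_pow, hB, map_add, map_one, PowerSeries.substAlgHom_X, hv,
    add_sub_cancel, ← mul_assoc, ← map_mul, mul_inv_cancel₀ hu, map_one, one_mul]

/-- `n`-th roots of Laurent series whose order is divisible by `n`. -/
theorem exists_pow_eq_series {K : Type*} [Field K] [Algebra ℚ K] [IsAlgClosed K]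
    {x : LaurentSeries K} (hx : x ≠ 0) {n : ℕ} (hn : n ≠ 0) (hd : (n : ℤ) ∣ x.order) :
    ∃ y, y ^ n = x := by
  obtain ⟨k, hk⟩ := hd
  obtain ⟨w, hw⟩ := exists_pow_eq_unit (u := LaurentSeries.powerSeriesPart x) (n := n) (by
    rw [← PowerSeries.coeff_zero_eq_constantCoeff_apply, LaurentSeries.powerSeriesPart_coeff,
      Nat.cast_zero, add_zero]
    exact HahnSeries.coeff_order_eq_zero.not.2 hx) hn
  refine ⟨HahnSeries.single k 1 * HahnSeries.ofPowerSeries ℤ K w, ?_⟩
  rw [mul_pow, HahnSeries.single_pow, one_pow, ← map_pow, hw, nsmul_eq_mul, ← hk,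
    LaurentSeries.single_order_mul_powerSeriesPart]

/-- Roots of unity in a field containing `ℂ` are constants. -/
theorem exists_const_of_pow_eq {L : Type*} [Field L] [Algebra ℂ L] {n : ℕ} (hn : n ≠ 0) {f g : L}
    (hg : g ≠ 0) (h : f ^ n = g ^ n) : ∃ ζ : ℂ, f = algebraMap ℂ L ζ * g := by
  have : NeZero n := ⟨hn⟩
  obtain ⟨ζ, hζ⟩ : ∃ ζ : ℂ, IsPrimitiveRoot ζ n := ⟨_, Complex.isPrimitiveRoot_exp n hn⟩
  have h1 : (f / g) ^ n = 1 := by rw [div_pow, h, div_self (pow_ne_zero _ hg)]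
  obtain ⟨i, -, hi⟩ :=
    (hζ.map_of_injective (algebraMap ℂ L).injective).eq_pow_of_pow_eq_one h1
  exact ⟨ζ ^ i, by rw [map_pow, hi, div_mul_cancel₀ _ hg]⟩

variable {N : ℕ} [NeZero N]

local notation "Γ₀" => Gamma0 N
local notation "Cx" => Additive ℂˣ

theorem order_iota {K : Type*} [Field K] [Algebra ℚ K] (κ : K →+* ℂ) {x : LaurentSeries K}
    (hx : x ≠ 0) : (iota (N := N) κ x).order = N * x.order := by
  have hco : ∀ k : ℤ, (iota (N := N) κ x).coeff (N * k) = κ (x.coeff k) := fun k => by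
    rw [iota, RingHom.comp_apply, ModularCurve.qExpand_coeff_mul, ModularCurve.coeffMap_coeff]
  have hne : (iota (N := N) κ x).coeff (N * x.order) ≠ 0 := by
    rw [hco]
    exact (map_ne_zero κ).2 (HahnSeries.coeff_order_eq_zero.not.2 hx)
  refine le_antisymm (HahnSeries.order_le_of_coeff_ne_zero hne) ?_
  by_contra hlt
  push Not at hlt
  have h0 := HahnSeries.coeff_order_eq_zero.not.2
    ((map_ne_zero_iff _ (iota_injective (N := N) κ)).2 hx)
  by_cases hd : (N : ℤ) ∣ (iota (N := N) κ x).order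
  · obtain ⟨k, hk⟩ := hd
    rw [hk, hco] at h0
    rw [hk] at hlt
    exact h0 (by rw [HahnSeries.coeff_eq_zero_of_lt_order
      (lt_of_mul_lt_mul_left hlt (by positivity)), map_zero])
  · exact h0 (by rw [iota, RingHom.comp_apply, ModularCurve.qExpand_coeff_of_not_dvd]; exact hd)

/-- The expansion of an invariant function lives in `q`. -/
theorem dvd_order_expW (f : W0 N) : (N : ℤ) ∣ (expW N f).order := by
  have h := shift_dvd_order (⟨f, W0_le_PerL f.2⟩ : PerL (N : ℝ)) (b := 1) fun τ =>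
    f.2.2.1 _ (Gamma0_mem.2 (by simp)) τ
  rwa [one_mul] at h

/-- An invariant root lies in `W0`. -/
theorem mem_W0_of_root {R : Hol} (hc : HasChar (R : ℍ → ℂ) (0 : Additive Γ₀ →+ Cx)) {n : ℕ}
    (hn : n ≠ 0) {G : W0 N} (hG : R ^ n = toHol G) : (R : ℍ → ℂ) ∈ W0 N := by
  refine ⟨R.2, fun γ hγ τ => by simpa using hc ⟨γ, hγ⟩ τ, fun g => ?_⟩
  refine root_mem_PerL (comp_smul_mdiff R.2 g) (fun τ => ?_) hn ?_
  · have hmem : g * ModularGroup.T ^ (N : ℤ) * g⁻¹ ∈ Gamma0 N := by
      have h := (Gamma_normal N).conj_mem _ (ModularGroup_T_pow_mem_Gamma N N dvd_rfl) g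
      exact Gamma0_mem.2 (Gamma_mem.1 h).2.2.1
    have h := hc ⟨_, hmem⟩ (g • τ)
    rw [mult_zero, one_mul] at h
    rw [← h]
    simp [← mul_smul, mul_assoc]
  · have : (fun τ => (R : ℍ → ℂ) (g • τ) ^ n) = fun τ => (G : ℍ → ℂ) (g • τ) :=
      funext fun τ => congrFun (congrArg Subtype.val hG) (g • τ)
    rw [this]
    exact G.2.2.2 g

variable {K : Type*} [Field K] [Algebra ℚ K] [IsAlgClosed K] (κ : K →+* ℂ)

/-- A function with trivial character is a power. -/
theorem exists_pow_eq {x : LaurentSeries K} (hx : x ≠ 0) {n : ℕ} (hn : n ≠ 0)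
    (h : IsCharFn κ n x (0 : Additive Γ₀ →+ Cx)) :
    ∃ y : LaurentSeries K, y ∈ XF K N ∧ y ^ n = x := by
  obtain ⟨R, ⟨A, B, hB, hAB, hR⟩, hc⟩ := h
  set Rw : W0 N := ⟨R, mem_W0_of_root hc hn hR⟩
  have hRw : Rw ^ n = A * B ^ (n - 1) := toHol_injective (by
    rw [map_pow]; exact hR)
  have hb : expW N B ≠ 0 := (map_ne_zero_iff _ expW_injective).2 hB
  have hA : A ≠ 0 := fun h0 => by
    rw [h0, map_zero, mul_eq_zero, map_eq_zero_iff _ (iota_injective κ)] at hAB
    exact hAB.elim hx hb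
  have hRw0 : Rw ≠ 0 := fun h0 => by
    rw [h0, zero_pow hn, eq_comm] at hRw
    exact W0_mul_ne_zero hA (W0_pow_ne_zero hB _) hRw
  set z := expW N Rw / expW N B with hz
  have hzn : z ^ n = iota (N := N) κ x := by
    rw [hz, div_pow, div_eq_iff (pow_ne_zero _ hb), ← map_pow, hRw, map_mul, ← hAB, map_pow,
      mul_assoc, ← pow_succ', Nat.sub_add_cancel (Nat.pos_of_ne_zero hn)]
  have hz0 : z ≠ 0 := div_ne_zero ((map_ne_zero_iff _ expW_injective).2 hRw0) hb
  have hdvd : (n : ℤ) ∣ x.order := by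
    obtain ⟨r, hr⟩ := dvd_order_expW Rw
    obtain ⟨s, hs⟩ := dvd_order_expW B
    have h1 := congrArg HahnSeries.order hzn
    rw [order_iota κ hx, Curves.lord_pow, hz, div_eq_mul_inv,
      Curves.lord_mul ((map_ne_zero_iff _ expW_injective).2 hRw0) (inv_ne_zero hb),
      Curves.lord_inv, hr, hs] at h1
    refine ⟨r - s, mul_left_cancel₀ (Nat.cast_ne_zero.2 (NeZero.ne N) : (N : ℤ) ≠ 0) ?_⟩
    linear_combination -h1
  obtain ⟨y, hy⟩ := exists_pow_eq_series hx hn hdvd
  obtain ⟨ζ, hζ⟩ := exists_const_of_pow_eq (f := iota (N := N) κ y) hn hz0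
    (by rw [← map_pow, hy, hzn])
  refine ⟨y, mem_XF_of_W0 κ (A := algebraMap ℂ (W0 N) ζ * Rw) hB ?_, hy⟩
  rw [hζ, hz, map_mul, AlgHom.commutes, mul_assoc, div_mul_cancel₀ _ hb]

end FLTAgent.TorsionHom
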