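import Fermat.Agent.X0Fn.Orders
import Fermat.Agent.PeriodHecke.Basic

/-!
Roots of modular functions, holomorphic on the upper half plane, and their characters on `Γ₀(N)`.
-/

set_option autoImplicit false

noncomputable section

open UpperHalfPlane CongruenceSubgroup Complex Function
open scoped MatrixGroups Manifold

namespace FLTAgent.TorsionHom

open FLTAgent.X0Fn

instance instNoZeroDivisorsHol : NoZeroDivisors Hol where
  eq_zero_or_eq_zero_of_mul_eq_zero {a b} h := by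
    have h1 := congrArg (taylorAt UpperHalfPlane.I) h
    rw [map_mul, map_zero] at h1
    exact (mul_eq_zero.1 h1).imp
      (fun e => taylorAt_injective _ (e.trans (map_zero _).symm))
      fun e => taylorAt_injective _ (e.trans (map_zero _).symm)

instance instNontrivialHol : Nontrivial Hol :=
  ⟨0, 1, fun h => zero_ne_one (congrFun (congrArg Subtype.val h) UpperHalfPlane.I)⟩

instance instIsDomainHol : IsDomain Hol := NoZeroDivisors.to_isDomain _

theorem eq_smul_of_pow_eq {n : ℕ} (hn : n ≠ 0) {f g : Hol} (h : f ^ n = g ^ n) :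
    ∃ ζ : ℂ, ζ ^ n = 1 ∧ f = algebraMap ℂ Hol ζ * g := by
  classical
  have hinj : Injective (algebraMap ℂ Hol) := (algebraMap ℂ Hol).injective
  obtain ⟨ζ, hζ⟩ : ∃ ζ : ℂ, IsPrimitiveRoot ζ n :=
    ⟨_, Complex.isPrimitiveRoot_exp n hn⟩
  have h0 := (hζ.map_of_injective hinj).pow_sub_pow_eq_prod_sub_mul f g (Nat.pos_of_ne_zero hn)
  rw [h, sub_self, eq_comm, Finset.prod_eq_zero_iff] at h0
  obtain ⟨μ, hμ, h1⟩ := h0
  rw [Polynomial.mem_nthRootsFinset (Nat.pos_of_ne_zero hn)] at hμ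
  have : NeZero n := ⟨hn⟩
  obtain ⟨i, -, rfl⟩ := (hζ.map_of_injective hinj).eq_pow_of_pow_eq_one hμ
  exact ⟨ζ ^ i, by rw [← pow_mul, mul_comm, pow_mul, hζ.pow_eq_one, one_pow],
    by rw [map_pow, ← sub_eq_zero]; exact h1⟩

variable {N : ℕ} [NeZero N]

local notation "Γ₀" => Gamma0 N
local notation "Cx" => Additive ℂˣ

/-- A function of level `N` as a holomorphic function. -/
def toHol : W0 N →ₐ[ℂ] Hol := Subalgebra.inclusion fun _ hf => hf.1

@[simp] theorem coe_toHol (f : W0 N) : (toHol f : ℍ → ℂ) = (f : ℍ → ℂ) := rfl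

theorem toHol_injective : Injective (toHol (N := N)) := Subalgebra.inclusion_injective _

/-- The multiplier of a character. -/
def mult (χ : Additive Γ₀ →+ Cx) (γ : Γ₀) : ℂ := ((χ (Additive.ofMul γ)).toMul : ℂˣ)

omit [NeZero N] in
@[simp] theorem mult_zero (γ : Γ₀) : mult (0 : Additive Γ₀ →+ Cx) γ = 1 := rfl

omit [NeZero N] in
theorem mult_add (χ χ' : Additive Γ₀ →+ Cx) (γ : Γ₀) :
    mult (χ + χ') γ = mult χ γ * mult χ' γ := rfl

omit [NeZero N] in
theorem mult_nsmul (χ : Additive Γ₀ →+ Cx) (m : ℕ) (γ : Γ₀) :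
    mult (m • χ) γ = mult χ γ ^ m := by
  simp [mult]

omit [NeZero N] in
theorem mult_ne_zero (χ : Additive Γ₀ →+ Cx) (γ : Γ₀) : mult χ γ ≠ 0 := Units.ne_zero _

omit [NeZero N] in
theorem mult_mul (χ : Additive Γ₀ →+ Cx) (γ δ : Γ₀) :
    mult χ (γ * δ) = mult χ γ * mult χ δ := by
  rw [mult, mult, mult, ofMul_mul, map_add, toMul_add, Units.val_mul]

omit [NeZero N] in
theorem mult_injective {χ χ' : Additive Γ₀ →+ Cx} (h : ∀ γ, mult χ γ = mult χ' γ) : χ = χ' :=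
  AddMonoidHom.ext fun γ => Additive.toMul.injective (Units.ext (h γ.toMul))

/-- A function transforming by a character. -/
def HasChar (R : ℍ → ℂ) (χ : Additive Γ₀ →+ Cx) : Prop :=
  ∀ (γ : Γ₀) (τ : ℍ), R ((γ : SL(2, ℤ)) • τ) = mult χ γ * R τ

omit [NeZero N] in
theorem HasChar.mul {R R' : ℍ → ℂ} {χ χ' : Additive Γ₀ →+ Cx} (h : HasChar R χ)
    (h' : HasChar R' χ') : HasChar (R * R') (χ + χ') := fun γ τ => by
  rw [Pi.mul_apply, Pi.mul_apply, h, h', mult_add]; ring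

omit [NeZero N] in
theorem HasChar.pow {R : ℍ → ℂ} {χ : Additive Γ₀ →+ Cx} (h : HasChar R χ) (m : ℕ) :
    HasChar (R ^ m) (m • χ) := fun γ τ => by
  rw [Pi.pow_apply, Pi.pow_apply, h, mult_nsmul, mul_pow]

theorem HasChar.mul_W0 {R : ℍ → ℂ} {χ : Additive Γ₀ →+ Cx} (h : HasChar R χ) (f : W0 N) :
    HasChar (R * (f : ℍ → ℂ)) χ := fun γ τ => by
  rw [Pi.mul_apply, Pi.mul_apply, h, f.2.2.1 _ γ.2 τ, mul_assoc]

omit [NeZero N] in
theorem HasChar.const_mul {R : ℍ → ℂ} {χ : Additive Γ₀ →+ Cx} (h : HasChar R χ) (c : ℂ) :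
    HasChar (fun τ => c * R τ) χ := fun γ τ => by
  show c * R _ = _
  rw [h, mul_left_comm]

theorem hasChar_W0 (f : W0 N) : HasChar (f : ℍ → ℂ) (0 : Additive Γ₀ →+ Cx) :=
  fun γ τ => by rw [mult_zero, one_mul]; exact f.2.2.1 _ γ.2 τ

omit [NeZero N] in
theorem hasChar_const (c : ℂ) : HasChar (fun _ => c) (0 : Additive Γ₀ →+ Cx) :=
  fun γ τ => by simp

omit [NeZero N] in
theorem HasChar.unique {R : Hol} (hR : R ≠ 0) {χ χ' : Additive Γ₀ →+ Cx}
    (h : HasChar (R : ℍ → ℂ) χ) (h' : HasChar (R : ℍ → ℂ) χ') : χ = χ' := by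
  obtain ⟨τ, hτ⟩ : ∃ τ, (R : ℍ → ℂ) τ ≠ 0 := by
    by_contra hne
    exact hR (Subtype.ext (funext fun τ => not_not.1 fun h0 => hne ⟨τ, h0⟩))
  exact mult_injective fun γ => mul_right_cancel₀ hτ ((h γ τ).symm.trans (h' γ τ))

/-- A holomorphic function with invariant power has a character. -/
theorem exists_hasChar {n : ℕ} (hn : n ≠ 0) {R : Hol} (hR : R ≠ 0) {G : W0 N}
    (hG : R ^ n = toHol G) :
    ∃ χ : Additive Γ₀ →+ Cx, HasChar (R : ℍ → ℂ) χ ∧ n • χ = 0 := by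
  obtain ⟨τ, hτ⟩ : ∃ τ, (R : ℍ → ℂ) τ ≠ 0 := by
    by_contra hne
    exact hR (Subtype.ext (funext fun τ => not_not.1 fun h0 => hne ⟨τ, h0⟩))
  have hζ : ∀ γ : Γ₀, ∃ ζ : ℂ, ζ ^ n = 1 ∧
      ∀ τ, (R : ℍ → ℂ) ((γ : SL(2, ℤ)) • τ) = ζ * (R : ℍ → ℂ) τ := fun γ => by
    let R' : Hol := ⟨fun τ => (R : ℍ → ℂ) ((γ : SL(2, ℤ)) • τ), comp_smul_mdiff R.2 _⟩
    have hp : R' ^ n = R ^ n := by
      rw [hG]
      apply Subtype.ext
      funext τ
      have := congrFun (congrArg Subtype.val hG) ((γ : SL(2, ℤ)) • τ)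
      simp only [SubmonoidClass.coe_pow, Pi.pow_apply, coe_toHol] at this ⊢
      rw [this, G.2.2.1 _ γ.2]
    obtain ⟨ζ, h1, h2⟩ := eq_smul_of_pow_eq hn hp
    exact ⟨ζ, h1, fun τ => congrFun (congrArg Subtype.val h2) τ⟩
  choose c hc hmul using hζ
  have hne : ∀ γ, c γ ≠ 0 := fun γ h0 => by
    have := hc γ
    rw [h0, zero_pow hn] at this
    exact zero_ne_one this
  have hhom : ∀ γ δ : Γ₀, c (γ * δ) = c γ * c δ := fun γ δ => by
    refine mul_right_cancel₀ hτ ?_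
    rw [← hmul, Subgroup.coe_mul, mul_smul, hmul, hmul, mul_assoc]
  let u : Γ₀ →* ℂˣ := MonoidHom.mk' (fun γ => Units.mk0 (c γ) (hne γ))
    fun γ δ => Units.ext (hhom γ δ)
  refine ⟨MonoidHom.toAdditive u, fun γ τ => hmul γ τ, mult_injective fun γ => ?_⟩
  rw [mult_nsmul, mult_zero]
  exact hc γ

variable {K : Type*} [Field K] [Algebra ℚ K] (κ : K →+* ℂ)

/-- A holomorphic root of a modular function, after clearing a denominator. -/
def IsRoot (n : ℕ) (x : LaurentSeries K) (R : Hol) : Prop :=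
  ∃ A B : W0 N, B ≠ 0 ∧ iota (N := N) κ x * expW N B = expW N A ∧
    R ^ n = toHol (A * B ^ (n - 1))

/-- The character of a modular function. -/
def IsCharFn (n : ℕ) (x : LaurentSeries K) (χ : Additive Γ₀ →+ Cx) : Prop :=
  ∃ R : Hol, IsRoot (N := N) κ n x R ∧ HasChar (R : ℍ → ℂ) χ

variable {κ} {n : ℕ} {x y : LaurentSeries K}

theorem IsRoot.ne_zero {R : Hol} (hn : n ≠ 0) (hx : x ≠ 0) (h : IsRoot (N := N) κ n x R) :
    R ≠ 0 := by
  obtain ⟨A, B, hB, hAB, hR⟩ := h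
  have hA : A ≠ 0 := fun h0 => by
    rw [h0, map_zero, mul_eq_zero] at hAB
    exact hAB.elim (fun e => hx (iota_injective κ (e.trans (map_zero _).symm)))
      fun e => hB (expW_injective (e.trans (map_zero _).symm))
  have hne : ∀ f : W0 N, f ≠ 0 → toHol f ≠ 0 := fun f hf => (map_ne_zero_iff _ toHol_injective).2 hf
  rintro rfl
  rw [zero_pow hn, map_mul, map_pow, eq_comm, mul_eq_zero] at hR
  exact hR.elim (hne A hA) fun e => hne B hB (pow_eq_zero_iff'.1 e).1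

/-- The character does not depend on the choices. -/
theorem IsCharFn.unique (hn : n ≠ 0) (hx : x ≠ 0) {χ χ' : Additive Γ₀ →+ Cx}
    (h : IsCharFn κ n x χ) (h' : IsCharFn κ n x χ') : χ = χ' := by
  obtain ⟨R, hroot, hc⟩ := h
  obtain ⟨R', hroot', hc'⟩ := h'
  have hR := hroot.ne_zero hn hx
  obtain ⟨A, B, hB, hAB, hR1⟩ := hroot
  obtain ⟨A', B', hB', hAB', hR2⟩ := hroot'
  have hcross : A * B' = A' * B := expW_injective (by
    rw [map_mul, map_mul, ← hAB, ← hAB']; ring)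
  have hpow : (R * toHol B') ^ n = (R' * toHol B) ^ n := by
    rw [mul_pow, mul_pow, hR1, hR2, ← map_pow, ← map_pow, ← map_mul, ← map_mul]
    congr 1
    obtain ⟨m, rfl⟩ := Nat.exists_eq_succ_of_ne_zero hn
    rw [Nat.succ_sub_one, pow_succ, pow_succ]
    linear_combination (B ^ m * B' ^ m) * hcross
  obtain ⟨ζ, -, hζ⟩ := eq_smul_of_pow_eq hn hpow
  have h1 : HasChar ((R * toHol B' : Hol) : ℍ → ℂ) χ := by
    exact hc.mul_W0 B'
  have h2 : HasChar ((R * toHol B' : Hol) : ℍ → ℂ) χ' := by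
    rw [hζ]
    exact (hc'.mul_W0 B).const_mul ζ
  exact h1.unique (mul_ne_zero hR ((map_ne_zero_iff _ toHol_injective).2 hB')) h2

theorem IsCharFn.mul {χ χ' : Additive Γ₀ →+ Cx} (h : IsCharFn κ n x χ)
    (h' : IsCharFn κ n y χ') : IsCharFn κ n (x * y) (χ + χ') := by
  obtain ⟨R, ⟨A, B, hB, hAB, hR1⟩, hc⟩ := h
  obtain ⟨R', ⟨A', B', hB', hAB', hR2⟩, hc'⟩ := h'
  refine ⟨R * R', ⟨A * A', B * B', ?_, ?_, ?_⟩, hc.mul hc'⟩
  · intro h0
    have := congrArg toHol h0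
    rw [map_mul, map_zero, mul_eq_zero, map_eq_zero_iff _ toHol_injective,
      map_eq_zero_iff _ toHol_injective] at this
    exact this.elim hB hB'
  · rw [map_mul, map_mul, map_mul, ← hAB, ← hAB']; ring
  · rw [mul_pow, hR1, hR2, ← map_mul]; congr 1; ring

theorem W0_mul_ne_zero {A B : W0 N} (hA : A ≠ 0) (hB : B ≠ 0) : A * B ≠ 0 := fun h0 => by
  have := congrArg toHol h0
  rw [map_mul, map_zero, mul_eq_zero, map_eq_zero_iff _ toHol_injective,
    map_eq_zero_iff _ toHol_injective] at this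
  exact this.elim hA hB

theorem W0_pow_ne_zero {A : W0 N} (hA : A ≠ 0) (m : ℕ) : A ^ m ≠ 0 := fun h0 => by
  have := congrArg toHol h0
  rw [map_pow, map_zero] at this
  exact (map_ne_zero_iff _ toHol_injective).2 hA (pow_eq_zero_iff'.1 this).1

/-- Powers in the function field have trivial character. -/
theorem isCharFn_pow {a b : W0 N} (hb : b ≠ 0) (hy : iota (N := N) κ y * expW N b = expW N a)
    (hn : n ≠ 0) : IsCharFn κ n (y ^ n) (0 : Additive Γ₀ →+ Cx) := by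
  refine ⟨toHol (a * b ^ (n - 1)), ⟨a ^ n, b ^ n, W0_pow_ne_zero hb n, ?_, ?_⟩, fun γ τ => hasChar_W0 (a * b ^ (n - 1)) γ τ⟩
  · rw [map_pow, map_pow, map_pow, ← mul_pow, hy]
  · rw [← map_pow]; congr 1; ring

/-- Changing the exponent keeps the character. -/
theorem IsCharFn.pow {χ : Additive Γ₀ →+ Cx} (hn : n ≠ 0) (h : IsCharFn κ n x χ) (m : ℕ)
    (hm : m ≠ 0) : IsCharFn κ (n * m) (x ^ m) χ := by
  obtain ⟨R, ⟨A, B, hB, hAB, hR⟩, hc⟩ := h
  refine ⟨R * toHol (B ^ (m - 1)), ⟨A ^ m, B ^ m, W0_pow_ne_zero hB m, ?_, ?_⟩, ?_⟩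
  · rw [map_pow, map_pow, map_pow, ← mul_pow, hAB]
  · rw [mul_pow, pow_mul, hR, ← map_pow, ← map_pow, ← map_mul, mul_pow, ← pow_mul, ← pow_mul,
      ← pow_mul]
    congr 1
    rw [mul_assoc, ← pow_add]
    congr 2
    obtain ⟨k, rfl⟩ := Nat.exists_eq_succ_of_ne_zero hn
    obtain ⟨l, rfl⟩ := Nat.exists_eq_succ_of_ne_zero hm
    have h1 : (k + 1) * (l + 1) - 1 = (k * l + k) + l :=
      Nat.sub_eq_of_eq_add (by ring)
    simp only [Nat.succ_eq_add_one, Nat.add_sub_cancel, h1]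
    ring
  · exact hc.mul_W0 (B ^ (m - 1))

end FLTAgent.TorsionHom
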