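import Fermat.Agent.TorsionHom.Degeneracy

/-!
The product of the translates of a function with a character over the representatives of a Hecke
operator, and its character.
-/

set_option autoImplicit false

noncomputable section

open UpperHalfPlane CongruenceSubgroup Function
open scoped MatrixGroups Manifold

namespace FLTAgent.TorsionHom

open FLTAgent.X0Fn
open FLTAgent.CuspForms (mulHalfPlane)
open FLTAgent.PeriodHecke (mat mat_mul mat_one HeckeIdx heckeRep' heckeFam')

variable {N : ℕ} [NeZero N] (l : ℕ) [Fact l.Prime]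

local notation "Γ₀" => Gamma0 N
local notation "Cx" => Additive ℂˣ
local notation "M2" => Matrix (Fin 2) (Fin 2) ℤ

variable (N) in
/-- A translate by a representative. -/
def translateRep (i : HeckeIdx N l) : Hol →ₐ[ℂ] Hol where
  toFun f := ⟨fun τ => (f : ℍ → ℂ) (mulHalfPlane l ((repRight N l i : SL(2, ℤ)) • τ)),
    comp_smul_mdiff (MDifferentiable.comp f.2 (mdiff_mulHalfPlane l)) _⟩
  map_one' := rfl
  map_mul' _ _ := rfl
  map_zero' := rfl
  map_add' _ _ := rfl
  commutes' _ := rfl

omit [NeZero N] in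
theorem translateRep_apply (i : HeckeIdx N l) (f : Hol) (τ : ℍ) :
    (translateRep N l i f : ℍ → ℂ) τ =
      (f : ℍ → ℂ) (mulHalfPlane l ((repRight N l i : SL(2, ℤ)) • τ)) := rfl

variable (N) in
/-- The product of all translates. -/
def heckeProd : Hol →* Hol where
  toFun f := ∏ i, translateRep N l i f
  map_one' := by simp
  map_mul' f g := by simp only [map_mul, Finset.prod_mul_distrib]

omit [NeZero N] in
theorem heckeProd_apply (f : Hol) : heckeProd N l f = ∏ i, translateRep N l i f := rfl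

theorem translateRep_injective (i : HeckeIdx N l) : Injective (translateRep N l i) := by
  refine (injective_iff_map_eq_zero _).2 fun f hf => Subtype.ext (funext fun τ => ?_)
  obtain ⟨σ, hσ⟩ : ∃ σ : ℍ, mulHalfPlane l σ = τ :=
    ⟨⟨(τ : ℂ) / (l : ℂ), by
      rw [Complex.div_natCast_im]
      exact div_pos τ.im_pos (by exact_mod_cast Nat.pos_of_ne_zero (NeZero.ne l))⟩,
    UpperHalfPlane.ext (by
      rw [CuspForms.coe_mulHalfPlane]
      show (l : ℂ) * ((τ : ℂ) / (l : ℂ)) = τ
      field_simp [Nat.cast_ne_zero.2 (NeZero.ne l)])⟩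
  have h := congrFun (congrArg Subtype.val hf) ((repRight N l i : SL(2, ℤ))⁻¹ • σ)
  rw [translateRep_apply, smul_inv_smul, hσ] at h
  exact h

theorem heckeProd_ne_zero {f : Hol} (hf : f ≠ 0) : heckeProd N l f ≠ 0 := by
  rw [heckeProd_apply]
  exact Finset.prod_ne_zero_iff.2 fun i _ => (map_ne_zero_iff _ (translateRep_injective l i)).2 hf

omit [NeZero N] in
theorem mult_sum {ι : Type*} (s : Finset ι) (χ : Additive Γ₀ →+ Cx) (g : ι → Γ₀) :
    (((∑ i ∈ s, χ (Additive.ofMul (g i))).toMul : ℂˣ) : ℂ) = ∏ i ∈ s, mult χ (g i) := by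
  rw [toMul_sum, Units.coe_prod]
  rfl

/-- The product of the translates has the Hecke transform of the character. -/
theorem heckeProd_hasChar {R : Hol} {χ : Additive Γ₀ →+ Cx} (h : HasChar (R : ℍ → ℂ) χ) :
    HasChar (heckeProd N l R : ℍ → ℂ) ((heckeFam' N l).hecke χ) := by
  intro γ τ
  set F := heckeFam' N l
  let δ := repLeft N l
  let u : HeckeIdx N l → Γ₀ := fun i => (δ i)⁻¹ * F.coc γ i * δ (F.next γ i)
  have hR : ∀ i, (R : ℍ → ℂ) (mulHalfPlane l ((repRight N l i : SL(2, ℤ)) • (γ : SL(2, ℤ)) • τ)) =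
      mult χ (u i) *
        (R : ℍ → ℂ) (mulHalfPlane l ((repRight N l (F.next γ i) : SL(2, ℤ)) • τ)) := by
    intro i
    set j := F.next γ i
    have hrel := F.rel γ i
    change heckeRep' N l i * mat γ = mat (F.coc γ i) * heckeRep' N l j at hrel
    rw [rep_eq, rep_eq] at hrel
    have hc : ∀ (g : Γ₀) (Z : M2), mat g⁻¹ * (mat g * Z) = Z := fun g Z => by
      rw [← mul_assoc, ← mat_mul, inv_mul_cancel, mat_one, one_mul]
    have hkey : diagMat l * mat (repRight N l i * γ * (repRight N l j)⁻¹) =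
        mat (u i) * diagMat l := by
      have h1 := congrArg (fun X => mat (δ i)⁻¹ * X * mat (repRight N l j)⁻¹) hrel
      simp only [mul_assoc, hc, δ] at h1
      simp only [u, δ, mat_mul, mul_assoc]
      rw [h1, ← mat_mul (repRight N l j), mul_inv_cancel, mat_one, mul_one]
    have h2 := mulHalfPlane_smul l (X := (repRight N l i * γ * (repRight N l j)⁻¹ : Γ₀))
      (Y := (u i : Γ₀)) hkey ((repRight N l j : SL(2, ℤ)) • τ)
    rw [← mul_smul ((repRight N l i : SL(2, ℤ))), ← h (u i), ← h2, ← mul_smul]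
    simp [mul_assoc]
  rw [heckeProd_apply]
  simp only [SubmonoidClass.coe_finsetProd, Finset.prod_apply,
    translateRep_apply, hR]
  rw [Finset.prod_mul_distrib]
  congr 1
  · have hmult : mult (F.hecke χ) γ = ∏ i, mult χ (F.coc γ i) := mult_sum _ χ _
    have hinv : ∀ g : Γ₀, mult χ g⁻¹ = (mult χ g)⁻¹ := fun g => by
      refine eq_inv_of_mul_eq_one_left ?_
      rw [← mult_mul, inv_mul_cancel, mult, ofMul_one, map_zero]
      rfl
    rw [hmult]
    simp only [u, mult_mul, hinv, Finset.prod_mul_distrib, Finset.prod_inv_distrib]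
    rw [show ∏ i, mult χ (δ (F.next γ i)) = ∏ i, mult χ (δ i) from
      Equiv.prod_comp (F.perm γ) fun i => mult χ (δ i)]
    have : (∏ i, mult χ (δ i)) ≠ 0 := Finset.prod_ne_zero_iff.2 fun i _ => mult_ne_zero χ _
    field_simp
  · exact Equiv.prod_comp (F.perm γ)
      (fun i => (R : ℍ → ℂ) (mulHalfPlane l ((repRight N l i : SL(2, ℤ)) • τ)))

end FLTAgent.TorsionHom
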