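import Fermat.Agent.TorsionHom.HeckeChar
import Fermat.Agent.TorsionHom.Basic

/-!
The embeddings of the upper function field over the lower one by the translates, and the
expansion of a norm.
-/

set_option autoImplicit false

noncomputable section

open UpperHalfPlane CongruenceSubgroup Function
open scoped MatrixGroups Manifold

namespace FLTAgent.TorsionHom

open FLTAgent.X0Fn AlgebraicCurve
open FLTAgent.PeriodHecke (mat HeckeIdx)
open ModularCurve (heckeAlphaBar heckeBetaBar)

variable {N : ℕ} [NeZero N] (l : ℕ) [Fact l.Prime] [NeZero (N * l)]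
variable {K : Type*} [Field K] [Algebra ℚ K] (κ : K →+* ℂ)

variable (N) in
/-- The coset of a representative. -/
def repCoset (i : HeckeIdx N l) : Cos (N * l) :=
  (((repRight N l i : SL(2, ℤ))⁻¹ : SL(2, ℤ)) : Cos (N * l))

omit [NeZero N] in
theorem trans_repCoset (i : HeckeIdx N l) (f : W0 (N * l)) (τ : ℍ) :
    trans (repCoset N l i) f τ = (f : ℍ → ℂ) ((repRight N l i : SL(2, ℤ)) • τ) := by
  rw [repCoset, trans_mk, inv_inv]

omit [NeZero (N * l)] in
theorem repCoset_injective : Injective (repCoset N l) := by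
  intro i j h
  refine (fibre_bijective N l).1 ?_
  show QuotientGroup.mk (repRight N l i)⁻¹ = QuotientGroup.mk (repRight N l j)⁻¹
  rw [repCoset, repCoset, QuotientGroup.eq] at h
  rw [QuotientGroup.eq, Subgroup.mem_subgroupOf]
  exact h

/-- The identity embedding, seen upstairs. -/
def lowEmb : XF K N →+* LaurentSeries ℂ :=
  (cuspEmb κ ((1 : SL(2, ℤ)) : Cos (N * l))).comp (heckeAlphaBar K N l).toRingHom

theorem lowEmb_incA (a : XA K N) :
    lowEmb l κ (incA K N a) =
      expL ((N * l : ℕ) : ℝ) ⟨(toW κ (alphaA l a) : ℍ → ℂ), W0_le_PerL (toW κ (alphaA l a)).2⟩ := by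
  rw [lowEmb, RingHom.comp_apply, AlgHom.toRingHom_eq_coe, RingHom.coe_coe, heckeAlphaBar_incA,
    cuspEmb_incA, cuspHom_apply]
  congr 1
  exact Subtype.ext (trans_one _)

theorem emb_over (i : HeckeIdx N l) :
    (cuspEmb κ (repCoset N l i)).comp (heckeAlphaBar K N l).toRingHom = lowEmb l κ := by
  refine RingHom.ext fun f => ?_
  obtain ⟨a, b, rfl⟩ := exists_incA_div f
  have key : ∀ a : XA K N, cuspEmb κ (repCoset N l i) (heckeAlphaBar K N l (incA K N a)) =
      lowEmb l κ (incA K N a) := fun a => by
    rw [lowEmb_incA, heckeAlphaBar_incA, cuspEmb_incA, cuspHom_apply]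
    congr 1
    refine Subtype.ext (funext fun τ => ?_)
    show trans (repCoset N l i) _ τ = _
    rw [trans_repCoset, toW_alphaA]
    exact (toW κ a).2.2.1 _ (repRight N l i).2 τ
  rw [map_div₀, map_div₀, RingHom.comp_apply, RingHom.comp_apply, AlgHom.toRingHom_eq_coe,
    RingHom.coe_coe, key, key]

variable (N) in
theorem card_heckeIdx_mul :
    Fintype.card (HeckeIdx N l) * Fintype.card (Cos N) = Fintype.card (Cos (N * l)) := by
  have hle : Gamma0 (N * l) ≤ Gamma0 N := fun γ hγ => by
    rw [Gamma0_mem, ZMod.intCast_zmod_eq_zero_iff_dvd] at hγ ⊢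
    exact (Int.natCast_dvd_natCast.mpr (dvd_mul_right N l)).trans hγ
  have h := Subgroup.relIndex_mul_index hle
  rw [Subgroup.relIndex, Subgroup.index, Subgroup.index, Subgroup.index,
    ← Nat.card_eq_of_bijective _ (fibre_bijective N l)] at h
  simpa [Nat.card_eq_fintype_card] using h

include κ in
theorem finrank_alpha :
    letI := algebraAlong (heckeAlphaBar K N l)
    Module.finrank (XF K N) (XF K (N * l)) = Fintype.card (HeckeIdx N l) := by
  letI := algebraAlong (heckeAlphaBar K N l)
  haveI := isScalarTower_along (heckeAlphaBar K N l)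
  haveI := (isFunctionField_and_finrank (N := N) κ).1
  haveI := (isFunctionField_and_finrank (N := N * l) κ).1
  have h1 := Kronecker.finrank_adjoin_algebraMap (K := K) (F := XF K N) (F' := XF K (N * l)) (jF K N)
  have hj : algebraMap (XF K N) (XF K (N * l)) (jF K N) = jF K (N * l) := Subtype.ext rfl
  rw [hj, (isFunctionField_and_finrank (N := N * l) κ).2,
    (isFunctionField_and_finrank (N := N) κ).2, ← card_heckeIdx_mul N l, mul_comm] at h1
  exact (Nat.eq_of_mul_eq_mul_left Fintype.card_pos h1).symm

variable [IsAlgClosed K]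

/-- The expansion of a norm. -/
theorem lowEmb_norm (z : XF K (N * l)) :
    lowEmb l κ (letI := algebraAlong (heckeAlphaBar K N l); Algebra.norm (XF K N) z) =
      ∏ i, cuspEmb κ (repCoset N l i) z := by
  letI := algebraAlong (heckeAlphaBar K N l)
  haveI := isScalarTower_along (heckeAlphaBar K N l)
  haveI := (isFunctionField_and_finrank (N := N) κ).1
  haveI := (isFunctionField_and_finrank (N := N * l) κ).1
  haveI : Module.Finite (XF K N) (XF K (N * l)) :=
    Kronecker.moduleFinite_of_functionField K
  haveI : CharZero K := charZero_of_injective_algebraMap (algebraMap ℚ K).injective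
  haveI : CharZero (XF K N) := charZero_of_injective_algebraMap (algebraMap K (XF K N)).injective
  exact norm_eq_prod (lowEmb l κ) (fun i => cuspEmb κ (repCoset N l i)) (emb_over l κ)
    (cuspEmb_injective κ |>.comp (repCoset_injective l)) (finrank_alpha l κ).symm z

omit [IsAlgClosed K] in
/-- The expansion of a pullback, translated. -/
theorem emb_beta (i : HeckeIdx N l) (a : XA K N) :
    ∃ h : (translateRep N l i (toHol (toW κ a)) : ℍ → ℂ) ∈ PerL ((N * l : ℕ) : ℝ),
      cuspEmb κ (repCoset N l i) (heckeBetaBar K N l (incA K N a)) =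
        expL ((N * l : ℕ) : ℝ) ⟨_, h⟩ := by
  have he : trans (repCoset N l i) (toW κ (betaA l a)) =
      (translateRep N l i (toHol (toW κ a)) : ℍ → ℂ) := funext fun τ => by
    rw [trans_repCoset, toW_betaA]
    rfl
  refine ⟨he ▸ trans_mem_PerL _ _, ?_⟩
  rw [heckeBetaBar_incA, cuspEmb_incA, cuspHom_apply]
  congr 1
  exact Subtype.ext he

end FLTAgent.TorsionHom
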