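import Fermat.Agent.TorsionHom.Basic

/-!
Holomorphic roots on the upper half plane of functions whose orders are divisible by the exponent.
-/

set_option autoImplicit false

noncomputable section

open UpperHalfPlane Complex Function Filter Metric Set
open scoped Topology Manifold

namespace FLTAgent.TorsionHom

open FLTAgent.X0Fn

variable {n : ℕ}

/-- A non-vanishing holomorphic function on a disc is a power. -/
theorem exists_root_ball_of_ne_zero (hn : n ≠ 0) {c : ℂ} {r : ℝ} {g : ℂ → ℂ}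
    (hg : AnalyticOnNhd ℂ g (ball c r)) (h0 : ∀ z ∈ ball c r, g z ≠ 0) :
    ∃ f : ℂ → ℂ, DifferentiableOn ℂ f (ball c r) ∧ ∀ z ∈ ball c r, f z ^ n = g z := by
  rcases le_or_gt r 0 with hr | hr
  · exact ⟨0, differentiableOn_const 0, fun z hz => absurd hz (by simp [ball_eq_empty.2 hr])⟩
  have hd : DifferentiableOn ℂ (fun z => deriv g z / g z) (ball c r) :=
    hg.deriv.differentiableOn.fun_div hg.differentiableOn h0
  obtain ⟨L, hL⟩ := hd.isExactOn_ball
  have hh : ∀ z ∈ ball c r, HasDerivAt (fun z => g z * Complex.exp (-L z)) 0 z := fun z hz => by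
    have h1 := ((hg z hz).differentiableAt.hasDerivAt).mul (hL z hz).neg.cexp
    refine h1.congr_deriv ?_
    field_simp [h0 z hz]
    ring
  have hdiff : DifferentiableOn ℂ (fun z => g z * Complex.exp (-L z)) (ball c r) := fun z hz =>
    (hh z hz).differentiableAt.differentiableWithinAt
  set C := g c * Complex.exp (-L c)
  have hconst : ∀ z ∈ ball c r, g z * Complex.exp (-L z) = C := fun z hz =>
    isOpen_ball.is_const_of_deriv_eq_zero (convex_ball c r).isPreconnected hdiff
      (fun w hw => (hh w hw).deriv) hz (mem_ball_self hr)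
  obtain ⟨d, hd'⟩ := IsAlgClosed.exists_pow_nat_eq C (Nat.pos_of_ne_zero hn)
  refine ⟨fun z => d * Complex.exp (L z / n), fun z hz => ?_, fun z hz => ?_⟩
  · exact (((hL z hz).differentiableAt.div_const (n : ℂ)).cexp.const_mul d).differentiableWithinAt
  · have hn' : (n : ℂ) ≠ 0 := Nat.cast_ne_zero.2 hn
    rw [mul_pow, hd', ← Complex.exp_nat_mul, ← hconst z hz, mul_div_cancel₀ _ hn', mul_assoc,
      ← Complex.exp_add, neg_add_cancel, Complex.exp_zero, mul_one]

theorem finite_zeros_compact {g : ℂ → ℂ} {S : Set ℂ} (hS : IsCompact S)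
    (hg : AnalyticOnNhd ℂ g S) (htop : ∀ z ∈ S, analyticOrderAt g z ≠ ⊤) :
    {z ∈ S | g z = 0}.Finite := by
  have hloc : ∀ z ∈ S, {w : ℂ | w ≠ z → g w ≠ 0} ∈ 𝓝 z := fun z hz => by
    rcases (hg z hz).eventually_eq_zero_or_eventually_ne_zero with h | h
    · exact absurd (analyticOrderAt_eq_top.2 h) (htop z hz)
    · exact eventually_nhdsWithin_iff.1 h
  obtain ⟨t, -, ht⟩ := hS.elim_nhds_subcover _ hloc
  refine t.finite_toSet.subset fun w hw => ?_
  obtain ⟨z, hz, hwz⟩ := Set.mem_iUnion₂.1 (ht hw.1)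
  by_contra hne
  exact hwz (fun e => hne (e ▸ hz)) hw.2

/-- On a disc, a function with orders divisible by `n` is an `n`-th power. -/
theorem exists_root_ball (hn : n ≠ 0) {c : ℂ} {r : ℝ} {U : Set ℂ} (hU : IsOpen U)
    (hsub : closedBall c r ⊆ U) : ∀ (s : Finset ℂ) (g : ℂ → ℂ), AnalyticOnNhd ℂ g U →
      (∀ z ∈ U, analyticOrderAt g z ≠ ⊤) → (∀ z ∈ U, n ∣ analyticOrderNatAt g z) →
      (∀ z ∈ closedBall c r, g z = 0 → z ∈ s) →
      ∃ f : ℂ → ℂ, DifferentiableOn ℂ f (ball c r) ∧ ∀ z ∈ ball c r, f z ^ n = g z := by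
  classical
  intro s
  induction s using Finset.induction with
  | empty =>
    intro g hg _ _ hz
    exact exists_root_ball_of_ne_zero hn (hg.mono (ball_subset_closedBall.trans hsub))
      fun z hz' h0 => Finset.notMem_empty z (hz z (ball_subset_closedBall hz') h0)
  | insert z₀ s hz₀ ih =>
    intro g hg htop hdvd hz
    by_cases hg0 : z₀ ∈ closedBall c r ∧ g z₀ = 0
    swap
    · exact ih g hg htop hdvd fun z hz' h0 =>
        (Finset.mem_insert.1 (hz z hz' h0)).resolve_left fun e => hg0 ⟨e ▸ hz', e ▸ h0⟩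
    have hU0 : z₀ ∈ U := hsub hg0.1
    obtain ⟨ψ, hψ, hψ0, he⟩ := (hg z₀ hU0).analyticOrderAt_ne_top.1 (htop z₀ hU0)
    set m := analyticOrderNatAt g z₀
    obtain ⟨k, hk⟩ : n ∣ m := hdvd z₀ hU0
    have hm : m ≠ 0 := fun h0 => by
      have := he.self_of_nhds
      simp only [hg0.2, h0, pow_zero, one_smul] at this
      exact hψ0 this.symm
    set g₁ : ℂ → ℂ := Function.update (fun z => g z / (z - z₀) ^ m) z₀ (ψ z₀) with hg₁
    have hnear : ∀ z, z ≠ z₀ → g₁ =ᶠ[𝓝 z] fun w => g w / (w - z₀) ^ m := fun z hzz => by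
      filter_upwards [isOpen_compl_singleton.mem_nhds hzz] with w hw
      exact Function.update_of_ne hw _ _
    have hat0 : g₁ =ᶠ[𝓝 z₀] ψ := by
      filter_upwards [he] with w hw
      rcases eq_or_ne w z₀ with rfl | hne
      · simp [hg₁]
      · rw [hg₁, Function.update_of_ne hne, hw, smul_eq_mul,
          mul_div_cancel_left₀ _ (pow_ne_zero _ (sub_ne_zero.2 hne))]
    have hg₁an : AnalyticOnNhd ℂ g₁ U := fun z hzU => by
      rcases eq_or_ne z z₀ with rfl | hne
      · exact hψ.congr hat0.symm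
      · exact ((hg z hzU).div ((analyticAt_id.sub analyticAt_const).pow m)
          (pow_ne_zero _ (sub_ne_zero.2 hne))).congr (hnear z hne).symm
    have hall : ∀ z, g z = (z - z₀) ^ m * g₁ z := fun z => by
      rcases eq_or_ne z z₀ with rfl | hne
      · rw [hg0.2, sub_self, zero_pow hm, zero_mul]
      · rw [hg₁, Function.update_of_ne hne, mul_div_cancel₀ _ (pow_ne_zero _ (sub_ne_zero.2 hne))]
    have hord : ∀ z ∈ U, z ≠ z₀ → analyticOrderAt g₁ z = analyticOrderAt g z := fun z hzU hne => by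
      have hp : AnalyticAt ℂ (fun w : ℂ => (w - z₀) ^ m) z :=
        (analyticAt_id.sub analyticAt_const).fun_pow m
      have h0 : analyticOrderAt (fun w : ℂ => (w - z₀) ^ m) z = 0 :=
        analyticOrderAt_eq_zero.2 (Or.inr (pow_ne_zero _ (sub_ne_zero.2 hne)))
      rw [show g = (fun w => (w - z₀) ^ m) * g₁ from funext hall,
        analyticOrderAt_mul hp (hg₁an z hzU), h0, zero_add]
    have hord0 : analyticOrderAt g₁ z₀ = 0 :=
      analyticOrderAt_eq_zero.2 (Or.inr (by simpa [hg₁] using hψ0))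
    obtain ⟨f, hf, hfe⟩ := ih g₁ hg₁an
      (fun z hzU => by
        rcases eq_or_ne z z₀ with rfl | hne
        · rw [hord0]; exact ENat.zero_ne_top
        · rw [hord z hzU hne]; exact htop z hzU)
      (fun z hzU => by
        rcases eq_or_ne z z₀ with rfl | hne
        · simp [analyticOrderNatAt, hord0]
        · rw [analyticOrderNatAt, hord z hzU hne]; exact hdvd z hzU)
      (fun z hz' h0 => by
        rcases eq_or_ne z z₀ with rfl | hne
        · simp [hg₁, hψ0] at h0
        · refine (Finset.mem_insert.1 (hz z hz' ?_)).resolve_left hne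
          rw [hall, h0, mul_zero])
    refine ⟨fun z => (z - z₀) ^ k * f z,
      ((differentiableOn_id.sub_const z₀).pow k).mul hf, fun z hzb => ?_⟩
    rw [mul_pow, hfe z hzb, ← pow_mul, mul_comm k n, ← hk, ← hall]

/-- Two roots of the same function differ by a constant. -/
theorem exists_ratio (hn : n ≠ 0) {V : Set ℂ} (hV : IsOpen V) (hVc : IsPreconnected V)
    {f f' : ℂ → ℂ} (hf : DifferentiableOn ℂ f V) (hf' : DifferentiableOn ℂ f' V)
    (he : ∀ z ∈ V, f' z ^ n = f z ^ n) {z₀ : ℂ} (hz₀ : z₀ ∈ V) (h0 : f z₀ ≠ 0) :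
    ∃ ζ : ℂ, ζ ^ n = 1 ∧ ∀ z ∈ V, f' z = ζ * f z := by
  classical
  refine ⟨f' z₀ / f z₀, by rw [div_pow, he z₀ hz₀, div_self (pow_ne_zero _ h0)], ?_⟩
  have hcont : ContinuousAt (fun z => f' z / f z) z₀ :=
    ((hf'.continuousOn.continuousAt (hV.mem_nhds hz₀)).div
      (hf.continuousOn.continuousAt (hV.mem_nhds hz₀)) h0)
  have hT : {t : ℂ | t ^ n = 1}.Finite :=
    (Polynomial.nthRootsFinset n (1 : ℂ)).finite_toSet.subset fun t ht => by
      simpa [Polynomial.mem_nthRootsFinset (Nat.pos_of_ne_zero hn)] using ht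
  have hnb : ({t : ℂ | t ^ n = 1} \ {f' z₀ / f z₀})ᶜ ∈ 𝓝 (f' z₀ / f z₀) :=
    (hT.subset diff_subset).isClosed.isOpen_compl.mem_nhds (by simp)
  have hev : ∀ᶠ z in 𝓝 z₀, f' z = f' z₀ / f z₀ * f z := by
    filter_upwards [hcont hnb, hV.mem_nhds hz₀,
      (hf.continuousOn.continuousAt (hV.mem_nhds hz₀)).eventually_ne h0] with z hz hzV hne
    have h1 : (f' z / f z) ^ n = 1 := by rw [div_pow, he z hzV, div_self (pow_ne_zero _ hne)]
    simp only [mem_preimage, mem_compl_iff, Set.mem_sdiff, mem_setOf_eq, h1, true_and,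
      mem_singleton_iff, not_not] at hz
    rw [← hz, div_mul_cancel₀ _ hne]
  exact fun z hz => (hf'.analyticOnNhd hV).eqOn_of_preconnected_of_eventuallyEq
    ((hf.const_mul _).analyticOnNhd hV) hVc hz₀ hev hz

/-- A function on the upper half plane with orders divisible by `n` is an `n`-th power. -/
theorem exists_root (hn : n ≠ 0) {G : Hol} (hG : G ≠ 0)
    (hdvd : ∀ τ : ℍ, n ∣ analyticOrderNatAt ((G : ℍ → ℂ) ∘ ofComplex) τ) :
    ∃ R : Hol, R ^ n = G := by
  classical
  set g := (G : ℍ → ℂ) ∘ ofComplex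
  set U : Set ℂ := {z : ℂ | 0 < z.im}
  have hU : IsOpen U := isOpen_upperHalfPlaneSet
  have hUc : IsPreconnected U :=
    (Complex.isConnected_of_upperHalfPlane (r := 0) subset_rfl (fun z hz => by
      simp only [Set.mem_ofPred_eq] at hz ⊢; exact hz.le)).isPreconnected
  have hgan : AnalyticOnNhd ℂ g U := fun z hz => analyticAt_of_hol G.2 hz
  have htop : ∀ z ∈ U, analyticOrderAt g z ≠ ⊤ := fun z hz h => by
    refine hG (Subtype.ext (funext fun τ => ?_))
    have := hgan.eqOn_zero_of_preconnected_of_eventuallyEq_zero hUc hz (analyticOrderAt_eq_top.1 h)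
      (show (τ : ℂ) ∈ U from τ.im_pos)
    simpa [g] using this
  have hdvd' : ∀ z ∈ U, n ∣ analyticOrderNatAt g z := fun z hz => hdvd ⟨z, hz⟩
  set cc : ℕ → ℂ := fun k => ((k : ℂ) + 2) * Complex.I
  set rr : ℕ → ℝ := fun k => (k : ℝ) + 2 - 1 / ((k : ℝ) + 2)
  have hsub : ∀ k, closedBall (cc k) (rr k) ⊆ U := fun k z hz => by
    have h1 := Complex.abs_im_le_norm (z - cc k)
    rw [mem_closedBall, dist_eq_norm] at hz
    have h2 : (z - cc k).im = z.im - ((k : ℝ) + 2) := by simp [cc]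
    rw [h2, abs_le] at h1
    have h3 : (0 : ℝ) < 1 / ((k : ℝ) + 2) := by positivity
    show 0 < z.im
    simp only [rr] at hz
    linarith [h1.1]
  have hmono : ∀ k, ball (cc k) (rr k) ⊆ ball (cc (k + 1)) (rr (k + 1)) := fun k => by
    refine ball_subset_ball' ?_
    rw [dist_eq_norm, show cc k - cc (k + 1) = -Complex.I by simp [cc]; ring, norm_neg, Complex.norm_I]
    simp only [rr]
    push_cast
    have h4 : 1 / ((k : ℝ) + 1 + 2) ≤ 1 / ((k : ℝ) + 2) :=
      one_div_le_one_div_of_le (by positivity) (by linarith)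
    linarith
  have hroot : ∀ k, ∃ f : ℂ → ℂ, DifferentiableOn ℂ f (ball (cc k) (rr k)) ∧
      ∀ z ∈ ball (cc k) (rr k), f z ^ n = g z := fun k => by
    have hfin := finite_zeros_compact (isCompact_closedBall (cc k) (rr k))
      (hgan.mono (hsub k)) fun z hz => htop z (hsub k hz)
    exact exists_root_ball hn hU (hsub k) hfin.toFinset g hgan htop hdvd'
      fun z hz h0 => hfin.mem_toFinset.2 ⟨hz, h0⟩
  choose f hf hfe using hroot
  have hpt : ∀ k, ∃ z ∈ ball (cc k) (rr k), g z ≠ 0 := fun k => by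
    by_contra hall
    simp only [not_exists, not_and, not_not] at hall
    have hr : 0 < rr k := by
      simp only [rr, sub_pos]
      rw [div_lt_iff₀ (by positivity)]
      nlinarith [(Nat.cast_nonneg k : (0 : ℝ) ≤ k)]
    refine htop (cc k) (hsub k (mem_closedBall_self hr.le)) (analyticOrderAt_eq_top.2 ?_)
    filter_upwards [isOpen_ball.mem_nhds (mem_ball_self hr)] with z hz using hall z hz
  choose pt hptm hptne using hpt
  have hratio : ∀ k, ∃ ζ : ℂ, ζ ^ n = 1 ∧ ∀ z ∈ ball (cc k) (rr k), f (k + 1) z = ζ * f k z :=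
    fun k => exists_ratio hn isOpen_ball (convex_ball _ _).isPreconnected (hf k)
      ((hf (k + 1)).mono (hmono k))
      (fun z hz => by rw [hfe k z hz, hfe (k + 1) z (hmono k hz)]) (hptm k) fun h0 => by
        have := hfe k (pt k) (hptm k)
        rw [h0, zero_pow hn] at this
        exact hptne k this.symm
  choose ζ hζ hζe using hratio
  let d : ℕ → ℂ := fun k => ∏ i ∈ Finset.range k, (ζ i)⁻¹
  have hd : ∀ k, d k ^ n = 1 := fun k => by
    simp [d, ← Finset.prod_pow, inv_pow, hζ]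
  have hstep : ∀ k, ∀ z ∈ ball (cc k) (rr k), d (k + 1) * f (k + 1) z = d k * f k z := fun k z hz => by
    have hne : ζ k ≠ 0 := fun h0 => by
      have := hζ k
      rw [h0, zero_pow hn] at this
      exact zero_ne_one this
    rw [hζe k z hz, show d (k + 1) = d k * (ζ k)⁻¹ from Finset.prod_range_succ _ k]
    field_simp
  have hcompat : ∀ k j, ∀ z ∈ ball (cc k) (rr k),
      z ∈ ball (cc (k + j)) (rr (k + j)) ∧ d (k + j) * f (k + j) z = d k * f k z := by
    intro k j
    induction j with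
    | zero => exact fun z hz => ⟨hz, rfl⟩
    | succ j ih => exact fun z hz => ⟨hmono _ (ih z hz).1, (hstep _ z (ih z hz).1).trans (ih z hz).2⟩
  have hcover : ∀ z ∈ U, ∃ k, z ∈ ball (cc k) (rr k) := fun z hz => by
    obtain ⟨k, hk⟩ := exists_nat_gt ((z.re ^ 2 + z.im ^ 2 + 3) / z.im)
    refine ⟨k, ?_⟩
    have hk' : z.re ^ 2 + z.im ^ 2 + 3 < k * z.im := (div_lt_iff₀ hz).1 hk
    rw [mem_ball, dist_eq_norm]
    have h2 : (0 : ℝ) < (k : ℝ) + 2 := by positivity
    have hr : 0 ≤ rr k := by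
      simp only [rr, sub_nonneg]
      rw [div_le_iff₀ h2]
      nlinarith [(Nat.cast_nonneg k : (0 : ℝ) ≤ k)]
    rw [← Real.sqrt_sq hr, Complex.norm_def]
    refine Real.sqrt_lt_sqrt (Complex.normSq_nonneg _) ?_
    rw [Complex.normSq_apply]
    have e1 : (z - cc k).re = z.re := by simp [cc]
    have e2 : (z - cc k).im = z.im - ((k : ℝ) + 2) := by simp [cc]
    rw [e1, e2]
    simp only [rr]
    have h3 : ((k : ℝ) + 2) * (1 / ((k : ℝ) + 2)) = 1 := by field_simp
    have h5 : (0 : ℝ) < z.im := hz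
    nlinarith [sq_nonneg (1 / ((k : ℝ) + 2)), (Nat.cast_nonneg k : (0 : ℝ) ≤ k)]
  let idx : ℂ → ℕ := fun z => if h : z ∈ U then Nat.find (hcover z h) else 0
  have hR : ∀ k, ∀ z ∈ ball (cc k) (rr k), d (idx z) * f (idx z) z = d k * f k z := fun k z hz => by
    have hzU : z ∈ U := hsub k (ball_subset_closedBall hz)
    simp only [idx, dif_pos hzU]
    have h1 := Nat.find_spec (hcover z hzU)
    have h2 : Nat.find (hcover z hzU) ≤ k := Nat.find_le hz
    obtain ⟨j, hj⟩ := Nat.exists_eq_add_of_le h2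
    rw [hj, (hcompat _ j z h1).2]
  let Rf : ℂ → ℂ := fun z => d (idx z) * f (idx z) z
  have hdiff : DifferentiableOn ℂ Rf U := fun z hz => by
    obtain ⟨k, hk⟩ := hcover z hz
    refine DifferentiableAt.differentiableWithinAt ?_
    refine (((hf k).differentiableAt (isOpen_ball.mem_nhds hk)).const_mul (d k)).congr_of_eventuallyEq ?_
    filter_upwards [isOpen_ball.mem_nhds hk] with w hw using hR k w hw
  have hmd : MDiff fun τ : ℍ => Rf τ := by
    rw [UpperHalfPlane.mdifferentiable_iff]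
    refine hdiff.congr fun z hz => ?_
    simp [Function.comp_apply, ofComplex_apply_of_im_pos hz]
  refine ⟨⟨_, hmd⟩, Subtype.ext (funext fun τ => ?_)⟩
  obtain ⟨k, hk⟩ := hcover τ τ.im_pos
  show Rf τ ^ n = (G : ℍ → ℂ) τ
  simp only [Rf]
  rw [hR k τ hk, mul_pow, hd, hfe k τ hk, one_mul]
  simp [g]

theorem analyticOrderNatAt_of_hasLead {f : ℂ → ℂ} {z₀ a : ℂ} {k : ℕ} (hf : AnalyticAt ℂ f z₀)
    (h : HasLead z₀ f k a) : analyticOrderNatAt f z₀ = k := by
  obtain ⟨ha, ψ, hψ, hψa, he⟩ := h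
  have : analyticOrderAt f z₀ = k :=
    hf.analyticOrderAt_eq_natCast.2 ⟨ψ, hψ, hψa ▸ ha, by simpa [smul_eq_mul] using he⟩
  simp [analyticOrderNatAt, this]

theorem taylor_order_eq {f : Hol} (hf : f ≠ 0) (τ : ℍ) :
    (taylorAt τ f).order = (analyticOrderNatAt ((f : ℍ → ℂ) ∘ ofComplex) τ : ℕ∞) := by
  obtain ⟨k, a, hk⟩ := exists_hasLead f.2 (fun e => hf (Subtype.ext e)) τ
  rw [analyticOrderNatAt_of_hasLead (analyticAt_of_hol f.2 τ.im_pos) hk]
  exact hk.tay_order.1

end FLTAgent.TorsionHom
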